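import Fermat.Agent.Gallagher.PNT

/-!
# Primes in progressions, with a count

Gallagher's prime number theorem at `Q = max q (exp √(log x))`: every class prime to `q` has at least
`c x / (q ^ A φ(q))` of the sum of `Λ` on `(x, 2 x]` as soon as `x ≥ C q ^ L`, and so at least
`c x / (q ^ A φ(q) log x)` primes up to `x`.
-/

set_option autoImplicit false
set_option linter.unusedSectionVars false

noncomputable section

open Complex Finset
open DirichletCharacter (changeLevel)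
open FA.LinnikPrime (lg exists_one_sub_zero_ge clear_of_ne_one)
open scoped Real Classical ArithmeticFunction.vonMangoldt

namespace FA.Gallagher

variable {q : ℕ} [NeZero q]

/-- The primitive character behind a character, as a point of the family. -/
def primOf (χ : DirichletCharacter ℂ q) : Σ n : ℕ, DirichletCharacter ℂ n :=
  ⟨χ.conductor, χ.primitiveCharacter⟩

theorem primOf_mem {Q : ℕ} (hq : q ≤ Q) (χ : DirichletCharacter ℂ q) : primOf χ ∈ family Q :=
  mem_family.2 ⟨Nat.one_le_iff_ne_zero.2 χ.conductor_ne_zero,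
    (Nat.le_of_dvd (NeZero.pos q) χ.conductor_dvd_level).trans hq, χ.primitiveCharacter_isPrimitive⟩

theorem changeLevel_congr {a b : ℕ} (ha : a ∣ q) (hb : b ∣ q) (u : DirichletCharacter ℂ a)
    (v : DirichletCharacter ℂ b) (h : (⟨a, u⟩ : Σ n : ℕ, DirichletCharacter ℂ n) = ⟨b, v⟩) :
    changeLevel ha u = changeLevel hb v := by
  cases h
  rfl

theorem primOf_injective : Function.Injective (primOf (q := q)) := fun χ ψ h => by
  rw [← χ.changeLevel_primitiveCharacter, ← ψ.changeLevel_primitiveCharacter]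
  exact changeLevel_congr _ _ _ _ h

theorem primOf_eq_one_iff (χ : DirichletCharacter ℂ q) : (primOf χ).2 = 1 ↔ χ = 1 := by
  refine ⟨fun h => ?_, fun h => ?_⟩
  · rw [← χ.changeLevel_primitiveCharacter, show χ.primitiveCharacter = 1 from h, map_one]
  · subst h
    exact DirichletCharacter.primitiveCharacter_one

theorem mainTerm_primOf (χ : DirichletCharacter ℂ q) (h : ℝ) :
    mainTerm (primOf χ) h = if χ = 1 then (h : ℂ) else 0 := by
  rw [mainTerm]
  simp only [primOf_eq_one_iff]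

theorem primOf_apply (χ : DirichletCharacter ℂ q) {n : ℕ} (hn : n.Coprime q) :
    (primOf χ).2 (n : ZMod (primOf χ).1) = χ (n : ZMod q) := by
  have h := χ.primitiveCharacter_apply_of_isCoprime (a := (n : ℤ)) (Nat.Coprime.isCoprime hn)
  rw [Int.cast_natCast, Int.cast_natCast] at h
  exact h

/-- The prime powers of `(x, 2 x]` not prime to `q` are few. -/
theorem sum_not_coprime_le {x : ℝ} (hx : 1 ≤ x) :
    ∑ n ∈ (Ioc ⌊x⌋₊ ⌊x + x⌋₊).filter (fun n => ¬n.Coprime q), Λ n ≤ q * Real.log (x + x) := by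
  obtain ⟨B, hB⟩ : ∃ B : Finset ℕ,
      B = (Ioc ⌊x⌋₊ ⌊x + x⌋₊).filter (fun n => ¬n.Coprime q ∧ IsPrimePow n) := ⟨_, rfl⟩
  have hsum : ∑ n ∈ (Ioc ⌊x⌋₊ ⌊x + x⌋₊).filter (fun n => ¬n.Coprime q), Λ n = ∑ n ∈ B, Λ n := by
    refine (Finset.sum_subset ?_ fun n hn hn' => ?_).symm
    · rw [hB]
      exact Finset.monotone_filter_right _ fun n _ hn => hn.1
    · rw [ArithmeticFunction.vonMangoldt_eq_zero_iff]
      intro hpp
      obtain ⟨h1, h2⟩ := Finset.mem_filter.1 hn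
      exact hn' (hB ▸ Finset.mem_filter.2 ⟨h1, h2, hpp⟩)
  have hform : ∀ n ∈ B, ∃ p k : ℕ, p.Prime ∧ p ∈ q.primeFactors ∧ p ^ k = n ∧ n.minFac = p ∧
      x < (n : ℝ) ∧ (n : ℝ) ≤ x + x := fun n hn => by
    rw [hB, Finset.mem_filter, Finset.mem_Ioc] at hn
    obtain ⟨⟨h1, h2⟩, hc, hpp⟩ := hn
    obtain ⟨p, k, hp, hk, rfl⟩ := (isPrimePow_nat_iff n).1 hpp
    refine ⟨p, k, hp, Nat.mem_primeFactors.2 ⟨hp, ?_, NeZero.ne q⟩, rfl, hp.pow_minFac hk.ne',
      Nat.lt_of_floor_lt h1, (Nat.cast_le.2 h2).trans (Nat.floor_le (by linarith))⟩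
    rw [Nat.coprime_pow_left_iff hk, hp.coprime_iff_not_dvd, not_not] at hc
    exact hc
  have hcard : B.card ≤ q := by
    refine le_trans (Finset.card_le_card_of_injOn Nat.minFac (fun n hn => ?_) ?_)
      (show q.primeFactors.card ≤ q from ?_)
    · obtain ⟨p, k, -, hp, -, hm, -⟩ := hform n hn
      rwa [hm]
    · intro n hn m hm hnm
      obtain ⟨p, i, hp, -, rfl, hm1, hn1, hn2⟩ := hform n hn
      obtain ⟨p', j, hp', -, rfl, hm2, hm3, hm4⟩ := hform m hm
      rw [hm1, hm2] at hnm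
      subst hnm
      have key : ∀ {i j : ℕ}, x < ((p ^ i : ℕ) : ℝ) → ((p ^ j : ℕ) : ℝ) ≤ x + x → j ≤ i := by
        intro i j h1 h2
        by_contra hlt
        push_cast at h1 h2
        have h3 : (2 : ℝ) ≤ p := by exact_mod_cast hp.two_le
        have h4 := pow_le_pow_right₀ (show (1 : ℝ) ≤ p by linarith) (not_le.1 hlt)
        rw [Nat.succ_eq_add_one, pow_succ] at h4
        nlinarith
      rw [le_antisymm (key hm3 hn2) (key hn1 hm4)]
    · refine le_trans (Finset.card_le_card fun p hp => ?_) (Nat.card_Icc 1 q).le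
      rw [Finset.mem_Icc]
      exact ⟨(Nat.prime_of_mem_primeFactors hp).one_le, Nat.le_of_mem_primeFactors hp⟩
  rw [hsum]
  refine (Finset.sum_le_card_nsmul _ _ (Real.log (x + x)) fun n hn => ?_).trans ?_
  · obtain ⟨-, -, -, -, -, -, h1, h2⟩ := hform n hn
    exact ArithmeticFunction.vonMangoldt_le_log.trans (Real.log_le_log (by linarith) h2)
  · rw [nsmul_eq_mul]
    exact mul_le_mul_of_nonneg_right (Nat.cast_le.2 hcard) (Real.log_nonneg (by linarith))

/-- Passing to the primitive character. -/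
theorem norm_psiInt_sub_primOf_le (χ : DirichletCharacter ℂ q) {x : ℝ} (hx : 1 ≤ x) :
    ‖psiInt ⟨q, χ⟩ x x - psiInt (primOf χ) x x‖ ≤ q * Real.log (x + x) := by
  refine le_trans ?_ (sum_not_coprime_le hx)
  rw [psiInt, psiInt, ← Finset.sum_sub_distrib, Finset.sum_filter]
  refine (norm_sum_le _ _).trans (Finset.sum_le_sum fun n _ => ?_)
  dsimp only
  rw [← sub_mul, norm_mul, norm_real, Real.norm_of_nonneg ArithmeticFunction.vonMangoldt_nonneg]
  by_cases h : n.Coprime q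
  · rw [if_neg (not_not.2 h), primOf_apply χ h, sub_self, norm_zero, zero_mul]
  · have hχ : χ (n : ZMod q) = 0 := MulChar.map_nonunit _ fun hu => h ((ZMod.isUnit_iff_coprime n q).1 hu)
    rw [if_pos h, hχ, zero_sub, norm_neg]
    exact mul_le_of_le_one_left ArithmeticFunction.vonMangoldt_nonneg ((primOf χ).2.norm_le_one _)

/-- `∑ Λ(n)` over the class of `a` in `(x, 2 x]`. -/
def classSum (a : ZMod q) (x : ℝ) : ℝ :=
  ∑ n ∈ Ioc ⌊x⌋₊ ⌊x + x⌋₊, if a = (n : ZMod q) then Λ n else 0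

theorem totient_mul_classSum {a : ZMod q} (ha : IsUnit a) (x : ℝ) :
    (((q.totient : ℕ) * classSum a x : ℝ) : ℂ) =
      ∑ χ : DirichletCharacter ℂ q, χ a⁻¹ * psiInt ⟨q, χ⟩ x x := by
  simp only [psiInt, Finset.mul_sum]
  rw [Finset.sum_comm]
  rw [classSum, Finset.mul_sum, ofReal_sum]
  refine Finset.sum_congr rfl fun n _ => ?_
  rw [Finset.sum_congr rfl fun (χ : DirichletCharacter ℂ q) (_ : χ ∈ Finset.univ) =>
    (mul_assoc (χ a⁻¹) (χ (n : ZMod q)) (Λ n : ℂ)).symm, ← Finset.sum_mul,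
    DirichletCharacter.sum_char_inv_mul_char_eq ℂ ha]
  split_ifs <;> simp

/-- The class sum against the family, with any correction. -/
theorem norm_classSum_sub_le {a : ZMod q} (ha : IsUnit a) {Q : ℕ} (hq : q ≤ Q) {x : ℝ} (hx : 1 ≤ x)
    (T : (Σ n : ℕ, DirichletCharacter ℂ n) → ℂ) :
    ‖(((q.totient : ℕ) * classSum a x : ℝ) : ℂ) - x +
        ∑ χ : DirichletCharacter ℂ q, χ a⁻¹ * T (primOf χ)‖ ≤
      ∑ u ∈ family Q, ‖psiInt u x x - mainTerm u x + T u‖ + q.totient * (q * Real.log (x + x)) := by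
  have ha' : IsUnit a⁻¹ := IsUnit.of_mul_eq_one a (by rw [mul_comm]; exact ZMod.mul_inv_of_unit a ha)
  have hmain : ∑ χ : DirichletCharacter ℂ q, χ a⁻¹ * mainTerm (primOf χ) x = (x : ℂ) := by
    simp only [mainTerm_primOf, mul_ite, mul_zero, Finset.sum_ite_eq', Finset.mem_univ, if_true,
      MulChar.one_apply ha', one_mul]
  have e : (((q.totient : ℕ) * classSum a x : ℝ) : ℂ) - x +
      ∑ χ : DirichletCharacter ℂ q, χ a⁻¹ * T (primOf χ) =
      ∑ χ : DirichletCharacter ℂ q, χ a⁻¹ * (psiInt ⟨q, χ⟩ x x - psiInt (primOf χ) x x +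
        (psiInt (primOf χ) x x - mainTerm (primOf χ) x + T (primOf χ))) := by
    rw [totient_mul_classSum ha, ← hmain, ← Finset.sum_sub_distrib, ← Finset.sum_add_distrib]
    exact Finset.sum_congr rfl fun χ _ => by ring
  rw [e]
  refine (norm_sum_le _ _).trans ?_
  refine (Finset.sum_le_sum (g := fun χ : DirichletCharacter ℂ q =>
    ‖psiInt (primOf χ) x x - mainTerm (primOf χ) x + T (primOf χ)‖ + q * Real.log (x + x)) fun χ _ => ?_).trans ?_
  · rw [norm_mul]
    refine (mul_le_of_le_one_left (norm_nonneg _) (χ.norm_le_one _)).trans ((norm_add_le _ _).trans ?_)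
    linarith [norm_psiInt_sub_primOf_le χ hx]
  · rw [Finset.sum_add_distrib, Finset.sum_const, nsmul_eq_mul, Finset.card_univ,
      ← Nat.card_eq_fintype_card, DirichletCharacter.card_eq_totient_of_hasEnoughRootsOfUnity]
    refine add_le_add_left ?_ _
    rw [← Finset.sum_image (f := fun u => ‖psiInt u x x - mainTerm u x + T u‖)
      fun χ _ ψ _ h => primOf_injective h]
    refine Finset.sum_le_sum_of_subset_of_nonneg ?_ fun _ _ _ => norm_nonneg _
    exact Finset.image_subset_iff.2 fun χ _ => primOf_mem hq χ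

theorem half_min_le (t : ℝ) (ht' : 0 ≤ t) : min t 1 / 2 ≤ 1 - Real.exp (-t) := by
  have h1 : Real.exp (-t) ≤ (1 + t)⁻¹ := by
    rw [Real.exp_neg]
    exact inv_anti₀ (by linarith) (by linarith [Real.add_one_le_exp t])
  have h2 : (1 + t)⁻¹ ≤ 1 - min t 1 / 2 := by
    rw [inv_le_iff_one_le_mul₀' (by linarith)]
    rcases le_total t 1 with h | h
    · rw [min_eq_left h]; nlinarith
    · rw [min_eq_right h]; nlinarith
  linarith

/-- **Every class has its share of `(x, 2 x]`.** -/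
theorem exists_classSum_ge : ∃ c : ℝ, ∃ A L C : ℕ, 0 < c ∧ 3 ≤ C ∧ ∀ (q : ℕ) [NeZero q] (a : ZMod q),
    IsUnit a → ∀ x : ℝ, (C : ℝ) * (q : ℝ) ^ L ≤ x →
      c * x / ((q : ℝ) ^ A * q.totient) ≤ classSum a x := by
  obtain ⟨Cg, cg, M, hCg, hcg, hgal⟩ := exists_gallagher
  obtain ⟨G, hG, hsieg⟩ := exists_one_sub_zero_ge
  obtain ⟨A, hA⟩ : ∃ A : ℕ, A = ⌈G⌉₊ := ⟨_, rfl⟩
  obtain ⟨K, hK⟩ : ∃ K : ℕ, K = M + ⌈8 * Cg / cg⌉₊ + 1 := ⟨_, rfl⟩
  obtain ⟨L, hL⟩ : ∃ L : ℕ, L = K + 2 * (A + 2) := ⟨_, rfl⟩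
  obtain ⟨C, hC⟩ : ∃ C : ℕ, C = ⌈Real.exp (4 * (K : ℝ) ^ 2)⌉₊ + ⌈(32 * Real.exp (4 * G)) ^ 2⌉₊ + 3 := ⟨_, rfl⟩
  refine ⟨(8 * Real.exp (4 * G))⁻¹, A, L, C, by positivity, by omega, fun q _ a ha x hx => ?_⟩
  have hq1 : (1 : ℝ) ≤ q := Nat.one_le_cast.2 (NeZero.pos q)
  have hqL : ∀ j ≤ L, (q : ℝ) ^ j ≤ (q : ℝ) ^ L := fun j hj => pow_le_pow_right₀ hq1 hj
  have hbound : ∀ (c : ℝ) (j : ℕ), c ≤ (C : ℝ) → j ≤ L → c * (q : ℝ) ^ j ≤ x := fun c j hc hj =>
    (mul_le_mul hc (hqL j hj) (by positivity) (Nat.cast_nonneg C)).trans hx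
  have hCR : Real.exp (4 * (K : ℝ) ^ 2) ≤ C ∧ (32 * Real.exp (4 * G)) ^ 2 ≤ C ∧ (3 : ℝ) ≤ C := by
    refine ⟨(Nat.le_ceil _).trans (Nat.cast_le.2 ?_), (Nat.le_ceil _).trans (Nat.cast_le.2 ?_), ?_⟩
    · omega
    · omega
    · exact_mod_cast (show 3 ≤ C by omega)
  have hx3 : 3 ≤ x := by simpa using hbound 3 0 hCR.2.2 (Nat.zero_le _)
  have hx1 : 1 ≤ x := by linarith
  have hlx : 4 * (K : ℝ) ^ 2 ≤ Real.log x := by
    rw [Real.le_log_iff_exp_le (by linarith)]
    simpa using hbound _ 0 hCR.1 (Nat.zero_le _)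
  have hK1 : (1 : ℝ) ≤ K := Nat.one_le_cast.2 (by omega)
  have hqK : (K : ℝ) * Real.log q ≤ Real.log x := by
    rw [← Real.log_pow]
    refine Real.log_le_log (by positivity) ?_
    simpa using hbound 1 K (by linarith [hCR.2.2]) (by omega)
  -- the parameter
  obtain ⟨s, hs⟩ : ∃ s, s = Real.sqrt (Real.log x) := ⟨_, rfl⟩
  have hss : s * s = Real.log x := hs ▸ Real.mul_self_sqrt (le_trans (by positivity) hlx)
  have hsK : 2 * (K : ℝ) ≤ s := by
    rw [hs]
    exact Real.le_sqrt_of_sq_le (by rw [mul_pow]; linarith)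
  obtain ⟨E, hE⟩ : ∃ E : ℕ, E = ⌈Real.exp s⌉₊ := ⟨_, rfl⟩
  have hEge : Real.exp s ≤ E := hE ▸ Nat.le_ceil _
  have hE2 : 2 ≤ E := by
    have h1 : (2 : ℝ) ≤ E := by linarith [Real.add_one_le_exp s]
    exact_mod_cast h1
  have hEle : Real.log E ≤ s + 1 := by
    have h1 : (E : ℝ) ≤ 2 * Real.exp s := by
      have := Nat.ceil_lt_add_one (Real.exp_pos s).le
      rw [← hE] at this
      linarith [Real.one_le_exp (show 0 ≤ s by linarith)]
    refine (Real.log_le_log (by linarith [Real.exp_pos s]) h1).trans ?_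
    rw [Real.log_mul two_ne_zero (Real.exp_pos s).ne', Real.log_exp]
    linarith [Real.log_two_lt_d9]
  obtain ⟨Q, hQ⟩ : ∃ Q : ℕ, Q = max q E := ⟨_, rfl⟩
  have hQ2 : 2 ≤ Q := hQ ▸ hE2.trans (le_max_right _ _)
  have hsQ : s ≤ Real.log Q := by
    rw [← Real.log_exp s]
    exact Real.log_le_log (Real.exp_pos s) (hEge.trans (Nat.cast_le.2 (hQ ▸ le_max_right _ _)))
  have hQK : (K : ℝ) * Real.log Q ≤ Real.log x := by
    rcases max_choice q E with h | h
    · rw [hQ, h]; exact hqK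
    · rw [hQ, h, ← hss]
      refine (mul_le_mul_of_nonneg_left hEle (by linarith)).trans ?_
      nlinarith
  have hlQ0 : 0 < Real.log Q := Real.log_pos (by exact_mod_cast hQ2)
  have hQx : (Q : ℝ) ^ M ≤ x := by
    rw [← Real.log_le_log_iff (pow_pos (by exact_mod_cast (show 0 < Q by omega)) M) (by linarith), Real.log_pow]
    refine le_trans (mul_le_mul_of_nonneg_right (Nat.cast_le.2 ?_) hlQ0.le) hQK
    omega
  have hlx2 : Real.log x ≤ Real.log Q ^ 2 := by
    rw [← hss, sq]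
    exact mul_le_mul hsQ hsQ (by linarith) hlQ0.le
  have hdec : Cg * Real.exp (-(cg * (Real.log x / Real.log Q))) ≤ 1 / 8 := by
    have h1 : 8 * Cg / cg ≤ Real.log x / Real.log Q := by
      refine le_trans ?_ ((le_div_iff₀ hlQ0).2 hQK)
      refine (Nat.le_ceil _).trans (Nat.cast_le.2 ?_)
      omega
    rw [div_le_iff₀ hcg, mul_comm _ cg] at h1
    have h2 := Real.add_one_le_exp (cg * (Real.log x / Real.log Q))
    rw [Real.exp_neg, ← div_eq_mul_inv, div_le_iff₀ (Real.exp_pos _)]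
    linarith
  -- the floor `θ` for the main term
  obtain ⟨θ, hθ⟩ : ∃ θ : ℝ, θ = Real.exp (-(G * lg q)) := ⟨_, rfl⟩
  have hlgq : 0 ≤ G * lg q :=
    mul_nonneg (by linarith) (by linarith [FA.LinnikPrime.four_le_lg q])
  have hθ1 : θ ≤ 1 := hθ ▸ Real.exp_le_one_iff.2 (by linarith)
  have hθA : (Real.exp (4 * G) * (q : ℝ) ^ A)⁻¹ ≤ θ := by
    rw [hθ, Real.exp_neg]
    refine inv_anti₀ (Real.exp_pos _) ?_
    rw [lg, mul_add, Real.exp_add, mul_comm, mul_comm G (Real.log q), mul_comm G 4,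
      ← Real.rpow_def_of_pos (by linarith), ← Real.rpow_natCast]
    refine mul_le_mul_of_nonneg_left (Real.rpow_le_rpow_of_exponent_le hq1 ?_) (Real.exp_pos _).le
    rw [hA]
    exact Nat.le_ceil G
  have hrem : (q.totient : ℝ) * (q * Real.log (x + x)) ≤ x / 8 * θ := by
    refine le_trans ?_ (mul_le_mul_of_nonneg_left hθA (by linarith))
    have h1 : Real.log (x + x) ≤ 4 * Real.sqrt x := by
      have h2 : Real.log x ≤ 2 * Real.sqrt x := by
        have := Real.log_le_rpow_div (show 0 ≤ x by linarith) (show (0 : ℝ) < 1 / 2 by norm_num)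
        rw [← Real.sqrt_eq_rpow] at this
        linarith
      rw [← two_mul, Real.log_mul two_ne_zero (by linarith)]
      linarith [Real.log_two_lt_d9, Real.one_le_sqrt.2 hx1]
    have hφ : (q.totient : ℝ) ≤ q := Nat.cast_le.2 (Nat.totient_le q)
    refine (mul_le_mul hφ (mul_le_mul_of_nonneg_left h1 (by positivity)) (mul_nonneg (by positivity)
      (Real.log_nonneg (by linarith))) (by positivity)).trans ?_
    rw [← div_eq_mul_inv, le_div_iff₀ (by positivity)]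
    have h3 := hbound ((32 * Real.exp (4 * G)) ^ 2) (2 * (A + 2)) hCR.2.1 (by omega)
    rw [pow_mul', ← mul_pow] at h3
    have h4 := mul_le_mul_of_nonneg_right (Real.le_sqrt_of_sq_le h3) (Real.sqrt_nonneg x)
    rw [Real.mul_self_sqrt (by linarith), pow_add] at h4
    linarith
  -- the bound
  suffices h : x / 8 * θ ≤ q.totient * classSum a x by
    have h2 := (mul_le_mul_of_nonneg_left hθA (show 0 ≤ x / 8 by linarith)).trans h
    rw [div_le_iff₀ (mul_pos (by positivity) (Nat.cast_pos.2 (Nat.totient_pos.2 (NeZero.pos q))))]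
    have e : (8 * Real.exp (4 * G))⁻¹ * x =
        x / 8 * (Real.exp (4 * G) * (q : ℝ) ^ A)⁻¹ * (q : ℝ) ^ A := by field_simp
    rw [e]
    refine (mul_le_mul_of_nonneg_right h2 (by positivity)).trans (le_of_eq ?_)
    ring
  have hlow : ∀ (W : ℂ) (E : ℝ), ‖(((q.totient : ℕ) * classSum a x : ℝ) : ℂ) - x + W‖ ≤ E →
      x - ‖W‖ - E ≤ q.totient * classSum a x := fun W E hWE => by
    have h1 := (abs_le.1 ((abs_re_le_norm _).trans hWE)).1
    simp only [add_re, sub_re, ofReal_re] at h1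
    linarith [(abs_le.1 (abs_re_le_norm W)).2]
  have hxQ : x / (Q : ℝ) ≤ x :=
    div_le_self (by linarith) (Nat.one_le_cast.2 (by omega))
  rcases hgal Q hQ2 x x hQx hlx2 hxQ le_rfl with hno | ⟨u₁, hu₁, hne1, hsq, β, hβ0, hβ12, hδQ, hex⟩
  · have h1 := norm_classSum_sub_le ha (hQ ▸ le_max_left q E) hx1 (fun _ => 0)
    simp only [add_zero] at h1
    refine le_trans ?_ (hlow 0 _ (by simpa using h1.trans (add_le_add hno le_rfl)))
    rw [norm_zero]
    have h2 := mul_le_mul_of_nonneg_right hdec (show 0 ≤ x by linarith)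
    have h3 : x / 8 * θ ≤ x / 8 := mul_le_of_le_one_right (by linarith) hθ1
    linarith
  · have : NeZero u₁.1 := ⟨Nat.one_le_iff_ne_zero.1 (mem_family.1 hu₁).1⟩
    rw [lfun_eq] at hβ0
    have hβ1 : β < 1 := by simpa using FA.LinnikPrime.re_lt_one_of_clear hβ0
    obtain ⟨g, hg⟩ : ∃ g : ℝ, g = excG x x β := ⟨_, rfl⟩
    rw [← hg] at hex
    have hg0 : 0 ≤ g := hg ▸ excG_nonneg (by linarith) (by linarith) (by linarith)
    have hg1 : g ≤ x * Real.exp (-((1 - β) * Real.log x)) := by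
      refine (hg ▸ excG_le (by linarith) hβ1.le hx1 (by linarith)).trans (le_of_eq ?_)
      rw [Real.rpow_def_of_pos (by linarith)]
      ring_nf
    obtain ⟨T, hT⟩ : ∃ T : (Σ n : ℕ, DirichletCharacter ℂ n) → ℂ,
        T = fun u => if u = u₁ then (g : ℂ) else 0 := ⟨_, rfl⟩
    have h1 := hlow _ _ ((norm_classSum_sub_le ha (hQ ▸ le_max_left q E) hx1 T).trans
      (add_le_add (show ∑ u ∈ family Q, ‖psiInt u x x - mainTerm u x + T u‖ ≤
        Cg * ((1 - β) * Real.log Q) * x * Real.exp (-(cg * (Real.log x / Real.log Q))) by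
          simp only [hT]; exact hex) le_rfl))
    refine le_trans ?_ h1
    have h2 := mul_le_mul_of_nonneg_left hdec (show 0 ≤ (1 - β) * Real.log Q * x from
      mul_nonneg (mul_nonneg (by linarith) hlQ0.le) (by linarith))
    by_cases himg : ∃ χ : DirichletCharacter ℂ q, primOf χ = u₁
    · obtain ⟨χ₁, hχ₁⟩ := himg
      have hq' : u₁.1 ≤ q := by
        rw [← hχ₁]; exact Nat.le_of_dvd (NeZero.pos q) χ₁.conductor_dvd_level
      have hW : ‖∑ χ : DirichletCharacter ℂ q, χ a⁻¹ * T (primOf χ)‖ ≤ g := by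
        rw [Finset.sum_eq_single χ₁ (fun χ _ hχ => by
          rw [hT]; dsimp only; rw [if_neg fun h => hχ (primOf_injective (h.trans hχ₁.symm)), mul_zero])
          (by simp), norm_mul, hT]
        dsimp only
        rw [if_pos hχ₁, norm_real, Real.norm_of_nonneg hg0]
        exact mul_le_of_le_one_left hg0 (χ₁.norm_le_one _)
      have hδ : θ ≤ 1 - β := by
        refine le_trans ?_ (hsieg u₁.1 u₁.2 hne1 hsq β (by rw [← clear_of_ne_one hne1]; exact hβ0))
        rw [hθ, Real.exp_le_exp, neg_le_neg_iff]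
        refine mul_le_mul_of_nonneg_left ?_ (by linarith)
        rw [lg, lg]
        linarith [Real.log_le_log (Nat.cast_pos.2 (NeZero.pos u₁.1)) (Nat.cast_le.2 hq' : (u₁.1 : ℝ) ≤ q)]
      obtain ⟨t, ht'⟩ : ∃ t, t = (1 - β) * Real.log x := ⟨_, rfl⟩
      have hl1 : 1 ≤ Real.log x := le_trans (by nlinarith) hlx
      have ht1 : 1 - β ≤ t := ht' ▸ le_mul_of_one_le_right (by linarith) hl1
      have ht2 : (1 - β) * Real.log Q ≤ min t 1 := by
        refine le_min (ht' ▸ mul_le_mul_of_nonneg_left ?_ (by linarith)) hδQ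
        exact le_trans (le_mul_of_one_le_left hlQ0.le hK1) hQK
      have ht3 : θ ≤ min t 1 := le_min (hδ.trans ht1) hθ1
      rw [← ht'] at hg1
      have h3 := mul_le_mul_of_nonneg_left (half_min_le t (by linarith)) (show 0 ≤ x by linarith)
      have h4 := mul_le_mul_of_nonneg_left ht2 (show 0 ≤ x by linarith)
      have h5 := mul_le_mul_of_nonneg_left ht3 (show 0 ≤ x by linarith)
      have h6 : 0 ≤ x * θ := mul_nonneg (by linarith) (hθ ▸ (Real.exp_pos _).le)
      linarith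
    · have hW : ∑ χ : DirichletCharacter ℂ q, χ a⁻¹ * T (primOf χ) = 0 := Finset.sum_eq_zero fun χ _ => by
        rw [hT]; dsimp only; rw [if_neg fun h => himg ⟨χ, h⟩, mul_zero]
      rw [hW, norm_zero]
      have h3 : x / 8 * θ ≤ x / 8 := mul_le_of_le_one_right (by linarith) hθ1
      have h4 := mul_le_mul_of_nonneg_right hδQ (show 0 ≤ x by linarith)
      linarith

/-- **`ψ(x; q, a)` from below.** -/
theorem exists_psi_class_ge : ∃ c : ℝ, ∃ A L C : ℕ, 0 < c ∧ ∀ q : ℕ, 0 < q → ∀ a : ℕ, a.Coprime q →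
    ∀ x : ℝ, (C : ℝ) * (q : ℝ) ^ L ≤ x →
      c * x / ((q : ℝ) ^ A * q.totient) ≤
        ∑ n ∈ (Icc 1 ⌊x⌋₊).filter (fun n => n ≡ a [MOD q]), Λ n := by
  obtain ⟨c, A, L, C, hc, -, h⟩ := exists_classSum_ge
  refine ⟨c / 2, A, L, 2 * C, by linarith, fun q hq a ha x hx => ?_⟩
  have : NeZero q := ⟨hq.ne'⟩
  push_cast at hx
  have h1 := h q (a : ZMod q) ((ZMod.isUnit_iff_coprime a q).2 ha) (x / 2) (by linarith)
  rw [show c * (x / 2) = c / 2 * x by ring, classSum, add_halves, ← Finset.sum_filter] at h1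
  refine h1.trans (Finset.sum_le_sum_of_subset_of_nonneg (fun n hn => ?_)
    fun n _ _ => ArithmeticFunction.vonMangoldt_nonneg)
  rw [Finset.mem_filter, Finset.mem_Ioc] at hn
  rw [Finset.mem_filter, Finset.mem_Icc]
  exact ⟨⟨by omega, hn.1.2⟩, (ZMod.natCast_eq_natCast_iff _ _ _).1 hn.2.symm⟩

/-- **`π(x; q, a)` from below.** -/
theorem exists_pi_class_ge : ∃ c : ℝ, ∃ A L C : ℕ, 0 < c ∧ ∀ q : ℕ, 0 < q → ∀ a : ℕ, a.Coprime q →
    ∀ x : ℝ, (C : ℝ) * (q : ℝ) ^ L ≤ x →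
      c * x / ((q : ℝ) ^ A * q.totient * Real.log x) ≤
        (((Icc 1 ⌊x⌋₊).filter fun p => p.Prime ∧ p ≡ a [MOD q]).card : ℝ) := by
  obtain ⟨c, A, L, C, hc, h⟩ := exists_psi_class_ge
  obtain ⟨C', hC'⟩ : ∃ C' : ℕ, C' = C + ⌈(16 / c) ^ 4⌉₊ + 2 := ⟨_, rfl⟩
  refine ⟨c / 2, A, L + 4 * (A + 1), C', by linarith, fun q hq a ha x hx => ?_⟩
  have hq1 : (1 : ℝ) ≤ q := Nat.one_le_cast.2 hq
  have hbound : ∀ (d : ℝ) (j : ℕ), d ≤ (C' : ℝ) → j ≤ L + 4 * (A + 1) → d * (q : ℝ) ^ j ≤ x :=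
    fun d j hd hj =>
      (mul_le_mul hd (pow_le_pow_right₀ hq1 hj) (by positivity) (Nat.cast_nonneg C')).trans hx
  have hx2 : 2 ≤ x := by
    simpa using hbound 2 0 (by exact_mod_cast (show 2 ≤ C' by omega)) (Nat.zero_le _)
  have hlx : 0 < Real.log x := Real.log_pos (by linarith)
  have h1 := h q hq a ha x (hbound C L (Nat.cast_le.2 (by omega)) (Nat.le_add_right _ _))
  obtain ⟨S, hS⟩ : ∃ S, S = (Icc 1 ⌊x⌋₊).filter (fun n => n ≡ a [MOD q]) := ⟨_, rfl⟩
  have hp : ∑ n ∈ S.filter Nat.Prime, Λ n ≤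
      (((Icc 1 ⌊x⌋₊).filter fun p => p.Prime ∧ p ≡ a [MOD q]).card : ℝ) * Real.log x := by
    refine (Finset.sum_le_card_nsmul _ _ (Real.log x) fun n hn => ?_).trans ?_
    · rw [hS, Finset.mem_filter, Finset.mem_filter, Finset.mem_Icc] at hn
      refine ArithmeticFunction.vonMangoldt_le_log.trans (Real.log_le_log (Nat.cast_pos.2 (by omega)) ?_)
      exact (Nat.cast_le.2 hn.1.1.2).trans (Nat.floor_le (by linarith))
    · rw [nsmul_eq_mul]
      refine mul_le_mul_of_nonneg_right (le_of_eq ?_) hlx.le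
      rw [hS, Finset.filter_filter]
      simp only [and_comm]
  have hnp : ∑ n ∈ S.filter (fun n => ¬n.Prime), Λ n ≤ 8 * Real.sqrt (Real.sqrt x) ^ 3 := by
    refine (Finset.sum_le_sum_of_subset_of_nonneg (t := (Ioc 0 ⌊x⌋₊).filter fun n => ¬n.Prime) (fun n hn => ?_)
      fun n _ _ => ArithmeticFunction.vonMangoldt_nonneg).trans ?_
    · simp only [hS, Finset.mem_filter, Finset.mem_Icc, Finset.mem_Ioc] at hn ⊢
      exact ⟨⟨by omega, hn.1.1.2⟩, hn.2⟩
    · rw [← Chebyshev.psi_sub_theta_eq_sum_not_prime]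
      refine (Chebyshev.psi_sub_theta_le (by linarith)).trans ?_
      have h2 : Real.log x ≤ 4 * Real.sqrt (Real.sqrt x) := by
        have := Real.log_le_rpow_div (show 0 ≤ x by linarith) (show (0 : ℝ) < 1 / 4 by norm_num)
        rw [Real.sqrt_eq_rpow, Real.sqrt_eq_rpow, ← Real.rpow_mul (by linarith),
          show (1 / 2 : ℝ) * (1 / 2) = 1 / 4 by norm_num]
        linarith
      obtain ⟨r, hr⟩ : ∃ r, r = Real.sqrt (Real.sqrt x) := ⟨_, rfl⟩
      rw [← hr] at h2 ⊢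
      have hrr : Real.sqrt x = r * r := hr ▸ (Real.mul_self_sqrt (Real.sqrt_nonneg x)).symm
      rw [hrr]
      have := mul_le_mul_of_nonneg_left h2 (show 0 ≤ 2 * (r * r) from mul_nonneg zero_le_two (mul_self_nonneg r))
      linarith
  obtain ⟨r, hr⟩ : ∃ r, r = Real.sqrt (Real.sqrt x) := ⟨_, rfl⟩
  rw [← hr] at hnp
  have hr0 : 0 ≤ r := hr ▸ Real.sqrt_nonneg _
  have hr4 : r ^ 4 = x := by
    rw [hr, show 4 = 2 * 2 from rfl, pow_mul, Real.sq_sqrt (Real.sqrt_nonneg x), Real.sq_sqrt (by linarith)]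
  have hrbig : 16 / c * (q : ℝ) ^ (A + 1) ≤ r := by
    refine (pow_le_pow_iff_left₀ (by positivity) hr0 (by norm_num : (4 : ℕ) ≠ 0)).1 ?_
    rw [hr4, mul_pow, ← pow_mul]
    exact hbound _ _ ((Nat.le_ceil _).trans (Nat.cast_le.2 (by omega))) (by omega)
  have hsmall : 8 * r ^ 3 ≤ c / 2 * x / ((q : ℝ) ^ A * q.totient) := by
    have hden : (q : ℝ) ^ A * q.totient ≤ (q : ℝ) ^ (A + 1) := by
      rw [pow_succ]
      exact mul_le_mul_of_nonneg_left (Nat.cast_le.2 (Nat.totient_le q)) (by positivity)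
    rw [le_div_iff₀ (mul_pos (by positivity) (Nat.cast_pos.2 (Nat.totient_pos.2 hq)))]
    refine (mul_le_mul_of_nonneg_left hden (by positivity)).trans ?_
    rw [div_mul_eq_mul_div, div_le_iff₀ hc] at hrbig
    have := mul_le_mul_of_nonneg_left hrbig (show 0 ≤ r ^ 3 / 2 by positivity)
    rw [← hr4]
    linarith
  rw [← hS, ← Finset.sum_filter_add_sum_filter_not S Nat.Prime] at h1
  rw [← div_div, div_le_iff₀ hlx]
  have e : c * x / ((q : ℝ) ^ A * q.totient) = 2 * (c / 2 * x / ((q : ℝ) ^ A * q.totient)) := by ring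
  linarith

end FA.Gallagher

end
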