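import Fermat.Agent.Gallagher.Explicit
import Fermat.Agent.Hoheisel.ShortIntervals

/-!
# One character on one interval

A mixed second difference of the explicit formula gives `ψ(x + h, χ) - ψ(x, χ)`: the pole, any chosen
simple real zeros taken out, the low zeros `h x ^ (β - 1)`, the high ones `x ^ 2 / (d γ ^ 2)`.
-/

set_option autoImplicit false
set_option linter.unusedSectionVars false

noncomputable section

open Complex
open FA.LinnikPrime (clear pol re_lt_one_of_clear)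
open scoped Real Classical ArithmeticFunction.vonMangoldt

namespace FA.Gallagher

variable {q : ℕ} [NeZero q] (χ : DirichletCharacter ℂ q)

/-- `ψ(y, χ)`. -/
def psiChar (y : ℝ) : ℂ := ∑ n ∈ Finset.Icc 1 ⌊y⌋₊, twist χ n

/-- The term of a real zero `β` on `(x, x + h]`. -/
def excG (x h β : ℝ) : ℝ := ((x + h) ^ β - x ^ β) / β

theorem norm_psiOneChar_step_le {y d X : ℝ} (hy : 1 ≤ y) (hd : 0 ≤ d) (hX : y + d ≤ X) :
    ‖psiOneChar χ (y + d) - psiOneChar χ y - (d : ℂ) * psiChar χ y‖ ≤ d * ((d + 1) * Real.log X) := by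
  have hsub : Finset.Icc 1 ⌊y⌋₊ ⊆ Finset.Icc 1 ⌊y + d⌋₊ :=
    Finset.Icc_subset_Icc_right (Nat.floor_mono (by linarith))
  have e : psiOneChar χ (y + d) - psiOneChar χ y - (d : ℂ) * psiChar χ y =
      ∑ n ∈ Finset.Icc 1 ⌊y + d⌋₊ \ Finset.Icc 1 ⌊y⌋₊, twist χ n * ((y + d - n : ℝ) : ℂ) := by
    rw [psiOneChar, psiOneChar, psiChar, Finset.mul_sum, ← Finset.sum_sdiff hsub, sub_sub,
      ← Finset.sum_add_distrib, add_sub_assoc, ← Finset.sum_sub_distrib]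
    refine (add_eq_left.2 (Finset.sum_eq_zero fun n _ => ?_))
    push_cast
    ring
  rw [e]
  refine (norm_sum_le _ _).trans ((Finset.sum_le_card_nsmul _ _ (d * Real.log X) fun n hn => ?_).trans ?_)
  · obtain ⟨h1, h2⟩ := Finset.mem_sdiff.1 hn
    rw [Finset.mem_Icc] at h1 h2
    have h3 : ⌊y⌋₊ < n := by omega
    have h4 : y < (n : ℝ) := Nat.lt_of_floor_lt h3
    have h5 : (n : ℝ) ≤ y + d := (Nat.cast_le.2 h1.2).trans (Nat.floor_le (by linarith))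
    rw [norm_mul, norm_real, Real.norm_of_nonneg (by linarith), mul_comm d, twist]
    refine mul_le_mul ?_ (by linarith) (by linarith) (Real.log_nonneg (by linarith))
    rw [norm_mul, norm_real, Real.norm_of_nonneg ArithmeticFunction.vonMangoldt_nonneg]
    refine (mul_le_of_le_one_left ArithmeticFunction.vonMangoldt_nonneg (χ.norm_le_one _)).trans
      (ArithmeticFunction.vonMangoldt_le_log.trans ?_)
    exact Real.log_le_log (by linarith) (by linarith)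
  · rw [nsmul_eq_mul, mul_left_comm]
    refine mul_le_mul_of_nonneg_left (mul_le_mul_of_nonneg_right ?_ (Real.log_nonneg (by linarith))) hd
    rw [Finset.card_sdiff_of_subset hsub, Nat.card_Icc, Nat.card_Icc, Nat.add_sub_cancel, Nat.add_sub_cancel,
      Nat.cast_sub (Nat.floor_mono (by linarith))]
    linarith [Nat.floor_le (show 0 ≤ y + d by linarith), Nat.lt_floor_add_one y]

theorem abs_rpow_sub_le {β : ℝ} (hβ : 0 < β) (hβ1 : β ≤ 1) {y t : ℝ} (hy : 1 ≤ y) (ht : y ≤ t) :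
    |t ^ β / β - y ^ β / β| ≤ y ^ (β - 1) * (t - y) := by
  have h := (convex_Icc y t).norm_image_sub_le_of_norm_hasDerivWithin_le (f := fun u : ℝ => u ^ β / β)
    (f' := fun u : ℝ => u ^ (β - 1)) (C := y ^ (β - 1)) (fun u hu => ?_) (fun u hu => ?_)
    (Set.left_mem_Icc.2 ht) (Set.right_mem_Icc.2 ht)
  · rwa [Real.norm_eq_abs, Real.norm_eq_abs, abs_of_nonneg (show 0 ≤ t - y by linarith)] at h
  · have := (Real.hasDerivAt_rpow_const (x := u) (p := β) (Or.inl (by linarith [hu.1]))).div_const β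
    rw [mul_div_cancel_left₀ _ hβ.ne'] at this
    exact this.hasDerivWithinAt
  · rw [Real.norm_of_nonneg (Real.rpow_nonneg (by linarith [hu.1]) _)]
    exact Real.rpow_le_rpow_of_nonpos (by linarith) hu.1 (by linarith)

theorem abs_step_rpow_le {β : ℝ} (hβ : 0 < β) (hβ1 : β ≤ 1) {y d : ℝ} (hy : 1 ≤ y) (hd : 0 ≤ d) :
    |(y + d) ^ (β + 1) / (β * (β + 1)) - y ^ (β + 1) / (β * (β + 1)) - d * (y ^ β / β)| ≤ d * d := by
  have hβ10 : β + 1 ≠ 0 := by linarith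
  have h := (convex_Icc y (y + d)).norm_image_sub_le_of_norm_hasDerivWithin_le
    (f := fun u : ℝ => u ^ (β + 1) / (β * (β + 1)) - u * (y ^ β / β))
    (f' := fun u : ℝ => u ^ β / β - y ^ β / β) (C := d) (fun u hu => ?_) (fun u hu => ?_)
    (Set.left_mem_Icc.2 (by linarith)) (Set.right_mem_Icc.2 (by linarith))
  · rw [Real.norm_eq_abs, Real.norm_eq_abs, add_sub_cancel_left, abs_of_nonneg hd] at h
    refine le_trans (le_of_eq ?_) h
    congr 1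
    ring
  · have h1 := (Real.hasDerivAt_rpow_const (x := u) (p := β + 1) (Or.inl (by linarith [hu.1]))).div_const
      (β * (β + 1))
    rw [add_sub_cancel_right, mul_comm β (β + 1), mul_div_mul_left _ _ hβ10, mul_comm (β + 1) β] at h1
    exact ((h1.sub ((hasDerivAt_id' u).mul_const (y ^ β / β))).congr_deriv (by ring)).hasDerivWithinAt
  · refine (abs_rpow_sub_le hβ hβ1 hy hu.1).trans ((mul_le_of_le_one_left (by linarith [hu.1]) ?_).trans
      (by linarith [hu.2]))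
    exact Real.rpow_le_one_of_one_le_of_nonpos hy (by linarith)

/-- `y ^ (ρ + 1) / (ρ (ρ + 1))`. -/
def zeroPow (y : ℝ) (ρ : ℂ) : ℂ := (y : ℂ) ^ (ρ + 1) / (ρ * (ρ + 1))

/-- Its mixed difference. -/
def zeroDiff (x h d : ℝ) (ρ : ℂ) : ℂ :=
  (zeroPow (x + d + h) ρ - zeroPow (x + d) ρ) - (zeroPow (x + h) ρ - zeroPow x ρ)

theorem norm_zeroDiff_le_low {ρ : ℂ} (h0 : 0 < ρ.re) (h1 : ρ.re < 1) {x h d : ℝ} (hx : 0 < x) (hh : 0 ≤ h)
    (hd : 0 ≤ d) : ‖zeroDiff x h d ρ‖ ≤ h * d * x ^ (ρ.re - 1) := by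
  refine le_trans (le_of_eq ?_) (FA.Hoheisel.norm_mixed_le h0 h1 hx hh hd)
  rw [zeroDiff, zeroPow, zeroPow, zeroPow, zeroPow]
  simp only [sub_div]

theorem norm_zeroDiff_le_high {ρ : ℂ} (h0 : 0 < ρ.re) (h1 : ρ.re < 1) (hi : 1 ≤ |ρ.im|) {x h d : ℝ}
    (hx : 1 ≤ x) (hh : 0 ≤ h) (hh' : h ≤ x) (hd : 0 ≤ d) (hd' : d ≤ x) :
    ‖zeroDiff x h d ρ‖ ≤ 128 * x ^ 2 / (1 + ρ.im ^ 2) := by
  have hb : ∀ y : ℝ, 1 ≤ y → y ≤ 4 * x → ‖zeroPow y ρ‖ ≤ 32 * x ^ 2 / (1 + ρ.im ^ 2) := fun y hy hy' => by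
    rw [zeroPow, norm_div, norm_cpow_eq_rpow_re_of_pos (by linarith), norm_mul]
    have h2 : (1 + ρ.im ^ 2) / 2 ≤ ‖ρ‖ * ‖ρ + 1‖ := by
      have a1 := abs_im_le_norm ρ
      have a2 := abs_im_le_norm (ρ + 1)
      rw [add_im, one_im, add_zero] at a2
      have a3 := mul_le_mul a1 a2 (abs_nonneg _) (norm_nonneg _)
      rw [abs_mul_abs_self] at a3
      nlinarith [abs_mul_abs_self ρ.im, abs_nonneg ρ.im]
    refine (div_le_div₀ (by positivity) (show y ^ (ρ + 1).re ≤ 16 * x ^ 2 from ?_) (by positivity) h2).trans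
      (le_of_eq (by field_simp; ring))
    refine (Real.rpow_le_rpow_of_exponent_le hy (show (ρ + 1).re ≤ 2 by rw [add_re, one_re]; linarith)).trans ?_
    rw [Real.rpow_two]
    nlinarith
  rw [zeroDiff]
  refine (norm_sub_le _ _).trans ((add_le_add (norm_sub_le _ _) (norm_sub_le _ _)).trans ?_)
  have b1 := hb (x + d + h) (by linarith) (by linarith)
  have b2 := hb (x + d) (by linarith) (by linarith)
  have b3 := hb (x + h) (by linarith) (by linarith)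
  have b4 := hb x hx (by linarith)
  rw [show 128 * x ^ 2 / (1 + ρ.im ^ 2) = 4 * (32 * x ^ 2 / (1 + ρ.im ^ 2)) by ring]
  linarith

theorem norm_zeroDiff_sub_le {ρ : ℂ} (hi : ρ.im = 0) (h0 : 0 < ρ.re) (h1 : ρ.re < 1) {x h d : ℝ}
    (hx : 1 ≤ x) (hh : 0 ≤ h) (hd : 0 ≤ d) :
    ‖zeroDiff x h d ρ - ((d * excG x h ρ.re : ℝ) : ℂ)‖ ≤ 2 * (d * d) := by
  obtain ⟨β, hβ⟩ : ∃ β, β = ρ.re := ⟨_, rfl⟩
  have hρ : ρ = (β : ℂ) := Complex.ext (by simp [hβ]) (by simp [hi])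
  rw [← hβ] at h0 h1 ⊢
  have hz : ∀ y : ℝ, 0 ≤ y → zeroPow y ρ = ((y ^ (β + 1) / (β * (β + 1)) : ℝ) : ℂ) := fun y hy => by
    rw [zeroPow, hρ, ofReal_div, ofReal_cpow hy]
    push_cast
    ring
  rw [zeroDiff, hz _ (by linarith), hz _ (by linarith), hz _ (by linarith), hz _ (by linarith),
    ← ofReal_sub, ← ofReal_sub, ← ofReal_sub, ← ofReal_sub, norm_real, Real.norm_eq_abs,
    show x + d + h = x + h + d by ring, excG]
  have a1 := abs_le.1 (abs_step_rpow_le h0 h1.le (show 1 ≤ x + h by linarith) hd)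
  have a2 := abs_le.1 (abs_step_rpow_le h0 h1.le hx hd)
  have e : d * (((x + h) ^ β - x ^ β) / β) = d * ((x + h) ^ β / β) - d * (x ^ β / β) := by ring
  rw [abs_le]
  constructor <;> linarith

theorem excG_nonneg {β : ℝ} (hβ : 0 < β) {x h : ℝ} (hx : 0 ≤ x) (hh : 0 ≤ h) : 0 ≤ excG x h β :=
  div_nonneg (sub_nonneg.2 (Real.rpow_le_rpow hx (by linarith) hβ.le)) hβ.le

theorem excG_le {β : ℝ} (hβ : 0 < β) (hβ1 : β ≤ 1) {x h : ℝ} (hx : 1 ≤ x) (hh : 0 ≤ h) :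
    excG x h β ≤ h * x ^ (β - 1) := by
  have := (le_abs_self _).trans (abs_rpow_sub_le hβ hβ1 hx (show x ≤ x + h by linarith))
  rw [excG, sub_div, mul_comm h]
  rwa [add_sub_cancel_left] at this

/-- **One character.** -/
theorem exists_one_char : ∃ C : ℝ, 1 ≤ C ∧ ∀ (q : ℕ) [NeZero q] (χ : DirichletCharacter ℂ q) (U : ℝ), 1 ≤ U →
    ∃ S : Finset ℂ, (∀ ρ ∈ S, clear χ ρ = 0 ∧ 1 / 2 ≤ ρ.re ∧ |ρ.im| ≤ U + 1) ∧
      (∀ ρ : ℂ, clear χ ρ = 0 → 31 / 32 < ρ.re → |ρ.im| ≤ U → ρ ∈ S) ∧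
      ∀ (E : Finset ℂ), E ⊆ S → E.card ≤ 1 →
        (∀ ρ ∈ E, ρ.im = 0 ∧ analyticOrderNatAt (clear χ) ρ = 1) →
        ∀ x h d T : ℝ, 1 ≤ x → 0 ≤ h → h ≤ x → 0 < d → d ≤ x → 1 ≤ T →
          ‖psiChar χ (x + h) - psiChar χ x - pol χ * h + ∑ ρ ∈ E, (excG x h ρ.re : ℂ)‖ ≤
            C * ((d + 1) * (Real.log (4 * x) + 1) + x ^ 2 * famL q U / (d * T) +
              famL q U ^ 2 / d * (x ^ (33 / 16 : ℝ) / U + x ^ (63 / 32 : ℝ))) +
            h * ∑ ρ ∈ (S \ E).filter (fun ρ => |ρ.im| ≤ T),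
              (analyticOrderNatAt (clear χ) ρ : ℝ) * x ^ (ρ.re - 1) := by
  obtain ⟨Ce, hCe, hexp⟩ := exists_explicit
  obtain ⟨Cw, hCw, hweight⟩ := exists_sum_weight_le
  refine ⟨2 + 256 * Cw + 256 * Ce, by linarith, fun q _ χ U hU => ?_⟩
  obtain ⟨S, hS, hSin, hform⟩ := hexp q χ U hU
  refine ⟨S, hS, hSin, fun E hE hEc hE1 x h d T hx hh hh' hd hd' hT => ?_⟩
  obtain ⟨m, hm⟩ : ∃ m : ℂ → ℝ, m = fun ρ => (analyticOrderNatAt (clear χ) ρ : ℝ) := ⟨_, rfl⟩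
  have hm0 : ∀ ρ, 0 ≤ m ρ := fun ρ => by rw [hm]; exact Nat.cast_nonneg _
  obtain ⟨err, herr⟩ : ∃ err : ℝ, err = Ce * famL q U ^ 2 * (32 * (x ^ (33 / 16 : ℝ) / U + x ^ (63 / 32 : ℝ))) :=
    ⟨_, rfl⟩
  have hR : ∀ y : ℝ, 1 ≤ y → y ≤ 4 * x → ‖psiOneChar χ y - (pol χ * ((y : ℂ) ^ 2 / 2) -
      ∑ ρ ∈ S, (m ρ : ℂ) * zeroPow y ρ)‖ ≤ err := fun y hy hy' => by
    have h1 := hform y hy
    simp only [hm, zeroPow, ofReal_natCast]
    refine h1.trans ?_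
    rw [herr]
    refine mul_le_mul_of_nonneg_left ?_ (by positivity)
    have e33 : y ^ (33 / 16 : ℝ) ≤ 32 * x ^ (33 / 16 : ℝ) := by
      refine (Real.rpow_le_rpow (by linarith) hy' (by norm_num)).trans ?_
      rw [Real.mul_rpow (by norm_num) (by linarith)]
      refine mul_le_mul_of_nonneg_right ?_ (by positivity)
      refine (Real.rpow_le_rpow_of_exponent_le (by norm_num) (by norm_num : (33 / 16 : ℝ) ≤ 5 / 2)).trans ?_
      rw [show (5 / 2 : ℝ) = (1 / 2 : ℝ) * 5 by norm_num, Real.rpow_mul (by norm_num), ← Real.sqrt_eq_rpow,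
        show (4 : ℝ) = 2 ^ 2 by norm_num, Real.sqrt_sq (by norm_num)]
      norm_num
    have e63 : y ^ (63 / 32 : ℝ) ≤ 32 * x ^ (63 / 32 : ℝ) := by
      refine (Real.rpow_le_rpow (by linarith) hy' (by norm_num)).trans ?_
      rw [Real.mul_rpow (by norm_num) (by linarith)]
      refine mul_le_mul_of_nonneg_right ?_ (by positivity)
      refine (Real.rpow_le_rpow_of_exponent_le (by norm_num) (by norm_num : (63 / 32 : ℝ) ≤ 2)).trans ?_
      rw [Real.rpow_two]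
      norm_num
    rw [mul_add, ← mul_div_assoc]
    exact add_le_add (div_le_div_of_nonneg_right e33 (by linarith)) e63
  obtain ⟨D, hD⟩ : ∃ D : ℂ, D = (psiOneChar χ (x + d + h) - psiOneChar χ (x + d)) -
      (psiOneChar χ (x + h) - psiOneChar χ x) := ⟨_, rfl⟩
  have hstep : ‖D - (d : ℂ) * (psiChar χ (x + h) - psiChar χ x)‖ ≤ 2 * (d * ((d + 1) * Real.log (4 * x))) := by
    have s1 := norm_psiOneChar_step_le χ (X := 4 * x) (show 1 ≤ x + h by linarith) hd.le (by linarith)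
    have s2 := norm_psiOneChar_step_le χ (X := 4 * x) hx hd.le (by linarith)
    rw [show x + h + d = x + d + h by ring] at s1
    rw [show D - (d : ℂ) * (psiChar χ (x + h) - psiChar χ x) =
      (psiOneChar χ (x + d + h) - psiOneChar χ (x + h) - (d : ℂ) * psiChar χ (x + h)) -
      (psiOneChar χ (x + d) - psiOneChar χ x - (d : ℂ) * psiChar χ x) by rw [hD]; ring]
    linarith [norm_sub_le (psiOneChar χ (x + d + h) - psiOneChar χ (x + h) - (d : ℂ) * psiChar χ (x + h))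
      (psiOneChar χ (x + d) - psiOneChar χ x - (d : ℂ) * psiChar χ x)]
  have hmain : ‖D - (pol χ * ((h * d : ℝ) : ℂ) - ∑ ρ ∈ S, (m ρ : ℂ) * zeroDiff x h d ρ)‖ ≤ 4 * err := by
    obtain ⟨R, hRdef⟩ : ∃ R : ℝ → ℂ, R = fun y => psiOneChar χ y - (pol χ * ((y : ℂ) ^ 2 / 2) -
        ∑ ρ ∈ S, (m ρ : ℂ) * zeroPow y ρ) := ⟨_, rfl⟩
    have hRb : ∀ y : ℝ, 1 ≤ y → y ≤ 4 * x → ‖R y‖ ≤ err := fun y h1 h2 => by rw [hRdef]; exact hR y h1 h2
    have e : D - (pol χ * ((h * d : ℝ) : ℂ) - ∑ ρ ∈ S, (m ρ : ℂ) * zeroDiff x h d ρ) =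
        (R (x + d + h) - R (x + d)) - (R (x + h) - R x) := by
      simp only [hRdef, hD, zeroDiff, mul_sub, Finset.sum_sub_distrib]
      push_cast
      ring
    rw [e]
    linarith [norm_sub_le (R (x + d + h) - R (x + d)) (R (x + h) - R x), norm_sub_le (R (x + d + h)) (R (x + d)),
      norm_sub_le (R (x + h)) (R x), hRb (x + d + h) (by linarith) (by linarith),
      hRb (x + d) (by linarith) (by linarith), hRb (x + h) (by linarith) (by linarith), hRb x hx (by linarith)]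
  -- the chosen zero
  have hexc : ‖∑ ρ ∈ E, (m ρ : ℂ) * zeroDiff x h d ρ - (d : ℂ) * ∑ ρ ∈ E, (excG x h ρ.re : ℂ)‖ ≤
      2 * (d * d) := by
    rw [Finset.mul_sum, ← Finset.sum_sub_distrib]
    refine (norm_sum_le _ _).trans ((Finset.sum_le_card_nsmul _ _ (2 * (d * d)) fun ρ hρ => ?_).trans ?_)
    · obtain ⟨hi, ho⟩ := hE1 ρ hρ
      obtain ⟨h1, h2, -⟩ := hS ρ (hE hρ)
      have hm1 : m ρ = 1 := by simp [hm, ho]
      rw [hm1, ofReal_one, one_mul, ← ofReal_mul]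
      exact norm_zeroDiff_sub_le hi (by linarith) (re_lt_one_of_clear h1) hx hh hd.le
    · rw [nsmul_eq_mul]
      exact mul_le_of_le_one_left (by positivity) (Nat.cast_le_one.2 hEc)
  -- the low and the high zeros
  have hrest : ‖∑ ρ ∈ S \ E, (m ρ : ℂ) * zeroDiff x h d ρ‖ ≤
      h * d * (∑ ρ ∈ (S \ E).filter (fun ρ => |ρ.im| ≤ T), m ρ * x ^ (ρ.re - 1)) +
        128 * x ^ 2 * (Cw * (2 * famL q U) / (T + 1)) := by
    refine (norm_sum_le _ _).trans ?_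
    simp only [norm_mul, norm_real, Real.norm_of_nonneg (hm0 _)]
    rw [← Finset.sum_filter_add_sum_filter_not (S \ E) fun ρ => |ρ.im| ≤ T, Finset.mul_sum]
    refine add_le_add (Finset.sum_le_sum fun ρ hρ => ?_) ?_
    · obtain ⟨h1, h2, -⟩ := hS ρ (Finset.mem_sdiff.1 (Finset.mem_filter.1 hρ).1).1
      rw [mul_left_comm]
      exact mul_le_mul_of_nonneg_left
        (norm_zeroDiff_le_low (by linarith) (re_lt_one_of_clear h1) (by linarith) hh hd.le) (hm0 ρ)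
    · refine (Finset.sum_le_sum (g := fun ρ : ℂ => 128 * x ^ 2 * (m ρ / (1 + ρ.im ^ 2))) fun ρ hρ => ?_).trans ?_
      · obtain ⟨hρS, hρT⟩ := Finset.mem_filter.1 hρ
        obtain ⟨h1, h2, -⟩ := hS ρ (Finset.mem_sdiff.1 hρS).1
        refine (mul_le_mul_of_nonneg_left (norm_zeroDiff_le_high (by linarith) (re_lt_one_of_clear h1)
          (by linarith [not_le.1 hρT]) hx hh hh' hd.le hd') (hm0 ρ)).trans (le_of_eq ?_)
        ring
      · rw [← Finset.mul_sum]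
        refine mul_le_mul_of_nonneg_left ?_ (by positivity)
        simp only [hm]
        refine (hweight q χ _ (U + 1) T (by linarith) fun ρ hρ => ?_).trans ?_
        · obtain ⟨hρS, hρT⟩ := Finset.mem_filter.1 hρ
          obtain ⟨h1, h2, h3⟩ := hS ρ (Finset.mem_sdiff.1 hρS).1
          exact ⟨h1, h2, (not_le.1 hρT).le, h3⟩
        · exact div_le_div_of_nonneg_right (mul_le_mul_of_nonneg_left (famL_add_le q hU zero_le_one one_le_two)
            (by linarith)) (by linarith)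
  have hkey : ‖(d : ℂ) * (psiChar χ (x + h) - psiChar χ x - pol χ * h + ∑ ρ ∈ E, (excG x h ρ.re : ℂ))‖ ≤
      2 * (d * ((d + 1) * Real.log (4 * x))) + 4 * err + 2 * (d * d) +
        (h * d * (∑ ρ ∈ (S \ E).filter (fun ρ => |ρ.im| ≤ T), m ρ * x ^ (ρ.re - 1)) +
          128 * x ^ 2 * (Cw * (2 * famL q U) / (T + 1))) := by
    have e : (d : ℂ) * (psiChar χ (x + h) - psiChar χ x - pol χ * h + ∑ ρ ∈ E, (excG x h ρ.re : ℂ)) =
        (D - (pol χ * ((h * d : ℝ) : ℂ) - ∑ ρ ∈ S, (m ρ : ℂ) * zeroDiff x h d ρ)) -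
          (D - (d : ℂ) * (psiChar χ (x + h) - psiChar χ x)) -
          (∑ ρ ∈ E, (m ρ : ℂ) * zeroDiff x h d ρ - (d : ℂ) * ∑ ρ ∈ E, (excG x h ρ.re : ℂ)) -
          ∑ ρ ∈ S \ E, (m ρ : ℂ) * zeroDiff x h d ρ := by
      rw [← Finset.sum_sdiff hE (f := fun ρ => (m ρ : ℂ) * zeroDiff x h d ρ)]
      push_cast
      ring
    rw [e]
    obtain ⟨z₁, hz₁⟩ : ∃ z, z = D - (pol χ * ((h * d : ℝ) : ℂ) - ∑ ρ ∈ S, (m ρ : ℂ) * zeroDiff x h d ρ) :=
      ⟨_, rfl⟩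
    obtain ⟨z₂, hz₂⟩ : ∃ z, z = D - (d : ℂ) * (psiChar χ (x + h) - psiChar χ x) := ⟨_, rfl⟩
    obtain ⟨z₃, hz₃⟩ : ∃ z, z =
        ∑ ρ ∈ E, (m ρ : ℂ) * zeroDiff x h d ρ - (d : ℂ) * ∑ ρ ∈ E, (excG x h ρ.re : ℂ) := ⟨_, rfl⟩
    obtain ⟨z₄, hz₄⟩ : ∃ z, z = ∑ ρ ∈ S \ E, (m ρ : ℂ) * zeroDiff x h d ρ := ⟨_, rfl⟩
    rw [← hz₁] at hmain ⊢
    rw [← hz₂] at hstep ⊢
    rw [← hz₃] at hexc ⊢
    rw [← hz₄] at hrest ⊢
    linarith [norm_sub_le (z₁ - z₂ - z₃) z₄, norm_sub_le (z₁ - z₂) z₃, norm_sub_le z₁ z₂]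
  rw [norm_mul, norm_real, Real.norm_of_nonneg hd.le] at hkey
  refine le_of_mul_le_mul_left (hkey.trans ?_) hd
  simp only [hm]
  obtain ⟨sLow, hsLow⟩ : ∃ s, s = ∑ ρ ∈ (S \ E).filter (fun ρ => |ρ.im| ≤ T),
      (analyticOrderNatAt (clear χ) ρ : ℝ) * x ^ (ρ.re - 1) := ⟨_, rfl⟩
  rw [← hsLow]
  have hH := famL_pos q U
  have hlog : 0 ≤ Real.log (4 * x) := Real.log_nonneg (by linarith)
  have t1 : 128 * x ^ 2 * (Cw * (2 * famL q U) / (T + 1)) ≤ 256 * Cw * (x ^ 2 * famL q U / T) := by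
    rw [show 128 * x ^ 2 * (Cw * (2 * famL q U) / (T + 1)) = 256 * Cw * (x ^ 2 * famL q U / (T + 1)) by ring]
    exact mul_le_mul_of_nonneg_left (div_le_div_of_nonneg_left (by positivity) (by linarith) (by linarith))
      (by positivity)
  have t2 : 2 * (d * d) ≤ 2 * (d * (d + 1)) := by nlinarith
  have e1 : d * (x ^ 2 * famL q U / (d * T)) = x ^ 2 * famL q U / T := by field_simp
  have e2 : d * (famL q U ^ 2 / d * (x ^ (33 / 16 : ℝ) / U + x ^ (63 / 32 : ℝ))) =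
      famL q U ^ 2 * (x ^ (33 / 16 : ℝ) / U + x ^ (63 / 32 : ℝ)) := by field_simp
  obtain ⟨A, hA⟩ : ∃ A, A = x ^ 2 * famL q U / (d * T) := ⟨_, rfl⟩
  obtain ⟨B, hB⟩ : ∃ B, B = famL q U ^ 2 / d * (x ^ (33 / 16 : ℝ) / U + x ^ (63 / 32 : ℝ)) := ⟨_, rfl⟩
  have hA0 : 0 ≤ d * A := by rw [hA]; positivity
  have hB0 : 0 ≤ d * B := by rw [hB]; positivity
  rw [← hA, ← hB]
  rw [← hA] at e1
  rw [← hB] at e2
  rw [herr, mul_add d, mul_add (d + 1), mul_add (2 + 256 * Cw + 256 * Ce), mul_add (2 + 256 * Cw + 256 * Ce)]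
  have p1 : 0 ≤ (256 * Cw + 256 * Ce) * (d * ((d + 1) * Real.log (4 * x)) + d * (d + 1)) := by positivity
  have p2 : 0 ≤ (2 + 256 * Ce) * (d * A) := by positivity
  have p3 : 0 ≤ (2 + 256 * Cw + 128 * Ce) * (d * B) := by positivity
  linear_combination t1 + t2 + p1 + p2 + p3 - 256 * Cw * e1 - 128 * Ce * e2

end FA.Gallagher

end
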