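import Fermat.Agent.Gallagher.Moments

/-!
# The zeros in the right half of the strip

`L(s, χ)` has, with multiplicity, `O (ht(q, m))` zeros with `1 / 2 ≤ re s` and `|im s - m| ≤ 1 / 2`, so
`O (T log (q T))` with `|im s| ≤ T`. This is the trivial bound of the density theorem.
-/

set_option autoImplicit false
set_option linter.unusedSectionVars false

noncomputable section

open Complex Metric Set
open FA.LinnikPrime (clear differentiable_clear clear_ne_zero re_lt_one_of_clear clear_one_eq clear_one_eq'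
  clear_of_ne_one lg)
open scoped Real

namespace FA.Gallagher

variable {q : ℕ} [NeZero q]

/-- The centre of the large disc. -/
def farPt (m : ℝ) : ℂ := (2 : ℂ) + (m : ℂ) * I

/-- **On the large disc, relative to the centre.** -/
theorem exists_far_rim : ∃ C : ℝ, 1 ≤ C ∧ ∀ (q : ℕ) [NeZero q] (χ : DirichletCharacter ℂ q) (m : ℝ),
    ∀ z ∈ sphere (0 : ℂ) (15 / 8),
      ‖clear χ (farPt m + z)‖ ≤ Real.exp (C * ht q m) * ‖clear χ (farPt m + 0)‖ := by
  obtain ⟨c, hcdef⟩ : ∃ c : ℝ, c = (∑' n : ℕ, 1 / (n : ℝ) ^ (2 : ℝ))⁻¹ := ⟨_, rfl⟩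
  have hc : 0 < c := by
    have h1 : (1 : ℝ) ≤ ∑' n : ℕ, 1 / (n : ℝ) ^ (2 : ℝ) := by
      refine le_trans ?_ ((Real.summable_one_div_nat_rpow.2 (by norm_num)).le_tsum 1 fun n _ => by positivity)
      simp
    rw [hcdef]; positivity
  obtain ⟨B, hBdef⟩ : ∃ B : ℝ, B = 120 / c := ⟨_, rfl⟩
  have hB : 0 < B := by rw [hBdef]; positivity
  refine ⟨max 2 (Real.log B), le_trans one_le_two (le_max_left _ _), fun q _ χ m z hz => ?_⟩
  rw [mem_sphere_zero_iff_norm] at hz
  obtain ⟨s, hs⟩ : ∃ s : ℂ, s = farPt m + z := ⟨_, rfl⟩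
  rw [← hs, add_zero]
  have hpre : (farPt m).re = 2 := by simp [farPt]
  have hzr := abs_le.1 ((abs_re_le_norm z).trans hz.le)
  have hsre : 1 / 8 ≤ s.re := by rw [hs, add_re, hpre]; linarith
  obtain ⟨H, hH⟩ : ∃ H : ℝ, H = |m| + 3 := ⟨_, rfl⟩
  have hH1 : 3 ≤ H := by rw [hH]; linarith [abs_nonneg m]
  have hsn : ‖s‖ + 1 ≤ 2 * H := by
    rw [hs, hH, farPt]
    refine le_trans (add_le_add ((norm_add_le _ _).trans (add_le_add (norm_add_le _ _) le_rfl)) le_rfl) ?_
    rw [hz, norm_mul, norm_real, Complex.norm_I, mul_one, Real.norm_eq_abs, RCLike.norm_ofNat]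
    linarith [abs_nonneg m]
  have hq1 : (1 : ℝ) ≤ q := by exact_mod_cast NeZero.one_le
  have hlow := inv_zeta_le_norm_LFunction_line χ (s := farPt m) (by rw [hpre]; norm_num)
  rw [hpre, ← hcdef] at hlow
  have hp1 : farPt m ≠ 1 := fun h => by
    have := congrArg Complex.re h
    rw [hpre, one_re] at this
    norm_num at this
  have hkey : ‖clear χ s‖ ≤ 120 * (q * H ^ 2) ∧ c ≤ ‖clear χ (farPt m)‖ := by
    by_cases hχ : χ = 1
    · subst hχ
      refine ⟨?_, ?_⟩
      · have hζ : ‖riemannZeta₁ s‖ ≤ 120 * H ^ 2 := by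
          rw [FA.CycloGrowth.riemannZeta₁_eq (by linarith)]
          refine (norm_sub_le _ _).trans ?_
          rw [norm_mul, norm_mul]
          have h1 : ‖s - 1‖ ≤ 2 * H := (norm_sub_le _ _).trans (by rw [norm_one]; linarith)
          have h2 : ‖FA.CycloGrowth.fracInt s‖ ≤ 8 := (FA.CycloGrowth.norm_fracInt_le (by linarith)).trans
            ((div_le_iff₀ (by linarith)).2 (by linarith))
          calc ‖s‖ + ‖s - 1‖ * ‖s‖ * ‖FA.CycloGrowth.fracInt s‖ ≤ 2 * H + 2 * H * (2 * H) * 8 := by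
                refine add_le_add (by linarith) (mul_le_mul (mul_le_mul h1 (by linarith) (norm_nonneg _)
                  (by linarith)) h2 (norm_nonneg _) (by positivity))
            _ ≤ _ := by nlinarith
        rcases eq_or_ne s 1 with h1 | h1
        · rw [h1, clear, if_pos rfl]
          simp only [DirichletCharacter.LFunctionTrivChar₁, Function.update_self]
          rw [norm_prod]
          refine le_trans (Finset.prod_le_one (fun p _ => norm_nonneg _) fun p hp => ?_) ?_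
          · have hp2 : (2 : ℝ) ≤ p := Nat.ofNat_le_cast.2 (Nat.prime_of_mem_primeFactors hp).two_le
            rw [show (1 : ℂ) - (p : ℂ)⁻¹ = ((1 - (p : ℝ)⁻¹ : ℝ) : ℂ) by push_cast; ring, norm_real,
              Real.norm_of_nonneg (sub_nonneg.2 (inv_le_one_of_one_le₀ (by linarith)))]
            exact sub_le_self 1 (by positivity)
          · nlinarith [one_le_mul_of_one_le_of_one_le hq1 (one_le_pow₀ (n := 2) (by linarith : (1 : ℝ) ≤ H))]
        rw [clear_one_eq' h1, norm_mul, norm_prod]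
        have hprod : ∏ p ∈ q.primeFactors, ‖1 - (p : ℂ) ^ (-s)‖ ≤ q := by
          refine le_trans (Finset.prod_le_prod (fun p _ => norm_nonneg _) (g := fun p : ℕ => (p : ℝ))
            fun p hp => ?_) ?_
          · have hp := Nat.prime_of_mem_primeFactors hp
            refine (norm_sub_le _ _).trans ?_
            rw [norm_one, norm_natCast_cpow_of_pos hp.pos]
            have h2 : (2 : ℝ) ≤ p := Nat.ofNat_le_cast.2 hp.two_le
            have : (p : ℝ) ^ (-s).re ≤ 1 :=
              Real.rpow_le_one_of_one_le_of_nonpos (by linarith) (by rw [neg_re]; linarith)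
            linarith
          · rw [← Nat.cast_prod, Nat.cast_le]
            exact Nat.le_of_dvd (Nat.pos_of_ne_zero (NeZero.ne q)) (Nat.prod_primeFactors_dvd q)
        exact (mul_le_mul hprod hζ (norm_nonneg _) (by linarith)).trans (le_of_eq (by ring))
      · rw [clear_one_eq hp1, norm_mul]
        refine hlow.trans (le_mul_of_one_le_left (norm_nonneg _) (le_trans ?_ (re_le_norm _)))
        rw [sub_re, hpre, one_re]
        norm_num
    · rw [clear_of_ne_one hχ]
      refine ⟨(FA.Siegel.norm_LFunction_le hχ (by linarith)).trans ?_, hlow⟩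
      refine (mul_le_mul (show ‖s‖ ≤ 2 * H by linarith) (div_le_div_of_nonneg_left (Nat.cast_nonneg q)
        (by norm_num) hsre) (div_nonneg (Nat.cast_nonneg q) (by linarith)) (by linarith)).trans ?_
      nlinarith [mul_nonneg (show (0 : ℝ) ≤ q by linarith) (show (0 : ℝ) ≤ H by linarith)]
  refine hkey.1.trans ?_
  have h1 : 120 * (q * H ^ 2) ≤ Real.exp (max 2 (Real.log B) * ht q m) * c := by
    rw [show 120 * ((q : ℝ) * H ^ 2) = B * (q * H ^ 2) * c by rw [hBdef]; field_simp]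
    refine mul_le_mul_of_nonneg_right ?_ hc.le
    obtain ⟨C, hC⟩ : ∃ C, C = max 2 (Real.log B) := ⟨_, rfl⟩
    have h2 : Real.log B ≤ C := hC ▸ le_max_right _ _
    have h3 : 2 ≤ C := hC ▸ le_max_left _ _
    rw [← hC, ← Real.log_le_iff_le_exp (by positivity), Real.log_mul hB.ne' (by positivity),
      Real.log_mul (by linarith) (by positivity), Real.log_pow, ht, lg, hH]
    have h4 : 0 ≤ Real.log (|m| + 3) := Real.log_nonneg (by linarith [abs_nonneg m])
    push_cast
    nlinarith [mul_le_mul_of_nonneg_right h3 h4, mul_le_mul_of_nonneg_right h3 (Real.log_natCast_nonneg q),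
      Real.log_natCast_nonneg q]
  exact h1.trans (mul_le_mul_of_nonneg_left hkey.2 (Real.exp_pos _).le)

/-- **`O (ht)` zeros in a unit of height.** -/
theorem exists_card_unit_le : ∃ C : ℝ, 1 ≤ C ∧ ∀ (q : ℕ) [NeZero q] (χ : DirichletCharacter ℂ q) (m : ℝ)
    (S : Finset ℂ), (∀ ρ ∈ S, clear χ ρ = 0 ∧ 1 / 2 ≤ ρ.re ∧ |ρ.im - m| ≤ 1 / 2) →
      ∑ ρ ∈ S, (analyticOrderNatAt (clear χ) ρ : ℝ) ≤ C * ht q m := by
  obtain ⟨A, hA, hrim⟩ := exists_far_rim
  have hl : 0 < Real.log ((15 / 8 : ℝ) / (13 / 8)) := Real.log_pos (by norm_num)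
  refine ⟨max 1 (A / Real.log ((15 / 8 : ℝ) / (13 / 8))), le_max_left _ _, fun q _ χ m S hS => ?_⟩
  obtain ⟨f, hf⟩ : ∃ f : ℂ → ℂ, f = fun z => clear χ (farPt m + z) := ⟨_, rfl⟩
  have hdiff : Differentiable ℂ f := hf ▸ (differentiable_clear χ).comp (differentiable_id.const_add _)
  have h0 : f 0 ≠ 0 := by
    rw [hf]
    exact clear_ne_zero χ (by simp [farPt])
  obtain ⟨Z, h, hh, he, hZ, -, hcard, hord⟩ := FA.RiemannMangoldt.exists_factor (f := f)
    (B := Real.exp (A * ht q m)) isOpen_univ (subset_univ _) (by norm_num : (0 : ℝ) < 13 / 8)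
    (by norm_num : (13 / 8 : ℝ) < 15 / 8) hdiff.differentiableOn h0 (fun z hz => hf ▸ hrim q χ m z hz)
  have hle : ∀ ρ ∈ S, analyticOrderNatAt (clear χ) ρ = Z.count (ρ - farPt m) := fun ρ hρ => by
    obtain ⟨hz, h12, him⟩ := hS ρ hρ
    have h1 := re_lt_one_of_clear hz
    have hmem : ρ - farPt m ∈ closedBall (0 : ℂ) (13 / 8) := by
      have h2 : (ρ.im - m) * (ρ.im - m) ≤ 1 / 4 := by nlinarith [abs_mul_abs_self (ρ.im - m), abs_nonneg (ρ.im - m)]
      rw [mem_closedBall_zero_iff, Complex.norm_def, Real.sqrt_le_left (by norm_num), normSq_apply,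
        farPt]
      simp only [sub_re, add_re, mul_re, ofReal_re, I_re, mul_zero, ofReal_im, I_im, mul_one, sub_self,
        add_zero, sub_im, add_im, mul_im, show (2 : ℂ).re = 2 by simp, show (2 : ℂ).im = 0 by simp, zero_add]
      nlinarith
    rw [← hord _ hmem, hf]
    have hcomp : AnalyticAt ℂ (clear χ) ρ := (differentiable_clear χ).analyticAt ρ
    have e : f = clear χ ∘ fun z => farPt m + z := hf
    rw [analyticOrderNatAt, analyticOrderNatAt]
    have := analyticOrderAt_comp_of_deriv_ne_zero (f := clear χ) (g := fun z : ℂ => farPt m + z)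
      (z₀ := ρ - farPt m) (by fun_prop) (by simp)
    simp only [add_sub_cancel] at this
    rw [show (fun z => clear χ (farPt m + z)) = clear χ ∘ fun z => farPt m + z from rfl, this]
  rw [Finset.sum_congr rfl fun ρ hρ => by rw [hle ρ hρ], ← Nat.cast_sum]
  have hsum : ∑ ρ ∈ S, Z.count (ρ - farPt m) ≤ Multiset.card Z := by
    classical
    rw [← Finset.sum_image (f := fun w => Z.count w) (g := fun ρ : ℂ => ρ - farPt m)
      (fun a _ b _ h => sub_left_injective h)]
    refine le_trans ?_ (le_of_eq Z.toFinset_sum_count_eq)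
    exact Finset.sum_le_sum_of_ne_zero fun w _ hw => Multiset.mem_toFinset.2 (Multiset.count_ne_zero.1 hw)
  refine (Nat.cast_le.2 hsum).trans ?_
  have h1 := Real.log_le_log (by positivity) hcard
  rw [Real.log_exp, Real.log_pow, ← le_div_iff₀ hl] at h1
  refine h1.trans ?_
  rw [mul_div_right_comm]
  exact mul_le_mul_of_nonneg_right (le_max_right _ _) (ht_pos q m).le

/-- **The trivial count.** -/
theorem exists_card_half_le : ∃ C : ℝ, 1 ≤ C ∧ ∀ (q Q : ℕ) [NeZero q] (χ : DirichletCharacter ℂ q) (T : ℝ)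
    (S : Finset ℂ), q ≤ Q → (∀ ρ ∈ S, clear χ ρ = 0 ∧ 1 / 2 ≤ ρ.re ∧ |ρ.im| ≤ T) →
      ∑ ρ ∈ S, (analyticOrderNatAt (clear χ) ρ : ℝ) ≤ C * ((|T| + 2) * famL Q T) := by
  obtain ⟨C, hC, hunit⟩ := exists_card_unit_le
  refine ⟨2 * C, by linarith, fun q Q _ χ T S hq hS => ?_⟩
  obtain ⟨n, hn⟩ : ∃ n : ℤ, n = ⌊|T|⌋ + 1 := ⟨_, rfl⟩
  have hn0 : 0 ≤ n := by rw [hn]; have := Int.floor_nonneg.2 (abs_nonneg T); omega
  have hnT : (n : ℝ) ≤ |T| + 1 := by rw [hn]; push_cast; linarith [Int.floor_le |T|]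
  have hmap : ∀ ρ ∈ S, round ρ.im ∈ Finset.Icc (-n) n := fun ρ hρ => by
    have h1 := abs_le.1 ((hS ρ hρ).2.2.trans (le_abs_self T))
    have h2 := abs_le.1 (abs_sub_round ρ.im)
    have h3 := Int.lt_floor_add_one |T|
    rw [Finset.mem_Icc]
    have h4 : (round ρ.im : ℝ) < (n : ℝ) + 1 := by rw [hn]; push_cast; linarith
    have h5 : -(n : ℝ) - 1 < (round ρ.im : ℝ) := by rw [hn]; push_cast; linarith
    constructor
    · have : -n - 1 < round ρ.im := by exact_mod_cast h5
      omega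
    · have : round ρ.im < n + 1 := by exact_mod_cast h4
      omega
  rw [← Finset.sum_fiberwise_of_maps_to hmap]
  refine (Finset.sum_le_card_nsmul _ _ (C * famL Q T) fun k hk => ?_).trans ?_
  · rw [Finset.mem_Icc] at hk
    refine (hunit q χ k _ fun ρ hρ => ?_).trans (mul_le_mul_of_nonneg_left (ht_le_famL (NeZero.pos q) hq ?_)
      (by linarith))
    · obtain ⟨hρS, hk'⟩ := Finset.mem_filter.1 hρ
      obtain ⟨h1, h2, -⟩ := hS ρ hρS
      exact ⟨h1, h2, hk' ▸ abs_sub_round ρ.im⟩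
    · have h1 : (k : ℝ) ≤ n := Int.cast_le.2 hk.2
      have h2 : -(n : ℝ) ≤ k := by exact_mod_cast hk.1
      rw [abs_le]
      constructor <;> linarith
  · rw [Int.card_Icc, nsmul_eq_mul]
    have hcast : (((n + 1 - -n).toNat : ℕ) : ℝ) = 2 * (n : ℝ) + 1 := by
      have : (((n + 1 - -n).toNat : ℕ) : ℤ) = 2 * n + 1 := by omega
      exact_mod_cast this
    rw [hcast]
    have := mul_le_mul_of_nonneg_right (show 2 * (n : ℝ) + 1 ≤ 2 * (|T| + 2) by linarith)
      (mul_nonneg (show 0 ≤ C by linarith) (famL_pos Q T).le)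
    linarith

end FA.Gallagher

end
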