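import Fermat.Agent.Gallagher.Sieve
import Fermat.Agent.LinnikPrime.MeanValue

/-!
# Gallagher's mean value over all primitive characters

With the weight `exp (- t ^ 2 / T ^ 2)` the mean square of `∑ a n χ n n ^ (- it)` is `T ^ 2` times the mean
square in `w` of the sums of `a n χ n exp (- T ^ 2 (log n - w) ^ 2 / 2)`. In windows of length `1 / T` the
large sieve on rough numbers makes this `O (∑ n |a n| ^ 2 / log z)`, uniformly in the characters of all
moduli `≤ Q`.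
-/

set_option autoImplicit false
set_option linter.unusedSectionVars false

noncomputable section

open Finset Complex MeasureTheory
open FA.LinnikPrime (chTerm chTerm_mul_conj norm_chTerm_le)
open FA.BombieriVinogradov (primChars)
open scoped Real ComplexConjugate

namespace FA.Gallagher

theorem integral_gauss_scaled {T : ℝ} (hT : 0 < T) (u : ℝ) :
    ∫ t : ℝ, Complex.exp (I * (u : ℂ) * (t : ℂ)) * ((Real.exp (-(t / T) ^ 2) : ℝ) : ℂ) =
      ((√π * T * Real.exp (-(T * u) ^ 2 / 4) : ℝ) : ℂ) := by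
  have h := FA.LinnikPrime.integral_gauss (T * u)
  obtain ⟨F, hF⟩ : ∃ F : ℝ → ℂ, F = fun t : ℝ =>
      Complex.exp (I * ((T * u : ℝ) : ℂ) * (t : ℂ)) * ((Real.exp (-t ^ 2) : ℝ) : ℂ) := ⟨_, rfl⟩
  rw [show (fun t : ℝ => Complex.exp (I * (u : ℂ) * (t : ℂ)) * ((Real.exp (-(t / T) ^ 2) : ℝ) : ℂ)) =
      fun t => F (t / T) from funext fun t => by
    rw [hF]
    congr 2
    push_cast
    field_simp [show (T : ℂ) ≠ 0 from ofReal_ne_zero.2 hT.ne'],
    Measure.integral_comp_div F T, abs_of_pos hT, hF, h, Complex.real_smul]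
  push_cast
  ring

/-- The Gaussian of the windows. -/
def gauss (T w : ℝ) (n : ℕ) : ℝ := Real.exp (-(T * (Real.log n - w)) ^ 2 / 2)

theorem gauss_nonneg (T w : ℝ) (n : ℕ) : 0 ≤ gauss T w n := (Real.exp_pos _).le

theorem integrable_gauss {T : ℝ} (hT : 0 < T) (x : ℝ) {c : ℝ} (hc : 0 < c) :
    Integrable fun w : ℝ => Real.exp (-c * (T * (x - w)) ^ 2) := by
  have h := (integrable_exp_neg_mul_sq (show 0 < c * T ^ 2 by positivity)).comp_sub_left x
  refine h.congr (Filter.Eventually.of_forall fun w => ?_)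
  simp only
  ring_nf

theorem integral_gauss_sq {T : ℝ} (hT : 0 < T) (x : ℝ) {c : ℝ} (hc : 0 < c) :
    ∫ w : ℝ, Real.exp (-c * (T * (x - w)) ^ 2) = √(π / c) / T := by
  rw [show (fun w : ℝ => Real.exp (-c * (T * (x - w)) ^ 2)) =
    fun w => (fun v : ℝ => Real.exp (-(c * T ^ 2) * v ^ 2)) (x - w) from funext fun w => by ring_nf]
  rw [integral_sub_left_eq_self (fun v : ℝ => Real.exp (-(c * T ^ 2) * v ^ 2)) volume x, integral_gaussian,
    show π / (c * T ^ 2) = π / c / T ^ 2 by ring, Real.sqrt_div (by positivity), Real.sqrt_sq hT.le]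

/-- **The convolution of two windows.** -/
theorem gauss_mul (T w : ℝ) (n m : ℕ) : gauss T w n * gauss T w m =
    Real.exp (-(T * (Real.log m - Real.log n)) ^ 2 / 4) *
      Real.exp (-1 * (T * ((Real.log n + Real.log m) / 2 - w)) ^ 2) := by
  rw [gauss, gauss, ← Real.exp_add, ← Real.exp_add]
  congr 1
  ring

variable {q : ℕ} [NeZero q]

/-- The smoothed window sum. -/
def winSum (a : ℕ → ℂ) (S : Finset ℕ) (χ : DirichletCharacter ℂ q) (T w : ℝ) : ℂ :=
  ∑ n ∈ S, a n * (gauss T w n : ℂ) * χ n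

/-- The twisted sum. -/
def twistSum (a : ℕ → ℂ) (S : Finset ℕ) (χ : DirichletCharacter ℂ q) (t : ℝ) : ℂ :=
  ∑ n ∈ S, a n * chTerm χ t n

theorem continuous_twistSum {S : Finset ℕ} (hS : ∀ n ∈ S, n ≠ 0) (a : ℕ → ℂ)
    (χ : DirichletCharacter ℂ q) : Continuous (twistSum a S χ) :=
  continuous_finsetSum _ fun n hn => continuous_const.mul (FA.LinnikPrime.continuous_chTerm χ (hS n hn))

theorem norm_twistSum_le (a : ℕ → ℂ) (S : Finset ℕ) (χ : DirichletCharacter ℂ q) (t : ℝ) :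
    ‖twistSum a S χ t‖ ≤ ∑ n ∈ S, ‖a n‖ :=
  (norm_sum_le _ _).trans (Finset.sum_le_sum fun n _ => by
    rw [norm_mul]; exact mul_le_of_le_one_right (norm_nonneg _) (norm_chTerm_le χ t n))

theorem integrable_twistSum_sq {S : Finset ℕ} (hS : ∀ n ∈ S, n ≠ 0) (a : ℕ → ℂ)
    (χ : DirichletCharacter ℂ q) {T : ℝ} (hT : 0 < T) :
    Integrable fun t : ℝ => ‖twistSum a S χ t‖ ^ 2 * Real.exp (-(t / T) ^ 2) := by
  have hg : Integrable fun t : ℝ => Real.exp (-(t / T) ^ 2) := by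
    refine (integrable_exp_neg_mul_sq (show 0 < (T ^ 2)⁻¹ by positivity)).congr
      (Filter.Eventually.of_forall fun t => ?_)
    simp only
    ring_nf
  refine Integrable.bdd_mul hg ((continuous_twistSum hS a χ).norm.pow 2).aestronglyMeasurable
    (c := (∑ n ∈ S, ‖a n‖) ^ 2) (Filter.Eventually.of_forall fun t => ?_)
  rw [norm_pow, norm_norm]
  exact pow_le_pow_left₀ (norm_nonneg _) (norm_twistSum_le a S χ t) 2

theorem integrable_winSum_sq (a : ℕ → ℂ) (S : Finset ℕ) (χ : DirichletCharacter ℂ q) {T : ℝ}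
    (hT : 0 < T) : Integrable fun w : ℝ => ‖winSum a S χ T w‖ ^ 2 := by
  have hbd : Integrable fun w : ℝ => (S.card : ℝ) * ∑ n ∈ S, ‖a n‖ ^ 2 *
      Real.exp (-1 * (T * (Real.log n - w)) ^ 2) :=
    (integrable_finsetSum _ fun (n : ℕ) _ => (integrable_gauss hT (Real.log n) one_pos).const_mul _).const_mul _
  refine hbd.mono' ?_ (Filter.Eventually.of_forall fun w => ?_)
  · refine Continuous.aestronglyMeasurable ?_
    simp only [winSum, gauss]
    fun_prop
  · rw [norm_pow, norm_norm, winSum]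
    refine (pow_le_pow_left₀ (norm_nonneg _) (norm_sum_le _ _) 2).trans ?_
    refine sq_sum_le_card_mul_sum_sq.trans (mul_le_mul_of_nonneg_left (Finset.sum_le_sum fun n _ => ?_)
      (Nat.cast_nonneg _))
    rw [norm_mul, norm_mul, norm_real, Real.norm_of_nonneg (gauss_nonneg T w n), mul_pow, mul_pow]
    refine (mul_le_of_le_one_right (by positivity) (pow_le_one₀ (norm_nonneg _) (χ.norm_le_one _))).trans
      (le_of_eq ?_)
    rw [gauss, ← Real.exp_nat_mul]
    congr 2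
    push_cast
    ring

/-- **Plancherel for the windows.** -/
theorem integral_twist_eq {S : Finset ℕ} (hS : ∀ n ∈ S, n ≠ 0) (a : ℕ → ℂ)
    (χ : DirichletCharacter ℂ q) {T : ℝ} (hT : 0 < T) :
    ∫ t : ℝ, ‖twistSum a S χ t‖ ^ 2 * Real.exp (-(t / T) ^ 2) =
      T ^ 2 * ∫ w : ℝ, ‖winSum a S χ T w‖ ^ 2 := by
  obtain ⟨E, hE⟩ : ∃ E : ℕ → ℕ → ℝ → ℂ, E = fun (n m : ℕ) (t : ℝ) =>
      Complex.exp (I * ((Real.log m - Real.log n : ℝ) : ℂ) * (t : ℂ)) *
        ((Real.exp (-(t / T) ^ 2) : ℝ) : ℂ) := ⟨_, rfl⟩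
  have hEint : ∀ n m, Integrable (E n m) := fun n m => by
    have hg : Integrable fun t : ℝ => Real.exp (-(t / T) ^ 2) := by
      refine (integrable_exp_neg_mul_sq (show 0 < (T ^ 2)⁻¹ by positivity)).congr
        (Filter.Eventually.of_forall fun t => ?_)
      simp only
      ring_nf
    rw [hE]
    refine Integrable.bdd_mul (f := fun t : ℝ => Complex.exp (I * ((Real.log m - Real.log n : ℝ) : ℂ) * (t : ℂ)))
      (c := 1) hg.ofReal (Continuous.aestronglyMeasurable (by fun_prop))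
      (Filter.Eventually.of_forall fun t => ?_)
    rw [show I * ((Real.log m - Real.log n : ℝ) : ℂ) * (t : ℂ) =
      (((Real.log m - Real.log n) * t : ℝ) : ℂ) * I by push_cast; ring, Complex.norm_exp_ofReal_mul_I]
  have hL : ∀ t : ℝ, ((‖twistSum a S χ t‖ ^ 2 * Real.exp (-(t / T) ^ 2) : ℝ) : ℂ) =
      ∑ n ∈ S, ∑ m ∈ S, (a n * conj (a m) * (χ n * conj (χ m))) * E n m t := fun t => by
    rw [ofReal_mul, ← normSq_eq_norm_sq, ← mul_conj, twistSum, map_sum, Finset.sum_mul_sum, Finset.sum_mul]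
    refine Finset.sum_congr rfl fun n hn => ?_
    rw [Finset.sum_mul]
    refine Finset.sum_congr rfl fun m hm => ?_
    rw [map_mul, mul_mul_mul_comm, chTerm_mul_conj χ t (hS n hn) (hS m hm), hE]
    ring
  have hR : ∀ w : ℝ, ((‖winSum a S χ T w‖ ^ 2 : ℝ) : ℂ) =
      ∑ n ∈ S, ∑ m ∈ S, (a n * conj (a m) * (χ n * conj (χ m))) *
        ((gauss T w n * gauss T w m : ℝ) : ℂ) := fun w => by
    rw [← normSq_eq_norm_sq, ← mul_conj, winSum, map_sum, Finset.sum_mul_sum]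
    refine Finset.sum_congr rfl fun n _ => Finset.sum_congr rfl fun m _ => ?_
    rw [map_mul, map_mul, conj_ofReal]
    push_cast
    ring
  have hgint : ∀ n m : ℕ, Integrable fun w : ℝ => ((gauss T w n * gauss T w m : ℝ) : ℂ) := fun n m => by
    refine (((integrable_gauss hT ((Real.log n + Real.log m) / 2) one_pos).const_mul
      (Real.exp (-(T * (Real.log m - Real.log n)) ^ 2 / 4))).congr
        (Filter.Eventually.of_forall fun w => (gauss_mul T w n m).symm)).ofReal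
  refine Complex.ofReal_injective ?_
  push_cast
  rw [← integral_complex_ofReal, ← integral_complex_ofReal,
    integral_congr_ae (Filter.Eventually.of_forall hL), integral_congr_ae (Filter.Eventually.of_forall hR),
    integral_finsetSum _ fun n _ => integrable_finsetSum _ fun m _ => (hEint n m).const_mul _,
    integral_finsetSum _ fun n _ => integrable_finsetSum _ fun m _ => (hgint n m).const_mul _, Finset.mul_sum]
  refine Finset.sum_congr rfl fun n _ => ?_
  rw [integral_finsetSum _ fun m _ => (hEint n m).const_mul _,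
    integral_finsetSum _ fun m _ => (hgint n m).const_mul _, Finset.mul_sum]
  refine Finset.sum_congr rfl fun m _ => ?_
  rw [integral_const_mul, integral_const_mul, hE, integral_gauss_scaled hT, integral_complex_ofReal,
    funext fun w => gauss_mul T w n m, integral_const_mul, integral_gauss_sq hT _ one_pos, div_one]
  push_cast
  field_simp

theorem sum_geom_natAbs_le (J : Finset ℤ) : ∑ j ∈ J, (Real.exp (-1)) ^ j.natAbs ≤ 4 := by
  classical
  have hx0 : 0 ≤ Real.exp (-1) := (Real.exp_pos _).le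
  have hx : Real.exp (-1) ≤ 1 / 2 := by
    rw [Real.exp_neg, one_div]
    exact inv_anti₀ two_pos (by linarith [Real.add_one_le_exp (1 : ℝ)])
  have key : ∀ P : Finset ℤ, Set.InjOn Int.natAbs (P : Set ℤ) →
      ∑ j ∈ P, (Real.exp (-1)) ^ j.natAbs ≤ 2 := fun P hP => by
    rw [← Finset.sum_image hP]
    refine (Summable.sum_le_tsum _ (fun i _ => by positivity)
      (summable_geometric_of_lt_one hx0 (by linarith))).trans ?_
    rw [tsum_geometric_of_lt_one hx0 (by linarith), inv_le_iff_one_le_mul₀ (by linarith)]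
    linarith
  rw [← Finset.sum_filter_add_sum_filter_not J (0 ≤ ·)]
  have h1 := key (J.filter (0 ≤ ·)) fun a ha b hb h => by
    simp only [coe_filter, Set.mem_ofPred_eq] at ha hb
    omega
  have h2 := key (J.filter fun j => ¬ 0 ≤ j) fun a ha b hb h => by
    simp only [coe_filter, Set.mem_ofPred_eq] at ha hb
    omega
  linarith

/-- The constant of the mean value. -/
def meanC : ℝ := 20 * Real.exp 2 * √(2 * π)

theorem meanC_pos : 0 < meanC := by rw [meanC]; positivity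

/-- **One window position.** -/
theorem sum_winSum_le {z Q : ℕ} (hz : 1 ≤ z) {T : ℝ} (hT : 1 ≤ T) {S : Finset ℕ}
    (hrough : ∀ n ∈ S, Rough z n)
    (hbig : ∀ n ∈ S, T * (2 + (2 * (z : ℝ) ^ 4 + 2 * (Q : ℝ) ^ 4 * (z : ℝ) ^ 4) * Real.log (z + 1)) ≤ n)
    (a : ℕ → ℂ) (w : ℝ) :
    ∑ u ∈ family Q, ‖∑ n ∈ S, a n * (gauss T w n : ℂ) * u.2 (n : ZMod u.1)‖ ^ 2 ≤
      20 * Real.exp 2 / (T * Real.log (z + 1)) *
        ∑ n ∈ S, (n : ℝ) * ‖a n‖ ^ 2 * Real.exp (-(1 / 2) * (T * (Real.log n - w)) ^ 2) := by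
  classical
  have hlog : 0 < Real.log ((z : ℝ) + 1) := Real.log_pos (by
    have : (1 : ℝ) ≤ z := Nat.one_le_cast.2 hz
    linarith)
  have hT0 : 0 < T := by linarith
  obtain ⟨j, hj⟩ : ∃ j : ℕ → ℤ, j = fun n : ℕ => ⌊T * (Real.log n - w)⌋ := ⟨_, rfl⟩
  obtain ⟨J, hJ⟩ : ∃ J, J = S.image j := ⟨_, rfl⟩
  obtain ⟨b, hb⟩ : ∃ b : ℕ → ℂ, b = fun n => a n * (gauss T w n : ℂ) := ⟨_, rfl⟩
  obtain ⟨e, he⟩ : ∃ e : ℝ, e = Real.exp (-1) := ⟨_, rfl⟩
  have he0 : 0 < e := he ▸ Real.exp_pos _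
  have hcs : ∀ u : Σ q : ℕ, DirichletCharacter ℂ q, ‖∑ n ∈ S, b n * u.2 (n : ZMod u.1)‖ ^ 2 ≤
      4 * ∑ i ∈ J, (e ^ i.natAbs)⁻¹ * ‖∑ n ∈ S.filter (fun n => j n = i), b n * u.2 (n : ZMod u.1)‖ ^ 2 :=
    fun u => by
    rw [← Finset.sum_fiberwise_of_maps_to (t := J) (g := j) fun n hn => hJ ▸ mem_image_of_mem j hn]
    refine (pow_le_pow_left₀ (norm_nonneg _) (norm_sum_le _ _) 2).trans ?_
    refine (Finset.sum_sq_le_sum_mul_sum_of_sq_le_mul _ (r := fun i =>
        ‖∑ n ∈ S.filter (fun n => j n = i), b n * u.2 (n : ZMod u.1)‖)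
      (f := fun i => e ^ i.natAbs) (g := fun i => (e ^ i.natAbs)⁻¹ *
        ‖∑ n ∈ S.filter (fun n => j n = i), b n * u.2 (n : ZMod u.1)‖ ^ 2)
      (fun i _ => by positivity) (fun i _ => by positivity) fun i _ => le_of_eq (by field_simp)).trans ?_
    exact mul_le_mul_of_nonneg_right (he ▸ sum_geom_natAbs_le J) (Finset.sum_nonneg fun i _ => by positivity)
  have hblock : ∀ i ∈ J, ∑ u ∈ family Q, (e ^ i.natAbs)⁻¹ *
      ‖∑ n ∈ S.filter (fun n => j n = i), b n * u.2 (n : ZMod u.1)‖ ^ 2 ≤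
        ∑ n ∈ S.filter (fun n => j n = i), 5 * Real.exp 2 / (T * Real.log (z + 1)) *
          ((n : ℝ) * ‖a n‖ ^ 2 * Real.exp (-(1 / 2) * (T * (Real.log n - w)) ^ 2)) := by
    intro i hi
    obtain ⟨B, hB⟩ : ∃ B, B = S.filter fun n => j n = i := ⟨_, rfl⟩
    rw [← hB, ← Finset.mul_sum]
    have hne : B.Nonempty := by
      rw [hJ] at hi
      obtain ⟨n, hn, rfl⟩ := mem_image.1 hi
      exact ⟨n, hB ▸ mem_filter.2 ⟨hn, rfl⟩⟩
    obtain ⟨m, hm⟩ : ∃ m, m = B.min' hne := ⟨_, rfl⟩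
    obtain ⟨M, hM⟩ : ∃ M, M = B.max' hne := ⟨_, rfl⟩
    have hmB : m ∈ B := hm ▸ B.min'_mem hne
    have hMB : M ∈ B := hM ▸ B.max'_mem hne
    have hmem : ∀ n ∈ B, n ∈ S ∧ (i : ℝ) ≤ T * (Real.log n - w) ∧ T * (Real.log n - w) < i + 1 :=
      fun n hn => by
      rw [hB, mem_filter] at hn
      refine ⟨hn.1, ?_⟩
      rw [← hn.2, hj]
      exact ⟨Int.floor_le _, Int.lt_floor_add_one _⟩
    have hmM : m ≤ M := hm ▸ B.min'_le M hMB
    have hm1 : 1 ≤ m := by
      have h1 := hbig m (hmem m hmB).1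
      have h2 : (0 : ℝ) < m := lt_of_lt_of_le (by positivity) h1
      exact_mod_cast h2
    have hm0 : (0 : ℝ) < m := Nat.cast_pos.2 hm1
    obtain ⟨N, hN⟩ : ∃ N, N = M - m + 1 := ⟨_, rfl⟩
    have hNle : (N : ℝ) ≤ 2 * m / T + 1 := by
      have h1 := (hmem m hmB).2.1
      have h2 := (hmem M hMB).2.2
      have h3 : Real.log M - Real.log m ≤ 1 / T := by
        rw [le_div_iff₀ hT0]; nlinarith
      have h4 : (M : ℝ) ≤ m * Real.exp (1 / T) := by
        have hM0 : (0 : ℝ) < M := Nat.cast_pos.2 (by omega)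
        rw [← Real.log_le_log_iff hM0 (by positivity), Real.log_mul hm0.ne' (Real.exp_pos _).ne',
          Real.log_exp]
        linarith
      have h5 : Real.exp (1 / T) ≤ 1 + 2 * (1 / T) := by
        have hx1 : (1 : ℝ) / T ≤ 1 := by rw [div_le_one hT0]; exact hT
        have h := Real.abs_exp_sub_one_le (x := 1 / T) (by rwa [abs_of_pos (by positivity)])
        rw [abs_of_pos (show (0 : ℝ) < 1 / T by positivity)] at h
        linarith [(abs_le.1 h).2]
      rw [hN, Nat.cast_add, Nat.cast_sub hmM, Nat.cast_one]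
      have h6 := mul_le_mul_of_nonneg_left h5 hm0.le
      rw [show 2 * (m : ℝ) / T = m * (2 * (1 / T)) by ring]
      linarith
    have hsub : B ⊆ Ioc (m - 1) (m - 1 + N) := fun n hn => by
      have h1 : m ≤ n := hm ▸ B.min'_le n hn
      have h2 : n ≤ M := hM ▸ B.le_max' n hn
      rw [mem_Ioc]
      omega
    rw [← Finset.mul_sum]
    refine (mul_le_mul_of_nonneg_left (rough_large_sieve hz Q (m - 1) N hsub
      (fun n hn => hrough n (hmem n hn).1) b) (by positivity)).trans ?_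
    rw [Finset.mul_sum, Finset.mul_sum, Finset.mul_sum]
    refine Finset.sum_le_sum fun n hn => ?_
    have hn' := hmem n hn
    have hmn : (m : ℝ) ≤ n := Nat.cast_le.2 (hm ▸ B.min'_le n hn)
    have hK : 2 * (N : ℝ) / Real.log (z + 1) + 2 * (z : ℝ) ^ 4 + 2 * (Q : ℝ) ^ 4 * (z : ℝ) ^ 4 ≤
        5 * (n : ℝ) / (T * Real.log (z + 1)) := by
      have h1 := hbig n hn'.1
      rw [le_div_iff₀ (by positivity)]
      have h2 : 2 * (N : ℝ) / Real.log (z + 1) * (T * Real.log (z + 1)) = 2 * N * T := by field_simp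
      rw [add_mul, add_mul, h2]
      have h3 : (N : ℝ) * T ≤ 2 * m + T := by
        refine (mul_le_mul_of_nonneg_right hNle hT0.le).trans (le_of_eq ?_)
        rw [add_mul, div_mul_cancel₀ _ hT0.ne', one_mul]
      linarith
    have hgsq : gauss T w n ^ 2 * (e ^ i.natAbs)⁻¹ ≤
        Real.exp 2 * Real.exp (-(1 / 2) * (T * (Real.log n - w)) ^ 2) := by
      obtain ⟨v, hv⟩ : ∃ v, v = T * (Real.log n - w) := ⟨_, rfl⟩
      have hi' : (i.natAbs : ℝ) ≤ |v| + 1 := by
        rw [Nat.cast_natAbs, Int.cast_abs]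
        have h1 := hn'.2
        rw [← hv] at h1
        rw [abs_le]
        constructor <;> linarith [neg_abs_le v, le_abs_self v]
      rw [gauss, ← hv, he, ← Real.exp_nat_mul, ← Real.exp_nat_mul, ← Real.exp_neg, ← Real.exp_add,
        ← Real.exp_add, Real.exp_le_exp]
      push_cast
      nlinarith [sq_abs v, sq_nonneg (|v| - 1)]
    rw [hb, norm_mul, norm_real, Real.norm_of_nonneg (gauss_nonneg T w n), mul_pow]
    calc (e ^ i.natAbs)⁻¹ * ((2 * (N : ℝ) / Real.log (z + 1) + 2 * (z : ℝ) ^ 4 +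
          2 * (Q : ℝ) ^ 4 * (z : ℝ) ^ 4) * (‖a n‖ ^ 2 * gauss T w n ^ 2))
        = (2 * (N : ℝ) / Real.log (z + 1) + 2 * (z : ℝ) ^ 4 + 2 * (Q : ℝ) ^ 4 * (z : ℝ) ^ 4) *
            (gauss T w n ^ 2 * (e ^ i.natAbs)⁻¹) * ‖a n‖ ^ 2 := by ring
      _ ≤ 5 * (n : ℝ) / (T * Real.log (z + 1)) *
            (Real.exp 2 * Real.exp (-(1 / 2) * (T * (Real.log n - w)) ^ 2)) * ‖a n‖ ^ 2 := by
          refine mul_le_mul_of_nonneg_right (mul_le_mul hK hgsq (by positivity) (by positivity)) (sq_nonneg _)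
      _ = _ := by ring
  have hb' : ∀ (n : ℕ), a n * (gauss T w n : ℂ) = b n := fun n => by rw [hb]
  simp only [hb']
  refine (Finset.sum_le_sum fun u _ => hcs u).trans ?_
  rw [← Finset.mul_sum, Finset.sum_comm]
  refine (mul_le_mul_of_nonneg_left (Finset.sum_le_sum hblock) (by norm_num)).trans (le_of_eq ?_)
  rw [Finset.sum_fiberwise_of_maps_to fun n hn => hJ ▸ mem_image_of_mem j hn, ← Finset.mul_sum]
  ring

/-- **Gallagher's mean value.** -/
theorem sum_integral_twist_le {z Q : ℕ} (hz : 1 ≤ z) {T : ℝ} (hT : 1 ≤ T) {S : Finset ℕ}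
    (hrough : ∀ n ∈ S, Rough z n)
    (hbig : ∀ n ∈ S, T * (2 + (2 * (z : ℝ) ^ 4 + 2 * (Q : ℝ) ^ 4 * (z : ℝ) ^ 4) * Real.log (z + 1)) ≤ n)
    (a : ℕ → ℂ) :
    ∑ u ∈ family Q, ∫ t : ℝ, ‖∑ n ∈ S, a n * chTerm u.2 t n‖ ^ 2 * Real.exp (-(t / T) ^ 2) ≤
      meanC / Real.log (z + 1) * ∑ n ∈ S, (n : ℝ) * ‖a n‖ ^ 2 := by
  have hT0 : 0 < T := by linarith
  have hlog : 0 < Real.log ((z : ℝ) + 1) := Real.log_pos (by
    have : (1 : ℝ) ≤ z := Nat.one_le_cast.2 hz
    linarith)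
  have hS : ∀ n ∈ S, n ≠ 0 := fun n hn h => by
    have h1 := hbig n hn
    rw [h, Nat.cast_zero] at h1
    have h2 : 0 < T * (2 + (2 * (z : ℝ) ^ 4 + 2 * (Q : ℝ) ^ 4 * (z : ℝ) ^ 4) * Real.log (z + 1)) := by
      positivity
    linarith
  have key : ∀ u ∈ family Q,
      (∫ t : ℝ, ‖∑ n ∈ S, a n * chTerm u.2 t n‖ ^ 2 * Real.exp (-(t / T) ^ 2)) =
        T ^ 2 * ∫ w : ℝ, ‖∑ n ∈ S, a n * (gauss T w n : ℂ) * u.2 (n : ZMod u.1)‖ ^ 2 := fun u hu => by
    have : NeZero u.1 := ⟨Nat.one_le_iff_ne_zero.1 (mem_family.1 hu).1⟩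
    exact integral_twist_eq hS a u.2 hT0
  have hint : ∀ u ∈ family Q,
      Integrable fun w : ℝ => ‖∑ n ∈ S, a n * (gauss T w n : ℂ) * u.2 (n : ZMod u.1)‖ ^ 2 := fun u hu => by
    have : NeZero u.1 := ⟨Nat.one_le_iff_ne_zero.1 (mem_family.1 hu).1⟩
    exact integrable_winSum_sq a S u.2 hT0
  rw [Finset.sum_congr rfl key, ← Finset.mul_sum, ← integral_finsetSum _ hint]
  refine (mul_le_mul_of_nonneg_left (integral_mono (integrable_finsetSum _ hint)
    ((integrable_finsetSum _ fun (n : ℕ) _ => (integrable_gauss hT0 (Real.log n) one_half_pos).const_mul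
      ((n : ℝ) * ‖a n‖ ^ 2)).const_mul (20 * Real.exp 2 / (T * Real.log (z + 1))))
    fun w => sum_winSum_le hz hT hrough hbig a w) (sq_nonneg T)).trans (le_of_eq ?_)
  rw [integral_const_mul, integral_finsetSum _ fun (n : ℕ) _ =>
    (integrable_gauss hT0 (Real.log n) one_half_pos).const_mul ((n : ℝ) * ‖a n‖ ^ 2)]
  simp only [integral_const_mul, integral_gauss_sq hT0 _ one_half_pos, ← Finset.sum_mul]
  rw [meanC, show π / (1 / 2) = 2 * π by ring]
  field_simp

end FA.Gallagher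

end
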