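import Fermat.Agent.Gallagher.Turan
import Fermat.Agent.Gallagher.MeanValue
import Fermat.Agent.Gallagher.Count

/-!
# The density theorem of Gallagher

All `L(s, χ)`, `χ` primitive of modulus `≤ Q`, `ζ` among them, have together, with multiplicity, at most
`exp (C (1 + (1 - σ) L))` zeros with `re ≥ σ ≥ 1 / 2` and `|im| ≤ T`, where `L = log Q + 4 + log (|T| + 5)`.
-/

set_option autoImplicit false
set_option linter.unusedSectionVars false

noncomputable section

open Complex Finset MeasureTheory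
open FA.LinnikPrime (clear coef coef_nonneg chTerm momC one_le_momC zmom zmom_le summable_coef lg
  natCast_le_exp_lg)
open scoped Nat Real Classical ArithmeticFunction.vonMangoldt

namespace FA.Gallagher

/-- `L(s, χ)` with the pole removed, for a member of a family. -/
def lfun (u : Σ q : ℕ, DirichletCharacter ℂ q) : ℂ → ℂ :=
  if h : u.1 = 0 then fun _ => 1 else @clear u.1 ⟨h⟩ u.2

theorem lfun_eq (u : Σ q : ℕ, DirichletCharacter ℂ q) [NeZero u.1] : lfun u = clear u.2 := by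
  rw [lfun, dif_neg (NeZero.ne u.1)]

/-- The order of a zero of a member of a family. -/
def lord (u : Σ q : ℕ, DirichletCharacter ℂ q) (ρ : ℂ) : ℝ := analyticOrderNatAt (lfun u) ρ

theorem lord_nonneg (u : Σ q : ℕ, DirichletCharacter ℂ q) (ρ : ℂ) : 0 ≤ lord u ρ := Nat.cast_nonneg _

theorem natCast_le_exp_famL (Q : ℕ) (T : ℝ) : (Q : ℝ) ≤ Real.exp (famL Q T) :=
  (natCast_le_exp_lg Q).trans (Real.exp_le_exp.2 (by
    have := Real.log_nonneg (show (1 : ℝ) ≤ |T| + 5 by linarith [abs_nonneg T])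
    rw [famL]; linarith))

theorem height_le_exp_famL (Q : ℕ) (T : ℝ) : |T| + 2 ≤ Real.exp (famL Q T) := by
  refine le_trans (le_of_lt ?_) (Real.exp_le_exp.2 (show Real.log (|T| + 5) ≤ famL Q T by
    have := FA.LinnikPrime.lg_pos Q
    rw [famL]; linarith))
  rw [Real.exp_log (by linarith [abs_nonneg T])]
  linarith

variable {q : ℕ} [NeZero q]

/-- The sum of the squares over the exponents used, damped at height `T`. -/
def turanAt (χ : DirichletCharacter ℂ q) (L r T t : ℝ) : ℝ :=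
  ∑ k ∈ range (⌊2 * densG * (r * L)⌋₊ + 1),
    (r ^ (k + 1)) ^ 2 * (‖winPoly χ L k r t‖ ^ 2 * Real.exp (-(t / (|T| + 2)) ^ 2))

theorem turanAt_nonneg (χ : DirichletCharacter ℂ q) (L r T t : ℝ) : 0 ≤ turanAt χ L r T t :=
  Finset.sum_nonneg fun k _ => by positivity

theorem ne_zero_of_primeWin {L : ℝ} : ∀ n ∈ primeWin L, n ≠ 0 := fun _ hn =>
  (prime_of_primeWin hn).ne_zero

theorem integrable_turanAt (χ : DirichletCharacter ℂ q) (L r T : ℝ) : Integrable (turanAt χ L r T) :=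
  integrable_finsetSum _ fun k _ => (integrable_twistSum_sq ne_zero_of_primeWin
    (fun n => (coef k r n : ℂ)) χ (show 0 < |T| + 2 by linarith [abs_nonneg T])).const_mul _

/-- What a zero makes. -/
theorem turanAt_ge {χ : DirichletCharacter ℂ q} {Q : ℕ} {T r : ℝ} (hq : q ≤ Q) (hr : 0 < r)
    (hr' : r ≤ densR) (hl : 1 ≤ r * famL Q T) {ρ : ℂ} (h : clear χ ρ = 0) (hre : 1 - r ≤ ρ.re)
    (hi : |ρ.im| ≤ T) {t : ℝ} (ht : |t - ρ.im| ≤ r) :
    Real.exp (-(16 * densG * (r * famL Q T))) / 4 * Real.exp (-1) ≤ turanAt χ (famL Q T) r T t := by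
  have htb : |t| ≤ |T| + 2 := by
    have := abs_sub_abs_le_abs_sub t ρ.im
    linarith [hr'.trans densR_le', le_abs_self T]
  obtain ⟨k, hk2, hk⟩ := exists_winPoly_ge χ hr hr' hl h hre ht (ht_le_famL (NeZero.pos q) hq htb)
  have hkmem : k ∈ range (⌊2 * densG * (r * famL Q T)⌋₊ + 1) :=
    Finset.mem_range.2 (Nat.lt_succ_of_le (Nat.le_floor hk2))
  refine le_trans ?_ (Finset.single_le_sum (fun i _ => by positivity) hkmem)
  rw [← mul_assoc ((r ^ (k + 1)) ^ 2), ← mul_pow]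
  refine mul_le_mul ?_ (Real.exp_le_exp.2 ?_) (Real.exp_pos _).le (by positivity)
  · refine le_trans ?_ (pow_le_pow_left₀ (by positivity) hk 2)
    rw [div_pow, ← Real.exp_nat_mul, show (2 : ℝ) ^ 2 = 4 by norm_num]
    refine div_le_div_of_nonneg_right (Real.exp_le_exp.2 ?_) (by norm_num)
    push_cast
    linarith
  · have h1 : |t / (|T| + 2)| ≤ 1 := by
      rw [abs_div, abs_of_pos (show 0 < |T| + 2 by linarith [abs_nonneg T]),
        div_le_one (by linarith [abs_nonneg T])]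
      exact htb
    have h2 := pow_le_one₀ (n := 2) (abs_nonneg _) h1
    rw [sq_abs] at h2
    linarith

/-- **Few zeros of one function at one height.** -/
theorem sum_close_le (χ : DirichletCharacter ℂ q) {Q : ℕ} {T r : ℝ} (hq : q ≤ Q) (hr : 0 < r)
    (hr' : r ≤ densR) (hl : 1 ≤ r * famL Q T) (S : Finset ℂ)
    (hS : ∀ ρ ∈ S, clear χ ρ = 0 ∧ 1 - r ≤ ρ.re ∧ |ρ.im| ≤ T) (t : ℝ) :
    ∑ ρ ∈ S.filter (fun ρ => |t - ρ.im| ≤ r), (analyticOrderNatAt (clear χ) ρ : ℝ) ≤
      5 * (2 + landG) * (r * famL Q T) := by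
  rcases (S.filter fun ρ => |t - ρ.im| ≤ r).eq_empty_or_nonempty with he | ⟨ρ₀, hρ₀⟩
  · rw [he, Finset.sum_empty]
    exact mul_nonneg (by linarith [one_le_landG]) (by linarith)
  have htb : |t| ≤ |T| + 2 := by
    obtain ⟨h0, h0t⟩ := Finset.mem_filter.1 hρ₀
    have := abs_sub_abs_le_abs_sub t ρ₀.im
    linarith [hr'.trans densR_le', le_abs_self T, (hS ρ₀ h0).2.2]
  have h256 := hr'.trans densR_le'
  obtain ⟨g, hg⟩ : ∃ g : ℂ → ℝ, g = fun w => (r / ‖FA.LinnikPrime.line r t - w‖) ^ 2 := ⟨_, rfl⟩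
  have hL := sum_sq_le χ hr (by linarith) t
  rw [← hg, Finset.sum_multiset_map_count] at hL
  have hkey : ∀ ρ ∈ S.filter (fun ρ => |t - ρ.im| ≤ r), ρ ∈ (nearAt χ t).toFinset ∧
      (analyticOrderNatAt (clear χ) ρ : ℝ) ≤ 5 * ((nearAt χ t).count ρ • g ρ) := fun ρ hρ => by
    obtain ⟨hρS, hρt⟩ := Finset.mem_filter.1 hρ
    obtain ⟨hz, hre, -⟩ := hS ρ hρS
    obtain ⟨hmem, hpt, hcl⟩ := norm_line_sub_le_of_close χ hr hr' hz hre hρt
    refine ⟨Multiset.mem_toFinset.2 hmem, ?_⟩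
    rw [count_nearAt hpt, nsmul_eq_mul, mul_left_comm]
    refine le_mul_of_one_le_right (Nat.cast_nonneg _) ?_
    have h0 : 0 < ‖FA.LinnikPrime.line r t - ρ‖ := hr.trans_le (le_norm_line_sub χ hmem r t)
    rw [hg]
    show 1 ≤ 5 * (r / ‖FA.LinnikPrime.line r t - ρ‖) ^ 2
    rw [div_pow, ← mul_div_assoc, one_le_div (by positivity)]
    exact hcl
  refine (Finset.sum_le_sum fun ρ hρ => (hkey ρ hρ).2).trans ?_
  rw [← Finset.mul_sum, mul_assoc]
  refine mul_le_mul_of_nonneg_left (le_trans ?_ (hL.trans ?_)) (by norm_num)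
  · refine Finset.sum_le_sum_of_subset_of_nonneg (fun ρ hρ => (hkey ρ hρ).1) fun ρ _ _ => ?_
    rw [hg, nsmul_eq_mul]
    positivity
  · have := mul_le_mul_of_nonneg_left (ht_le_famL (NeZero.pos q) hq htb)
      (mul_nonneg (show 0 ≤ landG by linarith [one_le_landG]) hr.le)
    rw [add_mul]
    linarith

/-- **The zeros of one function against the mean value.** -/
theorem sum_ord_mul_le (χ : DirichletCharacter ℂ q) {Q : ℕ} {T r : ℝ} (hq : q ≤ Q) (hr : 0 < r)
    (hr' : r ≤ densR) (hl : 1 ≤ r * famL Q T) (S : Finset ℂ)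
    (hS : ∀ ρ ∈ S, clear χ ρ = 0 ∧ 1 - r ≤ ρ.re ∧ |ρ.im| ≤ T) :
    2 * r * (∑ ρ ∈ S, (analyticOrderNatAt (clear χ) ρ : ℝ)) *
        (Real.exp (-(16 * densG * (r * famL Q T))) / 4 * Real.exp (-1)) ≤
      5 * (2 + landG) * (r * famL Q T) * ∫ t : ℝ, turanAt χ (famL Q T) r T t := by
  obtain ⟨F, hF⟩ : ∃ F : ℝ → ℝ, F = fun t => ∑ ρ ∈ S,
      Set.indicator (Set.Icc (ρ.im - r) (ρ.im + r)) (fun _ => (analyticOrderNatAt (clear χ) ρ : ℝ)) t :=
    ⟨_, rfl⟩
  have hint : ∀ ρ ∈ S, Integrable (Set.indicator (Set.Icc (ρ.im - r) (ρ.im + r))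
      fun _ : ℝ => (analyticOrderNatAt (clear χ) ρ : ℝ)) := fun ρ _ => by
    rw [integrable_indicator_iff measurableSet_Icc]
    exact integrableOn_const measure_Icc_lt_top.ne
  have hFi : Integrable F := hF ▸ integrable_finsetSum _ hint
  have hFe : ∫ t, F t = 2 * r * ∑ ρ ∈ S, (analyticOrderNatAt (clear χ) ρ : ℝ) := by
    rw [hF, integral_finsetSum _ hint, Finset.mul_sum]
    refine Finset.sum_congr rfl fun ρ _ => ?_
    rw [integral_indicator measurableSet_Icc, setIntegral_const,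
      Real.volume_real_Icc_of_le (by linarith), smul_eq_mul]
    ring
  rw [← hFe, ← integral_mul_const, ← integral_const_mul]
  refine integral_mono (hFi.mul_const _) ((integrable_turanAt χ _ _ _).const_mul _) fun t => ?_
  have hFt : F t = ∑ ρ ∈ S.filter (fun ρ => |t - ρ.im| ≤ r), (analyticOrderNatAt (clear χ) ρ : ℝ) := by
    rw [hF, Finset.sum_filter]
    refine Finset.sum_congr rfl fun ρ _ => ?_
    by_cases h : |t - ρ.im| ≤ r
    · have h' := abs_le.1 h
      rw [if_pos h, Set.indicator_of_mem (Set.mem_Icc.2 ⟨by linarith, by linarith⟩)]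
    · rw [if_neg h, Set.indicator_of_notMem
        fun h' => h (abs_le.2 ⟨by linarith [h'.1], by linarith [h'.2]⟩)]
  rw [hFt]
  rcases (S.filter fun ρ => |t - ρ.im| ≤ r).eq_empty_or_nonempty with he | ⟨ρ, hρ⟩
  · rw [he, Finset.sum_empty, zero_mul]
    exact mul_nonneg (mul_nonneg (by linarith [one_le_landG]) (by linarith)) (turanAt_nonneg χ _ _ _ t)
  · obtain ⟨hρS, hρt⟩ := Finset.mem_filter.1 hρ
    obtain ⟨hz, hre, hi⟩ := hS ρ hρS
    exact mul_le_mul (sum_close_le χ hq hr hr' hl S hS t) (turanAt_ge hq hr hr' hl hz hre hi hρt)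
      (by positivity) (mul_nonneg (by linarith [one_le_landG]) (by linarith))

theorem natCast_mul_coef_sq {n : ℕ} (hn : n.Prime) (k : ℕ) (r : ℝ) :
    (n : ℝ) * coef k r n ^ 2 =
      ((2 * k + 1)! : ℝ) / ((k ! : ℝ) ^ 2) * coef (2 * k + 1) (2 * r) n := by
  have hn0 : (0 : ℝ) < n := Nat.cast_pos.2 hn.pos
  have hrp : (n : ℝ) * ((n : ℝ) ^ (-(1 + r)) * (n : ℝ) ^ (-(1 + r))) = (n : ℝ) ^ (-(1 + 2 * r)) := by
    rw [← Real.rpow_add hn0, mul_comm, ← Real.rpow_add_one hn0.ne']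
    ring_nf
  rw [coef, coef, FA.LMO.wgt, FA.LMO.wgt, ArithmeticFunction.vonMangoldt_apply_prime hn, ← hrp,
    pow_succ (Real.log n) (2 * k), pow_mul' (Real.log n) 2 k]
  field_simp

theorem factorial_div_le (k : ℕ) : ((2 * k + 1)! : ℝ) / ((k ! : ℝ) ^ 2) ≤ (2 * k + 1) * 4 ^ k := by
  have h1 : (2 * k + 1)! = (2 * k + 1) * ((2 * k).choose k * (k ! * k !)) := by
    rw [Nat.factorial_succ, ← mul_assoc ((2 * k).choose k), ← Nat.choose_mul_factorial_mul_factorial
      (show k ≤ 2 * k by omega), show 2 * k - k = k by omega]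
  have h2 : ((2 * k).choose k : ℝ) ≤ 4 ^ k := by
    have := Nat.choose_le_two_pow (2 * k) k
    rw [pow_mul] at this
    exact_mod_cast this
  rw [h1, Nat.cast_mul, Nat.cast_mul, Nat.cast_mul, div_le_iff₀ (by positivity)]
  push_cast
  rw [sq, mul_assoc]
  gcongr

/-- **The mean value used.** -/
theorem sum_integral_turanAt_le (Q : ℕ) (T : ℝ) {r : ℝ} (hr : 0 < r) (hr' : r ≤ densR)
    (hl : 1 ≤ r * famL Q T) :
    ∑ u ∈ family Q, ∑ k ∈ range (⌊2 * densG * (r * famL Q T)⌋₊ + 1),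
        (r ^ (k + 1)) ^ 2 * ∫ t : ℝ, ‖∑ n ∈ primeWin (famL Q T), (coef k r n : ℂ) * chTerm u.2 t n‖ ^ 2 *
          Real.exp (-(t / (|T| + 2)) ^ 2) ≤
      9 * densG ^ 2 * meanC * momC * (r * famL Q T) * r := by
  obtain ⟨L, hL⟩ : ∃ L, L = famL Q T := ⟨_, rfl⟩
  rw [← hL] at hl ⊢
  have h5 : 5 ≤ L := hL ▸ five_le_famL Q T
  obtain ⟨z, hz⟩ : ∃ z : ℕ, z = ⌊Real.exp L⌋₊ := ⟨_, rfl⟩
  have hz1 : 1 ≤ z := hz ▸ Nat.le_floor (by exact_mod_cast Real.one_le_exp (by linarith))
  have hzlog : L ≤ Real.log (z + 1) := by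
    rw [Real.le_log_iff_exp_le (by positivity), hz]
    exact (Nat.lt_floor_add_one _).le
  have hze : (z : ℝ) ≤ Real.exp L := hz ▸ Nat.floor_le (Real.exp_pos _).le
  have hbig : ∀ n ∈ primeWin L, (|T| + 2) * (2 + (2 * (z : ℝ) ^ 4 + 2 * (Q : ℝ) ^ 4 * (z : ℝ) ^ 4) *
      Real.log (z + 1)) ≤ n := fun n hn => by
    obtain ⟨-, hp, hlog⟩ := Finset.mem_filter.1 hn
    refine le_trans ?_ ((Real.le_log_iff_exp_le (Nat.cast_pos.2 hp.pos)).1 hlog)
    have hQ := natCast_le_exp_famL Q T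
    have hT := height_le_exp_famL Q T
    rw [← hL] at hQ hT
    obtain ⟨E, hE⟩ : ∃ E, E = Real.exp L := ⟨_, rfl⟩
    rw [← hE] at hQ hT hze
    have hE1 : 6 ≤ E := by rw [hE]; linarith [Real.add_one_le_exp L]
    have hlz : Real.log ((z : ℝ) + 1) ≤ E := by
      refine (Real.log_le_sub_one_of_pos (by positivity)).trans ?_
      linarith
    have h12 : Real.exp (12 * L) = E ^ 12 := by
      rw [hE, ← Real.exp_nat_mul]; norm_num
    rw [h12]
    calc (|T| + 2) * (2 + (2 * (z : ℝ) ^ 4 + 2 * (Q : ℝ) ^ 4 * (z : ℝ) ^ 4) * Real.log (z + 1))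
        ≤ E * (2 + (2 * E ^ 4 + 2 * E ^ 4 * E ^ 4) * E) := by
          have h0 : 0 ≤ Real.log ((z : ℝ) + 1) := by linarith
          gcongr
      _ ≤ E * (6 * E ^ 9) := by
          refine mul_le_mul_of_nonneg_left ?_ (by linarith)
          have h1 : 1 ≤ E ^ 9 := one_le_pow₀ (by linarith)
          have h2 : E ^ 5 ≤ E ^ 9 := pow_le_pow_right₀ (by linarith) (by norm_num)
          ring_nf
          linarith
      _ ≤ E * (E * E ^ 9) := by gcongr
      _ ≤ E ^ 12 := by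
          rw [← mul_assoc, ← sq, ← pow_add]
          exact pow_le_pow_right₀ (by linarith) (by norm_num)
  have hrough : ∀ n ∈ primeWin L, Rough z n := fun n hn p hp hpz hpn => by
    obtain ⟨-, hnp, hlog⟩ := Finset.mem_filter.1 hn
    rw [(Nat.prime_dvd_prime_iff_eq hp hnp).1 hpn] at hpz
    have h1 : (n : ℝ) ≤ Real.exp L := (Nat.cast_le.2 hpz).trans hze
    rw [← Real.log_le_iff_le_exp (Nat.cast_pos.2 hnp.pos)] at h1
    linarith
  rw [Finset.sum_comm]
  refine (Finset.sum_le_card_nsmul _ _ (3 * densG * (r * L) * (meanC * momC / L)) fun k hk => ?_).trans ?_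
  · rw [← Finset.mul_sum]
    refine (mul_le_mul_of_nonneg_left (sum_integral_twist_le (Q := Q) hz1
      (show 1 ≤ |T| + 2 by linarith [abs_nonneg T]) hrough hbig fun n => (coef k r n : ℂ))
      (by positivity)).trans ?_
    have hsum : ∑ n ∈ primeWin L, (n : ℝ) * ‖(coef k r n : ℂ)‖ ^ 2 ≤
        (2 * k + 1) * 4 ^ k * (momC / (2 * r) ^ (2 * k + 1 + 1)) := by
      simp only [norm_real, Real.norm_of_nonneg (coef_nonneg k r _)]
      rw [Finset.sum_congr rfl fun n hn => natCast_mul_coef_sq (prime_of_primeWin hn) k r, ← Finset.mul_sum]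
      refine mul_le_mul (factorial_div_le k) ?_ (sum_nonneg fun n _ => coef_nonneg _ _ n) (by positivity)
      exact ((summable_coef _ (by linarith)).sum_le_tsum _ fun n _ => coef_nonneg _ _ n).trans
        ((le_div_iff₀ (pow_pos (by linarith) _)).2
          (zmom_le (2 * k + 1) (b := 2 * r) (by linarith) (by linarith [hr'.trans densR_le'])))
    have hmean := meanC_pos
    have hmom := one_le_momC
    refine (mul_le_mul_of_nonneg_left (mul_le_mul (div_le_div_of_nonneg_left hmean.le (by linarith) hzlog)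
      hsum (sum_nonneg fun n _ => by positivity) (by positivity)) (by positivity)).trans ?_
    have hk3 : (2 * (k : ℝ) + 1) / 4 ≤ 3 * densG * (r * L) := by
      have h1 : k ≤ ⌊2 * densG * (r * L)⌋₊ := Nat.lt_succ_iff.1 (Finset.mem_range.1 hk)
      have h0 : 0 ≤ 2 * densG * (r * L) := mul_nonneg (by linarith [densG_facts.1]) (by linarith)
      have h2 : (k : ℝ) ≤ 2 * densG * (r * L) := (Nat.cast_le.2 h1).trans (Nat.floor_le h0)
      have h3 : 1 ≤ densG * (r * L) := one_le_mul_of_one_le_of_one_le densG_facts.1 hl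
      linarith
    refine le_trans (le_of_eq ?_) (mul_le_mul_of_nonneg_right hk3 (div_nonneg (by positivity) (by linarith)))
    rw [show (2 * r) ^ (2 * k + 1 + 1) = 4 * 4 ^ k * (r ^ (k + 1)) ^ 2 by
      rw [mul_pow, ← pow_mul, pow_succ, pow_succ, pow_mul]; ring_nf]
    field_simp
  · rw [Finset.card_range, nsmul_eq_mul]
    have hB1 := densG_facts.1
    have hl3 : ((⌊2 * densG * (r * L)⌋₊ + 1 : ℕ) : ℝ) ≤ 3 * densG * (r * L) := by
      push_cast
      have h0 : 1 ≤ densG * (r * L) := one_le_mul_of_one_le_of_one_le hB1 hl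
      linarith [Nat.floor_le (show 0 ≤ 2 * densG * (r * L) by linarith)]
    have := meanC_pos
    have := one_le_momC
    refine (mul_le_mul_of_nonneg_right hl3 (by positivity)).trans (le_of_eq ?_)
    field_simp
    ring

/-- **The density theorem of Gallagher, near the line.** -/
theorem sum_lord_le_near (Q : ℕ) (T : ℝ) {r : ℝ} (hr : 0 < r) (hr' : r ≤ densR) (hl : 1 ≤ r * famL Q T)
    (S : (Σ q : ℕ, DirichletCharacter ℂ q) → Finset ℂ)
    (hS : ∀ u ∈ family Q, ∀ ρ ∈ S u, lfun u ρ = 0 ∧ 1 - r ≤ ρ.re ∧ |ρ.im| ≤ T) :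
    ∑ u ∈ family Q, ∑ ρ ∈ S u, lord u ρ ≤
      90 * (2 + landG) * Real.exp 1 * densG ^ 2 * meanC * momC * (r * famL Q T) ^ 2 *
        Real.exp (16 * densG * (r * famL Q T)) := by
  obtain ⟨l, hldef⟩ : ∃ l, l = r * famL Q T := ⟨_, rfl⟩
  obtain ⟨N, hN⟩ : ∃ N, N = ∑ u ∈ family Q, ∑ ρ ∈ S u, lord u ρ := ⟨_, rfl⟩
  rw [← hN, ← hldef]
  have h1 : N * (2 * r * (Real.exp (-(16 * densG * l)) / 4 * Real.exp (-1))) ≤
      5 * (2 + landG) * l * (9 * densG ^ 2 * meanC * momC * l * r) := by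
    have hl0 : 0 ≤ 5 * (2 + landG) * l :=
      mul_nonneg (by linarith [one_le_landG]) (hldef ▸ by linarith)
    refine le_trans ?_ (mul_le_mul_of_nonneg_left (hldef ▸ sum_integral_turanAt_le Q T hr hr' hl) hl0)
    rw [hN, Finset.sum_mul, Finset.mul_sum]
    refine Finset.sum_le_sum fun u hu => ?_
    obtain ⟨hu1, huQ, -⟩ := mem_family.1 hu
    have : NeZero u.1 := ⟨Nat.one_le_iff_ne_zero.1 hu1⟩
    have hS' := hS u hu
    simp only [lord, lfun_eq] at hS' ⊢
    have h := sum_ord_mul_le u.2 huQ hr hr' hl (S u) hS'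
    simp only [turanAt] at h
    rw [← hldef, integral_finsetSum
      (f := fun k t => (r ^ (k + 1)) ^ 2 *
        (‖winPoly u.2 (famL Q T) k r t‖ ^ 2 * Real.exp (-(t / (|T| + 2)) ^ 2))) _
      fun k _ => (integrable_twistSum_sq ne_zero_of_primeWin
        (fun n => (coef k r n : ℂ)) u.2 (show 0 < |T| + 2 by linarith [abs_nonneg T])).const_mul _] at h
    simp only [integral_const_mul, winPoly] at h
    linarith
  have he1 : Real.exp (-1) * Real.exp 1 = 1 := by rw [← Real.exp_add]; norm_num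
  have he16 : Real.exp (-(16 * densG * l)) * Real.exp (16 * densG * l) = 1 := by
    rw [← Real.exp_add]; norm_num
  have h3 := mul_le_mul_of_nonneg_right h1
    (show 0 ≤ 2 * Real.exp 1 * Real.exp (16 * densG * l) / r by positivity)
  have e1 : N * (2 * r * (Real.exp (-(16 * densG * l)) / 4 * Real.exp (-1))) *
      (2 * Real.exp 1 * Real.exp (16 * densG * l) / r) =
      N * ((Real.exp (-(16 * densG * l)) * Real.exp (16 * densG * l)) * (Real.exp (-1) * Real.exp 1)) := by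
    field_simp
    ring
  rw [e1, he16, he1, mul_one, mul_one] at h3
  refine h3.trans (le_of_eq ?_)
  field_simp
  ring

/-- **The density theorem of Gallagher.** -/
theorem exists_density : ∃ C : ℝ, 1 ≤ C ∧ ∀ (Q : ℕ) (T σ : ℝ), 1 / 2 ≤ σ →
    ∀ S : (Σ q : ℕ, DirichletCharacter ℂ q) → Finset ℂ,
      (∀ u ∈ family Q, ∀ ρ ∈ S u, lfun u ρ = 0 ∧ σ ≤ ρ.re ∧ |ρ.im| ≤ T) →
        ∑ u ∈ family Q, ∑ ρ ∈ S u, lord u ρ ≤ Real.exp (C * (1 + (1 - σ) * famL Q T)) := by
  obtain ⟨A, hA, htriv⟩ := exists_card_half_le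
  obtain ⟨K, hK⟩ : ∃ K : ℝ, K = 90 * (2 + landG) * Real.exp 1 * densG ^ 2 * meanC * momC := ⟨_, rfl⟩
  have hK0 : 0 ≤ K := by
    have := one_le_landG
    have := meanC_pos
    have := one_le_momC
    rw [hK]; positivity
  have hB := densG_facts.1
  have hR := densR_pos
  obtain ⟨C, hC⟩ : ∃ C : ℝ, C = K + A + 2 + 16 * densG + 4 / densR := ⟨_, rfl⟩
  have h4R : 0 < 4 / densR := by positivity
  refine ⟨C, by linarith, fun Q T σ hσ S hS => ?_⟩
  have h5 := five_le_famL Q T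
  obtain ⟨r, hr⟩ : ∃ r : ℝ, r = max (1 - σ) (1 / famL Q T) := ⟨_, rfl⟩
  have hr1 : 1 - σ ≤ r := hr ▸ le_max_left _ _
  have hr0 : 0 < r := lt_of_lt_of_le (by positivity) (hr ▸ le_max_right _ _ : 1 / famL Q T ≤ r)
  have hl : 1 ≤ r * famL Q T := by
    rw [← div_le_iff₀ (by linarith)]
    exact hr ▸ le_max_right _ _
  by_cases hσ1 : 1 < σ
  · -- no zeros
    refine le_of_eq_of_le (Finset.sum_eq_zero fun u hu => ?_) (Real.exp_pos _).le
    have : NeZero u.1 := ⟨Nat.one_le_iff_ne_zero.1 (mem_family.1 hu).1⟩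
    refine Finset.sum_eq_zero fun ρ hρ => ?_
    obtain ⟨hz, hre, -⟩ := hS u hu ρ hρ
    rw [lfun_eq] at hz
    linarith [FA.LinnikPrime.re_lt_one_of_clear hz]
  have hl' : r * famL Q T ≤ 1 + (1 - σ) * famL Q T := by
    have h0 : 0 ≤ (1 - σ) * famL Q T := mul_nonneg (by linarith [not_lt.1 hσ1]) (by linarith)
    rw [hr, max_mul_of_nonneg _ _ (by linarith), div_mul_cancel₀ _ (by linarith)]
    exact max_le (by linarith) (by linarith)
  obtain ⟨l, hldef⟩ : ∃ l, l = r * famL Q T := ⟨_, rfl⟩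
  suffices h : ∑ u ∈ family Q, ∑ ρ ∈ S u, lord u ρ ≤ Real.exp (C * l) from
    h.trans (Real.exp_le_exp.2 (mul_le_mul_of_nonneg_left (hldef ▸ hl') (by linarith)))
  have hl1 : 1 ≤ l := hldef ▸ hl
  rcases le_or_gt r densR with hsmall | hbig
  · have h := sum_lord_le_near Q T hr0 hsmall hl S fun u hu ρ hρ => by
      obtain ⟨h1, h2, h3⟩ := hS u hu ρ hρ
      exact ⟨h1, by linarith, h3⟩
    rw [← hK, ← hldef] at h
    refine h.trans ?_
    have hl2 : l ^ 2 ≤ Real.exp (2 * l) := by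
      rw [sq, two_mul, Real.exp_add]
      have := Real.add_one_le_exp l
      exact mul_le_mul (by linarith) (by linarith) (by linarith) (Real.exp_pos _).le
    have hKe : K ≤ Real.exp (K * l) :=
      le_trans (by linarith [Real.add_one_le_exp K]) (Real.exp_le_exp.2 (le_mul_of_one_le_right hK0 hl1))
    refine (mul_le_mul_of_nonneg_right (mul_le_mul hKe hl2 (sq_nonneg l) (Real.exp_pos _).le)
      (Real.exp_pos _).le).trans ?_
    rw [← Real.exp_add, ← Real.exp_add, Real.exp_le_exp, hC]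
    have := mul_nonneg (show 0 ≤ A + 4 / densR by linarith) (show 0 ≤ l by linarith)
    linarith
  · obtain ⟨L, hL⟩ : ∃ L, L = famL Q T := ⟨_, rfl⟩
    have hE := natCast_le_exp_famL Q T
    have hH := height_le_exp_famL Q T
    rw [← hL] at hE hH h5 hldef
    have hone : ∀ u ∈ family Q, ∑ ρ ∈ S u, lord u ρ ≤ A * (Real.exp L * L) := fun u hu => by
      obtain ⟨hu1, huQ, -⟩ := mem_family.1 hu
      have : NeZero u.1 := ⟨Nat.one_le_iff_ne_zero.1 hu1⟩
      have hS' := hS u hu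
      simp only [lord, lfun_eq] at hS' ⊢
      refine (htriv u.1 Q u.2 T (S u) huQ fun ρ hρ => ?_).trans ?_
      · obtain ⟨h1, h2, h3⟩ := hS' ρ hρ
        exact ⟨h1, by linarith, h3⟩
      · rw [← hL]
        exact mul_le_mul_of_nonneg_left (mul_le_mul_of_nonneg_right hH (by linarith)) (by linarith)
    refine (Finset.sum_le_card_nsmul _ _ _ hone).trans ?_
    rw [nsmul_eq_mul]
    have hcard : ((family Q).card : ℝ) ≤ Real.exp (2 * L) := by
      refine (card_family_le Q).trans ((pow_le_pow_left₀ (Nat.cast_nonneg Q) hE 2).trans_eq ?_)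
      rw [← Real.exp_nat_mul]; norm_num
    have hLe : L ≤ Real.exp L := by linarith [Real.add_one_le_exp L]
    refine (mul_le_mul hcard (mul_le_mul (show A ≤ Real.exp A by linarith [Real.add_one_le_exp A])
      (mul_le_mul_of_nonneg_left hLe (Real.exp_pos L).le) (by positivity) (Real.exp_pos _).le)
      (mul_nonneg (by linarith) (by positivity)) (Real.exp_pos _).le).trans ?_
    rw [← Real.exp_add, ← Real.exp_add, ← Real.exp_add, Real.exp_le_exp, hC]
    have h1 : 4 * L ≤ 4 / densR * l := by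
      rw [div_mul_eq_mul_div, le_div_iff₀ hR, hldef]
      have := mul_le_mul_of_nonneg_left hbig.le (show 0 ≤ 4 * L by linarith)
      linarith
    have h2 : A ≤ A * l := le_mul_of_one_le_right (by linarith) hl1
    have := mul_nonneg (show 0 ≤ K + 2 + 16 * densG by linarith) (show 0 ≤ l by linarith)
    linarith

end FA.Gallagher

end
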