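import Fermat.Agent.LinnikPrime.Near
import Fermat.Agent.RiemannMangoldt.Factor
import Fermat.Agent.CycloGrowth.ZetaStrip

/-!
# The zeros of an entire function in one disc

If `f` is at most `exp M` times its value at `c` on the circle of radius `3 / 4` about `c`, then it has
at most `2 M` zeros within `1 / 4` of `c`, and for `|s - c| ≤ 3 / 16`, `f s ≠ 0`, the derivatives of
`f' / f` at `s` are those of `∑ 1 / (s - ρ)` over them, up to `O (M (k + 1)! 32 ^ k)`. For the L-function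
of a character modulo `q` at height `t`, `M = O (log q + log (|t| + 3))`.
-/

set_option autoImplicit false
set_option linter.unusedSectionVars false

noncomputable section

open Complex Metric Filter Topology
open FA.DeuringHeilbronn (Divides exists_divides)
open FA.RiemannMangoldt (rootProd differentiable_rootProd analyticOrderAt_rootProd)
open FA.LinnikPrime (clear pol differentiable_clear clear_ne_zero re_lt_one_of_clear clear_of_ne_one
  clear_one_eq clear_one_eq' lg four_le_lg norm_iteratedDeriv_logDeriv_off_centre_le)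
open scoped Nat Real

namespace FA.Gallagher

/-- **Zeros and logarithmic derivative in one disc.** -/
theorem exists_disc_list {f : ℂ → ℂ} (hf : Differentiable ℂ f) {c : ℂ} (hc : f c ≠ 0) {M : ℝ}
    (hM : 0 < M) (hrim : ∀ z ∈ sphere (0 : ℂ) (3 * (1 / 4)), ‖f (c + z)‖ ≤ Real.exp M * ‖f c‖) :
    ∃ S : Multiset ℂ,
      (∀ ρ ∈ S, f ρ = 0 ∧ ‖ρ - c‖ ≤ 1 / 4) ∧
      (∀ ρ, ‖ρ - c‖ ≤ 1 / 4 → f ρ = 0 → ρ ∈ S) ∧
      (∀ ρ, ‖ρ - c‖ ≤ 1 / 4 → analyticOrderNatAt f ρ = S.count ρ) ∧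
      (Multiset.card S : ℝ) ≤ 2 * M ∧
      ∀ (k : ℕ) (s : ℂ), ‖s - c‖ ≤ 3 / 16 → f s ≠ 0 →
        ‖iteratedDeriv k (logDeriv f) s -
            (-1) ^ k * k ! * (S.map fun ρ => ((s - ρ) ^ (k + 1))⁻¹).sum‖ ≤
          (k + 1)! * (14 * M) * 32 ^ (k + 1) := by
  have hd : Differentiable ℂ fun z => f (c + z) := hf.comp (differentiable_id.const_add _)
  have h0 : f (c + 0) ≠ 0 := by rwa [add_zero]
  have hrim' : ∀ z ∈ sphere (0 : ℂ) (3 * (1 / 4)), ‖f (c + z)‖ ≤ Real.exp M * ‖f (c + 0)‖ := by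
    simpa only [add_zero] using hrim
  obtain ⟨T, g, hdv, hT, hg⟩ := exists_divides (f := fun z => f (c + z)) hd h0
    (by norm_num : (0 : ℝ) < 1 / 4) hrim'
  have hzero : ∀ w ∈ T, f (c + w) = 0 := fun w hw => hdv.mem_zero hw
  refine ⟨T.map fun w => c + w, fun ρ hρ => ?_, fun ρ hρ h => ?_, fun ρ hρ => ?_, ?_,
    fun k s hs hsne => ?_⟩
  · obtain ⟨w, hw, rfl⟩ := Multiset.mem_map.1 hρ
    exact ⟨hzero w hw, by rw [add_sub_cancel_left]; exact hT w hw⟩
  · refine Multiset.mem_map.2 ⟨ρ - c, ?_, by ring⟩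
    have h1 := hdv.eq (ρ - c)
    simp only [add_sub_cancel] at h1
    rw [h] at h1
    obtain ⟨x, hx, he⟩ := Multiset.mem_map.1 (Multiset.prod_eq_zero_iff.1
      ((mul_eq_zero.1 h1.symm).resolve_right (hg _ hρ)))
    rwa [sub_eq_zero.1 he]
  · have hG : Differentiable ℂ fun z => g (z - c) := hdv.diff.comp (differentiable_id.sub_const c)
    have hfac : f = rootProd (T.map fun w => c + w) * fun z => g (z - c) := funext fun z => by
      have h1 := hdv.eq (z - c)
      rw [add_sub_cancel] at h1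
      rw [Pi.mul_apply, rootProd, h1, Multiset.map_map]
      congr 2
      refine Multiset.map_congr rfl fun w _ => ?_
      simp only [Function.comp_apply]
      ring
    have hord : analyticOrderAt f ρ = (T.map fun w => c + w).count ρ := by
      conv_lhs => rw [hfac]
      rw [analyticOrderAt_mul ((differentiable_rootProd _).analyticAt ρ) (hG.analyticAt ρ),
        analyticOrderAt_rootProd, (hG.analyticAt ρ).analyticOrderAt_eq_zero.2 (hg _ hρ), add_zero]
    rw [analyticOrderNatAt, hord, ENat.toNat_natCast]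
  · rw [Multiset.card_map]
    exact hdv.card_le (by norm_num) hT hrim'
  obtain ⟨u, hu⟩ : ∃ u : ℂ, u = s - c := ⟨_, rfl⟩
  have hsu : s = c + u := by rw [hu]; ring
  rw [← hu] at hs
  have hgu : g u ≠ 0 := hg u (by linarith)
  have htr := FA.LMO.divides_translate hdv hgu
  have hne0 : ∀ x ∈ T.map (fun w => w - u), x ≠ 0 := fun x hx h0 => by
    obtain ⟨w, hw, rfl⟩ := Multiset.mem_map.1 hx
    have h1 := hzero w hw
    rw [sub_eq_zero.1 h0, ← hsu] at h1
    exact hsne h1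
  have hi := htr.iteratedDeriv_logDeriv k hne0
  have e1 : (logDeriv fun z => f (c + (u + z))) = fun z => logDeriv f (s + z) := funext fun z => by
    rw [logDeriv_apply, logDeriv_apply, show (fun z => f (c + (u + z))) =
      fun z => f (s + z) from funext fun z => by rw [hsu, add_assoc],
      deriv_comp_const_add, hsu, add_assoc]
  have e2 : (logDeriv fun z => g (u + z)) = fun z => logDeriv g (u + z) := funext fun z => by
    rw [logDeriv_apply, logDeriv_apply, deriv_comp_const_add]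
  rw [e1, e2, iteratedDeriv_comp_const_add, iteratedDeriv_comp_const_add] at hi
  simp only [add_zero] at hi
  have hgb := norm_iteratedDeriv_logDeriv_off_centre_le hdv.diff hM hg (fun z hz =>
    (le_mul_of_one_le_left (norm_nonneg _) (one_le_pow₀ one_le_two)).trans
      (hdv.two_pow_mul_le (by norm_num) hT hrim' (mem_closedBall_zero_iff.2 (by linarith)))) hs k
  have e3 : (T.map fun w => c + w).map (fun ρ => ((s - ρ) ^ (k + 1))⁻¹) =
      (T.map fun w => w - u).map fun x => ((-x) ^ (k + 1))⁻¹ := by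
    rw [Multiset.map_map, Multiset.map_map]
    refine Multiset.map_congr rfl fun w _ => ?_
    simp only [Function.comp_apply, hsu]
    ring_nf
  rw [hi, e3, add_sub_cancel_left]
  exact hgb

variable {q : ℕ} [NeZero q]

/-- `1 / |L(s, χ)| ≤ ζ(re s)`. -/
theorem inv_zeta_le_norm_LFunction_line (χ : DirichletCharacter ℂ q) {s : ℂ} (hs : 1 < s.re) :
    (∑' n : ℕ, 1 / (n : ℝ) ^ s.re)⁻¹ ≤ ‖DirichletCharacter.LFunction χ s‖ := by
  have hz : Summable fun n : ℕ => 1 / (n : ℝ) ^ s.re := Real.summable_one_div_nat_rpow.2 hs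
  obtain ⟨Z, hZ⟩ : ∃ Z, Z = ∑' n : ℕ, 1 / (n : ℝ) ^ s.re := ⟨_, rfl⟩
  have hZ1 : 1 ≤ Z := by
    have := hz.le_tsum 1 fun n _ => by positivity
    rw [← hZ] at this
    simpa using this
  rw [← hZ, DirichletCharacter.LFunction_eq_LSeries χ hs]
  obtain ⟨g, hg⟩ : ∃ g : ℕ → ℂ, g = fun n : ℕ => χ n * (ArithmeticFunction.moebius n : ℂ) := ⟨_, rfl⟩
  have h1 : LSeries (χ ·) s * LSeries g s = 1 := hg ▸ DirichletCharacter.LSeries.mul_mu_eq_one χ hs
  have hμ : ∀ n, ‖LSeries.term g s n‖ ≤ 1 / (n : ℝ) ^ s.re := fun n => by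
    rcases eq_or_ne n 0 with rfl | hn
    · rw [LSeries.term_zero, norm_zero]; positivity
    rw [LSeries.term_of_ne_zero hn, norm_div, norm_natCast_cpow_of_pos (Nat.pos_of_ne_zero hn),
      hg, norm_mul, Complex.norm_intCast]
    refine div_le_div_of_nonneg_right ?_ (Real.rpow_nonneg (Nat.cast_nonneg n) _)
    exact mul_le_one₀ (χ.norm_le_one _) (abs_nonneg _)
      (by exact_mod_cast ArithmeticFunction.abs_moebius_le_one)
  have hs' : Summable fun n => ‖LSeries.term g s n‖ :=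
    Summable.of_nonneg_of_le (fun n => norm_nonneg _) hμ hz
  have h2 : ‖LSeries g s‖ ≤ Z := hZ ▸ (norm_tsum_le_tsum_norm hs').trans (hs'.tsum_le_tsum hμ hz)
  have h3 := congrArg norm h1
  rw [norm_mul, norm_one] at h3
  rw [inv_le_iff_one_le_mul₀ (by linarith)]
  exact h3 ▸ mul_le_mul_of_nonneg_left h2 (norm_nonneg _)

/-- `|(s - 1) ζ(s)| ≤ 4 H ^ 2` for `re s ≥ 3 / 8`, `|s| + 1 ≤ H`. -/
theorem norm_riemannZeta₁_le {s : ℂ} (hs : 3 / 8 ≤ s.re) {H : ℝ} (hH : ‖s‖ + 1 ≤ H) :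
    ‖riemannZeta₁ s‖ ≤ 4 * H ^ 2 := by
  have hH1 : 1 ≤ H := le_trans (by linarith [norm_nonneg s]) hH
  rw [FA.CycloGrowth.riemannZeta₁_eq (by linarith)]
  refine (norm_sub_le _ _).trans ?_
  have hint : ‖FA.CycloGrowth.fracInt s‖ ≤ 8 / 3 := by
    refine (FA.CycloGrowth.norm_fracInt_le (by linarith)).trans ?_
    rw [div_le_div_iff₀ (by linarith) (by norm_num)]
    linarith
  have h2 : ‖s - 1‖ ≤ H := (norm_sub_le _ _).trans (by rw [norm_one]; exact hH)
  calc ‖s‖ + ‖(s - 1) * s * FA.CycloGrowth.fracInt s‖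
      ≤ H + H * H * (8 / 3) := by
        refine add_le_add (by linarith) ?_
        rw [norm_mul, norm_mul]
        exact mul_le_mul (mul_le_mul h2 (by linarith) (norm_nonneg _) (by linarith)) hint
          (norm_nonneg _) (by positivity)
    _ ≤ 4 * H ^ 2 := by nlinarith

/-- The height: `log q + 4 + log (|t| + 3)`. -/
def ht (q : ℕ) (t : ℝ) : ℝ := lg q + Real.log (|t| + 3)

theorem five_le_ht (q : ℕ) (t : ℝ) : 5 ≤ ht q t := by
  have h3 : Real.log 3 ≤ Real.log (|t| + 3) := Real.log_le_log (by norm_num) (by linarith [abs_nonneg t])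
  have h1 : 1 ≤ Real.log 3 := by
    rw [Real.le_log_iff_exp_le (by norm_num)]
    linarith [Real.exp_one_lt_d9]
  rw [ht]; linarith [four_le_lg q]

theorem ht_pos (q : ℕ) (t : ℝ) : 0 < ht q t := by linarith [five_le_ht q t]

/-- The centre at height `t`. -/
def pt (t : ℝ) : ℂ := ((9 / 8 : ℝ) : ℂ) + (t : ℂ) * I

theorem pt_re (t : ℝ) : (pt t).re = 9 / 8 := by simp [pt]

theorem pt_im (t : ℝ) : (pt t).im = t := by simp [pt]

theorem clear_pt_ne_zero (χ : DirichletCharacter ℂ q) (t : ℝ) : clear χ (pt t) ≠ 0 :=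
  clear_ne_zero χ (by rw [pt_re]; norm_num)

/-- **On the disc at height `t`, relative to the centre.** -/
theorem exists_rim : ∃ C : ℝ, 1 ≤ C ∧ ∀ (q : ℕ) [NeZero q] (χ : DirichletCharacter ℂ q) (t : ℝ),
    ∀ z ∈ sphere (0 : ℂ) (3 * (1 / 4)),
      ‖clear χ (pt t + z)‖ ≤ Real.exp (C * ht q t) * ‖clear χ (pt t)‖ := by
  obtain ⟨c, hcdef⟩ : ∃ c : ℝ, c = (∑' n : ℕ, 1 / (n : ℝ) ^ (9 / 8 : ℝ))⁻¹ / 8 := ⟨_, rfl⟩
  have hc : 0 < c := by
    have h1 : (1 : ℝ) ≤ ∑' n : ℕ, 1 / (n : ℝ) ^ (9 / 8 : ℝ) := by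
      refine le_trans ?_ ((Real.summable_one_div_nat_rpow.2 (by norm_num)).le_tsum 1 fun n _ => by positivity)
      simp
    rw [hcdef]; positivity
  obtain ⟨B, hBdef⟩ : ∃ B : ℝ, B = 20 / c := ⟨_, rfl⟩
  have hB : 0 < B := by rw [hBdef]; positivity
  refine ⟨max 2 (Real.log B), le_trans one_le_two (le_max_left _ _), fun q _ χ t z hz => ?_⟩
  rw [mem_sphere_zero_iff_norm] at hz
  obtain ⟨s, hs⟩ : ∃ s : ℂ, s = pt t + z := ⟨_, rfl⟩
  rw [← hs]
  have hzr := abs_le.1 ((abs_re_le_norm z).trans hz.le)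
  have hsre : 3 / 8 ≤ s.re := by rw [hs, add_re, pt_re]; norm_num at hzr ⊢; linarith
  obtain ⟨H, hH⟩ : ∃ H : ℝ, H = |t| + 3 := ⟨_, rfl⟩
  have hH1 : 3 ≤ H := by rw [hH]; linarith [abs_nonneg t]
  have hsn : ‖s‖ + 1 ≤ H := by
    rw [hs, hH]
    refine le_trans (add_le_add ((norm_add_le _ _).trans (add_le_add (norm_add_le _ _) le_rfl)) le_rfl) ?_
    rw [hz, norm_mul, norm_real, norm_real, Complex.norm_I, mul_one, Real.norm_eq_abs, Real.norm_eq_abs,
      abs_of_nonneg (by norm_num : (0 : ℝ) ≤ 9 / 8)]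
    linarith
  have hq1 : (1 : ℝ) ≤ q := by exact_mod_cast NeZero.one_le
  have hlow := inv_zeta_le_norm_LFunction_line χ (s := pt t) (by rw [pt_re]; norm_num)
  rw [pt_re] at hlow
  have hkey : ‖clear χ s‖ ≤ 20 * (q * H ^ 2) ∧ c ≤ ‖clear χ (pt t)‖ := by
    have hp1 : pt t ≠ 1 := fun h => by
      have := congrArg Complex.re h
      rw [pt_re, one_re] at this
      norm_num at this
    by_cases hχ : χ = 1
    · subst hχ
      refine ⟨?_, ?_⟩
      · rcases eq_or_ne s 1 with h1 | h1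
        · rw [h1, clear, if_pos rfl]
          simp only [DirichletCharacter.LFunctionTrivChar₁, Function.update_self]
          rw [norm_prod]
          refine le_trans (Finset.prod_le_one (fun p _ => norm_nonneg _) fun p hp => ?_) ?_
          · have hp2 : (2 : ℝ) ≤ p := Nat.ofNat_le_cast.2 (Nat.prime_of_mem_primeFactors hp).two_le
            rw [show (1 : ℂ) - (p : ℂ)⁻¹ = ((1 - (p : ℝ)⁻¹ : ℝ) : ℂ) by push_cast; ring, norm_real,
              Real.norm_of_nonneg (sub_nonneg.2 (inv_le_one_of_one_le₀ (by linarith)))]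
            exact sub_le_self 1 (by positivity)
          · nlinarith [one_le_mul_of_one_le_of_one_le hq1 (one_le_pow₀ (n := 2) (by linarith : (1 : ℝ) ≤ H))]
        rw [clear_one_eq' h1, norm_mul, norm_prod]
        have hprod : ∏ p ∈ q.primeFactors, ‖1 - (p : ℂ) ^ (-s)‖ ≤ q := by
          refine le_trans (Finset.prod_le_prod (fun p _ => norm_nonneg _) (g := fun p : ℕ => (p : ℝ))
            fun p hp => ?_) ?_
          · have hp := Nat.prime_of_mem_primeFactors hp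
            refine (norm_sub_le _ _).trans ?_
            rw [norm_one, norm_natCast_cpow_of_pos hp.pos]
            have h2 : (2 : ℝ) ≤ p := Nat.ofNat_le_cast.2 hp.two_le
            have : (p : ℝ) ^ (-s).re ≤ 1 :=
              Real.rpow_le_one_of_one_le_of_nonpos (by linarith) (by rw [neg_re]; linarith)
            linarith
          · rw [← Nat.cast_prod, Nat.cast_le]
            exact Nat.le_of_dvd (Nat.pos_of_ne_zero (NeZero.ne q)) (Nat.prod_primeFactors_dvd q)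
        refine (mul_le_mul hprod (norm_riemannZeta₁_le hsre hsn) (norm_nonneg _) (by linarith)).trans ?_
        nlinarith [mul_nonneg (show (0 : ℝ) ≤ q by linarith) (sq_nonneg H)]
      · rw [clear_one_eq hp1, norm_mul, hcdef, div_eq_mul_inv, mul_comm]
        refine mul_le_mul ?_ hlow (inv_nonneg.2 (tsum_nonneg fun n => by positivity)) (norm_nonneg _)
        refine le_trans ?_ (re_le_norm _)
        rw [sub_re, pt_re, one_re]
        norm_num
    · rw [clear_of_ne_one hχ]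
      refine ⟨(FA.Siegel.norm_LFunction_le hχ (by linarith)).trans ?_, le_trans ?_ hlow⟩
      · refine (mul_le_mul (show ‖s‖ ≤ H by linarith) (div_le_div_of_nonneg_left (Nat.cast_nonneg q)
          (by norm_num) hsre) (div_nonneg (Nat.cast_nonneg q) (by linarith)) (by linarith)).trans ?_
        nlinarith [mul_nonneg (show (0 : ℝ) ≤ q by linarith) (show (0 : ℝ) ≤ H by linarith)]
      · rw [hcdef]
        exact div_le_self (inv_nonneg.2 (tsum_nonneg fun n => by positivity)) (by norm_num)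
  refine hkey.1.trans ?_
  have h1 : 20 * (q * H ^ 2) ≤ Real.exp (max 2 (Real.log B) * ht q t) * c := by
    rw [show 20 * ((q : ℝ) * H ^ 2) = B * (q * H ^ 2) * c by rw [hBdef]; field_simp]
    refine mul_le_mul_of_nonneg_right ?_ hc.le
    obtain ⟨C, hC⟩ : ∃ C, C = max 2 (Real.log B) := ⟨_, rfl⟩
    have h2 : Real.log B ≤ C := hC ▸ le_max_right _ _
    have h3 : 2 ≤ C := hC ▸ le_max_left _ _
    rw [← hC, ← Real.log_le_iff_le_exp (by positivity), Real.log_mul hB.ne' (by positivity),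
      Real.log_mul (by linarith) (by positivity), Real.log_pow, ht, lg, hH]
    have h4 : 0 ≤ Real.log (|t| + 3) := Real.log_nonneg (by linarith [abs_nonneg t])
    push_cast
    nlinarith [mul_le_mul_of_nonneg_right h3 h4, mul_le_mul_of_nonneg_right h3 (Real.log_natCast_nonneg q),
      Real.log_natCast_nonneg q]
  exact h1.trans (mul_le_mul_of_nonneg_left hkey.2 (Real.exp_pos _).le)

/-- The exponent on the disc. -/
def rimG : ℝ := exists_rim.choose

theorem one_le_rimG : 1 ≤ rimG := exists_rim.choose_spec.1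

theorem rim_le (χ : DirichletCharacter ℂ q) (t : ℝ) : ∀ z ∈ sphere (0 : ℂ) (3 * (1 / 4)),
    ‖clear χ (pt t + z)‖ ≤ Real.exp (rimG * ht q t) * ‖clear χ (pt t)‖ :=
  exists_rim.choose_spec.2 q χ t

theorem exists_nearAt (χ : DirichletCharacter ℂ q) (t : ℝ) : ∃ S : Multiset ℂ,
    (∀ ρ ∈ S, clear χ ρ = 0 ∧ ‖ρ - pt t‖ ≤ 1 / 4) ∧
    (∀ ρ, ‖ρ - pt t‖ ≤ 1 / 4 → clear χ ρ = 0 → ρ ∈ S) ∧
    (∀ ρ, ‖ρ - pt t‖ ≤ 1 / 4 → analyticOrderNatAt (clear χ) ρ = S.count ρ) ∧
    (Multiset.card S : ℝ) ≤ 2 * (rimG * ht q t) ∧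
    ∀ (k : ℕ) (s : ℂ), ‖s - pt t‖ ≤ 3 / 16 → clear χ s ≠ 0 →
      ‖iteratedDeriv k (logDeriv (clear χ)) s -
          (-1) ^ k * k ! * (S.map fun ρ => ((s - ρ) ^ (k + 1))⁻¹).sum‖ ≤
        (k + 1)! * (14 * (rimG * ht q t)) * 32 ^ (k + 1) :=
  exists_disc_list (differentiable_clear χ) (clear_pt_ne_zero χ t)
    (mul_pos (by linarith [one_le_rimG]) (ht_pos q t)) (rim_le χ t)

/-- The zeros within `1 / 4` of `9 / 8 + it`, with multiplicity. -/
def nearAt (χ : DirichletCharacter ℂ q) (t : ℝ) : Multiset ℂ := (exists_nearAt χ t).choose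

variable {χ : DirichletCharacter ℂ q} {t : ℝ}

theorem clear_eq_zero_of_mem {ρ : ℂ} (h : ρ ∈ nearAt χ t) : clear χ ρ = 0 :=
  ((exists_nearAt χ t).choose_spec.1 ρ h).1

theorem re_lt_one_of_mem {ρ : ℂ} (h : ρ ∈ nearAt χ t) : ρ.re < 1 :=
  re_lt_one_of_clear (clear_eq_zero_of_mem h)

theorem norm_sub_pt_le {ρ : ℂ} (h1 : ρ.re ≤ 1) (hre : 15 / 16 ≤ ρ.re) (him : |ρ.im - t| ≤ 1 / 8) :
    ‖ρ - pt t‖ ≤ 1 / 4 := by
  have h2 := sq_le_sq.2 (him.trans_eq (abs_of_nonneg (by norm_num : (0 : ℝ) ≤ 1 / 8)).symm)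
  rw [Complex.norm_def, Real.sqrt_le_left (by norm_num), normSq_apply, sub_re, sub_im, pt_re, pt_im]
  nlinarith

theorem mem_nearAt {ρ : ℂ} (h : clear χ ρ = 0) (hre : 15 / 16 ≤ ρ.re) (him : |ρ.im - t| ≤ 1 / 8) :
    ρ ∈ nearAt χ t :=
  (exists_nearAt χ t).choose_spec.2.1 ρ (norm_sub_pt_le (re_lt_one_of_clear h).le hre him) h

theorem count_nearAt {ρ : ℂ} (h : ‖ρ - pt t‖ ≤ 1 / 4) :
    analyticOrderNatAt (clear χ) ρ = (nearAt χ t).count ρ :=
  (exists_nearAt χ t).choose_spec.2.2.1 ρ h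

theorem card_nearAt_le (χ : DirichletCharacter ℂ q) (t : ℝ) :
    (Multiset.card (nearAt χ t) : ℝ) ≤ 2 * (rimG * ht q t) :=
  (exists_nearAt χ t).choose_spec.2.2.2.1

theorem norm_iteratedDeriv_sub_le (χ : DirichletCharacter ℂ q) (t : ℝ) (k : ℕ) {s : ℂ}
    (hs : ‖s - pt t‖ ≤ 3 / 16) (hne : clear χ s ≠ 0) :
    ‖iteratedDeriv k (logDeriv (clear χ)) s -
        (-1) ^ k * k ! * ((nearAt χ t).map fun ρ => ((s - ρ) ^ (k + 1))⁻¹).sum‖ ≤
      (k + 1)! * (14 * (rimG * ht q t)) * 32 ^ (k + 1) :=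
  (exists_nearAt χ t).choose_spec.2.2.2.2 k s hs hne

end FA.Gallagher

end
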