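import Fermat.Agent.Gallagher.ZeroSums
import Fermat.Agent.SiegelWalfisz.Perron
import Fermat.Agent.ExplicitFormula.Contour

/-!
# The explicit formula for `ψ₁(y, χ)`, uniform in the character and in `y`

For `U ≥ 1` there is a set `S` of zeros of `L(s, χ)` with `|im| ≤ U + 1`, containing all with
`re > 31 / 32` and `|im| ≤ U`, with `∑_{n ≤ y} χ Λ(n) (y - n) = [χ = 1] y ^ 2 / 2 -
∑_S y ^ (ρ + 1) / (ρ (ρ + 1)) + O (L ^ 2 (y ^ (33 / 16) / U + y ^ (63 / 32)))` for every `y ≥ 1`.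
-/

set_option autoImplicit false
set_option linter.unusedSectionVars false

noncomputable section

open Complex MeasureTheory Set
open FA.LinnikPrime (clear pol differentiable_clear clear_ne_zero re_lt_one_of_clear mom zmom zmom_nonneg
  norm_mom_le iteratedDeriv_twist logDeriv_clear)
open FA.ExplicitFormula (boxInt boxEdges boxInt_congr boxInt_add boxInt_sub boxInt_eq_zero boxInt_residue
  boxInt_multiset_sum boxInt_const_mul interior_not_edge)
open FA.SiegelWalfisz (smoothSum kernelMul smoothSum_eq)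
open scoped Nat Real Classical ArithmeticFunction.vonMangoldt

namespace FA.Gallagher

variable {q : ℕ} [NeZero q]

/-- `χ(n) Λ(n)`. -/
def twist (χ : DirichletCharacter ℂ q) (n : ℕ) : ℂ := χ n * (Λ n : ℂ)

/-- `∑_{n ≤ y} χ(n) Λ(n) (y - n)`. -/
def psiOneChar (χ : DirichletCharacter ℂ q) (y : ℝ) : ℂ :=
  ∑ n ∈ Finset.Icc 1 ⌊y⌋₊, twist χ n * ((y - n : ℝ) : ℂ)

theorem psiOneChar_eq (χ : DirichletCharacter ℂ q) {y : ℝ} (hy : y ≠ 0) :
    psiOneChar χ y = (y : ℂ) * smoothSum (twist χ) y := by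
  rw [psiOneChar, smoothSum, Finset.mul_sum]
  refine Finset.sum_congr rfl fun n _ => ?_
  have : (y : ℂ) ≠ 0 := ofReal_ne_zero.2 hy
  push_cast
  field_simp

/-- `- L' / L`. -/
def negLD (χ : DirichletCharacter ℂ q) (s : ℂ) : ℂ := -logDeriv (clear χ) s + pol χ * (s - 1)⁻¹

theorem LSeries_twist_eq (χ : DirichletCharacter ℂ q) {s : ℂ} (hs : 1 < s.re) :
    LSeries (twist χ) s = negLD χ s := by
  rw [negLD, logDeriv_clear χ hs, show twist χ = fun m : ℕ => χ m * (Λ m : ℂ) from rfl]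
  ring

/-- The kernel. -/
def kern (y : ℝ) (s : ℂ) : ℂ := (y : ℂ) ^ s / (s * (s + 1))

theorem kernelMul_eq (F : ℂ → ℂ) (y : ℝ) (s : ℂ) : kernelMul F y s = kern y s * F s := by
  rw [kernelMul, kern]; ring

theorem norm_kern_le {y : ℝ} (hy : 0 < y) {σ : ℝ} (hσ : 1 / 2 ≤ σ) (t : ℝ) :
    ‖kern y ((σ : ℂ) + t * I)‖ ≤ y ^ σ * (4 / (1 + t ^ 2)) := by
  rw [kern, norm_div, norm_cpow_eq_rpow_re_of_pos hy, div_eq_mul_one_div]
  simp only [add_re, ofReal_re, mul_re, I_re, mul_zero, ofReal_im, I_im, mul_one, sub_self, add_zero]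
  exact mul_le_mul_of_nonneg_left (FA.ZeroFree.norm_kernel_inv_le hσ t) (Real.rpow_nonneg hy.le _)

theorem differentiableAt_kern {y : ℝ} (hy : 0 < y) {s : ℂ} (hs : 0 < s.re) :
    DifferentiableAt ℂ (kern y) s := by
  have h0 : s ≠ 0 := fun h => by simp [h] at hs
  have h1 : s + 1 ≠ 0 := fun h => by
    have := congrArg Complex.re h
    simp at this
    linarith
  exact (differentiableAt_id.const_cpow (Or.inl (ofReal_ne_zero.2 hy.ne'))).div
    (differentiableAt_id.mul (differentiableAt_id.add_const 1)) (mul_ne_zero h0 h1)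

theorem kern_apply_one (y : ℝ) : kern y 1 = (y : ℂ) / 2 := by
  rw [kern, cpow_one]; norm_num

/-- A point of `[l, l + w]` away from finitely many. -/
theorem exists_avoid {A : Finset ℝ} {N : ℝ} (hA : (A.card : ℝ) ≤ N) (l : ℝ) {w : ℝ} (hw : 0 < w) :
    ∃ v ∈ Icc l (l + w), ∀ x ∈ A, w / (2 * (N + 1)) ≤ |v - x| := by
  obtain ⟨n, hn⟩ : ∃ n, n = A.card + 1 := ⟨_, rfl⟩
  have hn0 : (0 : ℝ) < n := by rw [hn]; positivity
  have hN : 0 ≤ N := (Nat.cast_nonneg _).trans hA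
  have hnN : (n : ℝ) ≤ N + 1 := by rw [hn]; push_cast; linarith
  obtain ⟨e, he⟩ : ∃ e : ℝ, e = w / n := ⟨_, rfl⟩
  have he0 : 0 < e := by rw [he]; positivity
  have hde : w / (2 * (N + 1)) ≤ e / 2 := by
    rw [he, div_div, mul_comm (n : ℝ) 2]
    exact div_le_div_of_nonneg_left hw.le (by positivity) (by linarith)
  by_contra hc
  push Not at hc
  have hv : ∀ i : Fin n, ∃ x ∈ A, |l + ((i : ℕ) + 1 / 2) * e - x| < e / 2 := fun i => by
    have hi : ((i : ℕ) : ℝ) + 1 ≤ n := by exact_mod_cast i.2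
    have h2 : ((i : ℕ) + 1 / 2 : ℝ) * e ≤ w := by
      refine (mul_le_mul_of_nonneg_right (show ((i : ℕ) + 1 / 2 : ℝ) ≤ n by linarith) he0.le).trans
        (le_of_eq ?_)
      rw [he]; field_simp
    obtain ⟨x, hx, hlt⟩ := hc (l + ((i : ℕ) + 1 / 2) * e) ⟨le_add_of_nonneg_right (by positivity), by linarith⟩
    exact ⟨x, hx, hlt.trans_le hde⟩
  choose g hg hlt using hv
  obtain ⟨i, j, hij, hgij⟩ := Fintype.exists_ne_map_eq_of_card_lt (fun i => (⟨g i, hg i⟩ : A))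
    (by rw [Fintype.card_coe, Fintype.card_fin, hn]; omega)
  have h : g i = g j := congrArg Subtype.val hgij
  have h1 := abs_lt.1 (hlt i)
  have h2 := abs_lt.1 (hlt j)
  rw [← h] at h2
  have hij' : |((i : ℕ) : ℝ) - (j : ℕ)| < 1 := by
    rw [abs_lt]
    constructor <;> nlinarith
  have h3 : ((i : ℕ) : ℤ) = (j : ℕ) := by
    have h4 : |(((i : ℕ) : ℤ) - (j : ℕ))| < 1 := by exact_mod_cast hij'
    rw [Int.abs_lt_one_iff] at h4
    omega
  exact hij (Fin.ext (by exact_mod_cast h3))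

theorem inv_norm_le_two_div {z : ℂ} {d u : ℝ} (hd : 0 < d) (h1 : d ≤ |z.re|) (h2 : u ≤ |z.im|) :
    ‖z‖⁻¹ ≤ 2 / (d + u) ∨ d + u ≤ 0 := by
  rcases le_or_gt (d + u) 0 with h | h
  · exact Or.inr h
  refine Or.inl ?_
  rw [inv_eq_one_div, div_le_div_iff₀ (hd.trans_le (h1.trans (abs_re_le_norm z))) h]
  linarith [h1.trans (abs_re_le_norm z), h2.trans (abs_im_le_norm z)]

theorem integral_two_div_le {d : ℝ} (hd : 0 < d) (γ : ℝ) :
    ∫ t in (γ - 1 / 4)..(γ + 1 / 4), 2 / (d + |t - γ|) ≤ 4 * Real.log (1 + 1 / (4 * d)) := by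
  obtain ⟨f, hf⟩ : ∃ f : ℝ → ℝ, f = fun u => 2 / (d + |u|) := ⟨_, rfl⟩
  have hc : Continuous f := hf ▸ continuous_const.div (by fun_prop) fun u => by positivity
  rw [show (fun t => 2 / (d + |t - γ|)) = fun t => f (t - γ) from funext fun t => by rw [hf],
    intervalIntegral.integral_comp_sub_right f γ, sub_sub_cancel_left, add_sub_cancel_left,
    ← intervalIntegral.integral_add_adjacent_intervals (b := 0) (hc.intervalIntegrable _ _)
      (hc.intervalIntegrable _ _)]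
  have hhalf : ∫ u in (0 : ℝ)..(1 / 4), f u = 2 * Real.log (1 + 1 / (4 * d)) := by
    rw [intervalIntegral.integral_congr (g := fun u => 2 * (d + u)⁻¹) fun u hu => ?_,
      intervalIntegral.integral_const_mul, intervalIntegral.integral_comp_add_left (fun u => u⁻¹) d,
      add_zero, integral_inv_of_pos hd (by linarith)]
    · congr 2
      field_simp

    · rw [uIcc_of_le (by norm_num)] at hu
      rw [hf]
      simp only
      rw [abs_of_nonneg hu.1, div_eq_mul_inv]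
  have hneg : ∫ u in (-(1 / 4) : ℝ)..0, f u = ∫ u in (0 : ℝ)..(1 / 4), f u := by
    have h := intervalIntegral.integral_comp_neg (a := -(1 / 4 : ℝ)) (b := 0) f
    rw [neg_zero, neg_neg] at h
    rw [← h]
    refine intervalIntegral.integral_congr fun u _ => ?_
    simp [hf]
  rw [hneg, hhalf]
  linarith

theorem inv_one_add_sq_le_two {t γ : ℝ} (h : |t - γ| ≤ 1 / 4) : 1 / (1 + t ^ 2) ≤ 2 / (1 + γ ^ 2) := by
  rw [div_le_div_iff₀ (by positivity) (by positivity)]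
  have h2 := pow_le_pow_left₀ (abs_nonneg _) h 2
  rw [sq_abs] at h2
  nlinarith [sq_nonneg (γ - 2 * t)]

/-- The integral along a vertical line away from the zeros. -/
theorem integral_left_le (χ : DirichletCharacter ℂ q) {a V d U : ℝ} (ha : 61 / 64 ≤ a) (ha' : a ≤ 31 / 32)
    (hV : 0 ≤ V) (hVU : V ≤ U) (hd : 0 < d) (havoid : ∀ ρ ∈ zerosTo χ (U + 1), d ≤ |a - ρ.re|)
    {W : ℝ} (hW : ∑ ρ ∈ zerosTo χ (U + 1), (analyticOrderNatAt (clear χ) ρ : ℝ) / (1 + ρ.im ^ 2) ≤ W)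
    {y : ℝ} (hy : 0 < y) :
    ‖∫ t in (-V)..V, kernelMul (negLD χ) y ((a : ℂ) + t * I)‖ ≤
      y ^ a * 4 * ((448 * rimG * famL q U + 32) * π + 8 * Real.log (1 + 1 / (4 * d)) * W) := by
  obtain ⟨g, hg⟩ : ∃ g : ℂ → ℝ → ℝ, g = fun ρ t => (2 / (1 + ρ.im ^ 2)) * (analyticOrderNatAt (clear χ) ρ : ℝ) *
      Set.indicator (Icc (ρ.im - 1 / 4) (ρ.im + 1 / 4)) (fun t => 2 / (d + |t - ρ.im|)) t := ⟨_, rfl⟩
  have hgi : ∀ ρ : ℂ, Integrable (g ρ) := fun ρ => by
    rw [hg]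
    refine Integrable.const_mul ?_ _
    rw [integrable_indicator_iff measurableSet_Icc]
    exact (continuous_const.div (by fun_prop) fun u => by positivity).continuousOn.integrableOn_Icc
  have hg0 : ∀ ρ : ℂ, ∀ t, 0 ≤ g ρ t := fun ρ t => by
    rw [hg]
    exact mul_nonneg (by positivity) (Set.indicator_nonneg (fun u _ => by positivity) t)
  obtain ⟨G, hG⟩ : ∃ G : ℝ → ℝ, G = fun t => y ^ a * 4 * ((448 * rimG * famL q U + 32) * (1 + t ^ 2)⁻¹ +
      ∑ ρ ∈ zerosTo χ (U + 1), g ρ t) := ⟨_, rfl⟩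
  have hK : 0 ≤ 448 * rimG * famL q U + 32 := by
    have := one_le_rimG
    have := famL_pos q U
    positivity
  have hGi : Integrable G := hG ▸
    (((integrable_inv_one_add_sq).const_mul _).add (integrable_finsetSum _ fun ρ _ => hgi ρ)).const_mul _
  have hG0 : ∀ t, 0 ≤ G t := fun t => by
    rw [hG]
    exact mul_nonneg (by positivity) (add_nonneg (mul_nonneg hK (by positivity))
      (Finset.sum_nonneg fun ρ _ => hg0 ρ t))
  refine (intervalIntegral.norm_integral_le_of_norm_le (by linarith) (Filter.Eventually.of_forall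
    (p := fun t => t ∈ Ioc (-V) V → ‖kernelMul (negLD χ) y ((a : ℂ) + t * I)‖ ≤ G t) fun t ht' => ?_)
    hGi.intervalIntegrable).trans ?_
  · have him : |t| ≤ U := (abs_le.2 ⟨ht'.1.le, ht'.2⟩).trans hVU
    obtain ⟨s, hs⟩ : ∃ s : ℂ, s = (a : ℂ) + t * I := ⟨_, rfl⟩
    have hsre : s.re = a := by simp [hs]
    have hsim : s.im = t := by simp [hs]
    have hne : clear χ s ≠ 0 := fun h => by
      have := havoid s (mem_zerosTo.2 ⟨h, by linarith, by rw [hsim]; linarith⟩)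
      rw [hsre, sub_self, abs_zero] at this
      linarith
    have hb := norm_logDeriv_clear_le χ (U := U) (s := s) (by linarith) (by linarith) (by rwa [hsim]) hne
    have hpol : ‖pol χ * (s - 1)⁻¹‖ ≤ 32 := by
      have h1 : ‖pol χ‖ ≤ 1 := by rw [pol]; split_ifs <;> simp
      have h2 : 1 / 32 ≤ ‖s - 1‖ := by
        refine le_trans ?_ (abs_re_le_norm _)
        rw [sub_re, one_re, hsre, abs_of_nonpos (by linarith)]
        linarith
      rw [norm_mul, norm_inv]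
      refine (mul_le_of_le_one_left (by positivity) h1).trans ?_
      rw [inv_le_iff_one_le_mul₀ (by linarith)]
      linarith
    rw [← hs, kernelMul_eq, norm_mul]
    refine (mul_le_mul (hs ▸ norm_kern_le hy (by linarith) t) ((norm_add_le _ _).trans
      (add_le_add ((norm_neg _).trans_le hb) hpol)) (norm_nonneg _) (by positivity)).trans ?_
    rw [hG]
    simp only
    rw [show y ^ a * (4 / (1 + t ^ 2)) = y ^ a * 4 * (1 + t ^ 2)⁻¹ by rw [div_eq_mul_inv]; ring, mul_assoc]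
    refine mul_le_mul_of_nonneg_left ?_ (by positivity)
    rw [add_right_comm, mul_add, mul_comm ((1 + t ^ 2)⁻¹), Finset.mul_sum]
    refine add_le_add le_rfl (Finset.sum_le_sum fun ρ hρ => ?_)
    rw [hsim, hg]
    split_ifs with hclose
    · simp only
      rw [Set.indicator_of_mem (by obtain ⟨h1, h2⟩ := abs_le.1 hclose; exact ⟨by linarith, by linarith⟩)]
      have hpair := (inv_norm_le_two_div (z := s - ρ) (u := |t - ρ.im|) hd
        (by rw [sub_re, hsre]; exact havoid ρ hρ) (by rw [sub_im, hsim])).resolve_right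
        (not_le.2 (by positivity))
      rw [inv_eq_one_div, mul_assoc (2 / (1 + ρ.im ^ 2))]
      exact mul_le_mul (inv_one_add_sq_le_two hclose)
        (mul_le_mul_of_nonneg_left hpair (Nat.cast_nonneg _)) (by positivity) (by positivity)
    · rw [mul_zero, mul_zero]
      simpa only [hg] using hg0 ρ t
  refine (intervalIntegral.integral_of_le (by linarith)).trans_le
    ((setIntegral_le_integral hGi (Filter.Eventually.of_forall hG0)).trans ?_)
  rw [hG, integral_const_mul, integral_add ((integrable_inv_one_add_sq).const_mul _)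
    (integrable_finsetSum _ fun ρ _ => hgi ρ), integral_const_mul, integral_univ_inv_one_add_sq,
    integral_finsetSum _ fun ρ _ => hgi ρ]
  refine mul_le_mul_of_nonneg_left (add_le_add le_rfl ?_) (by positivity)
  refine le_trans (Finset.sum_le_sum (g := fun ρ : ℂ => 8 * Real.log (1 + 1 / (4 * d)) *
    ((analyticOrderNatAt (clear χ) ρ : ℝ) / (1 + ρ.im ^ 2))) fun ρ _ => ?_) ?_
  · rw [hg]
    simp only
    rw [integral_const_mul, integral_indicator measurableSet_Icc, integral_Icc_eq_integral_Ioc,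
      ← intervalIntegral.integral_of_le (by linarith)]
    refine (mul_le_mul_of_nonneg_left (integral_two_div_le hd ρ.im) (by positivity)).trans (le_of_eq ?_)
    ring
  · rw [← Finset.mul_sum]
    exact mul_le_mul_of_nonneg_left hW (mul_nonneg (by norm_num) (Real.log_nonneg (le_add_of_nonneg_right
      (by positivity))))

theorem famL_add_le (q : ℕ) {U c : ℝ} (hU : 1 ≤ U) (hc : 0 ≤ c) (hc' : c ≤ 2) :
    famL q (U + c) ≤ 2 * famL q U := by
  have h1 : Real.log (|U + c| + 5) ≤ Real.log 2 + Real.log (|U| + 5) := by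
    rw [← Real.log_mul two_ne_zero (by positivity)]
    refine Real.log_le_log (by positivity) ?_
    rw [abs_of_nonneg (show 0 ≤ U + c by linarith), abs_of_nonneg (show 0 ≤ U by linarith)]
    linarith
  have h2 := Real.log_nonneg (show (1 : ℝ) ≤ |U| + 5 by linarith [abs_nonneg U])
  have h3 := FA.LinnikPrime.four_le_lg q
  rw [famL, famL]
  linarith [Real.log_two_lt_d9]

theorem arctan_le_self {x : ℝ} (hx : 0 ≤ x) : Real.arctan x ≤ x :=
  (Real.le_tan (Real.arctan_nonneg.2 hx) (Real.arctan_lt_pi_div_two x)).trans_eq (Real.tan_arctan x)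

theorem norm_negLD_right_le (χ : DirichletCharacter ℂ q) (t : ℝ) :
    ‖negLD χ (((1 + 1 / 16 : ℝ) : ℂ) + t * I)‖ ≤ zmom 0 (1 / 16) := by
  have hb : (0 : ℝ) < 1 / 16 := by norm_num
  have hre : 1 < (((1 + 1 / 16 : ℝ) : ℂ) + t * I).re := by simp
  have h := iteratedDeriv_twist χ 0 hb t
  rw [iteratedDeriv_zero, pow_zero, Nat.factorial_zero, Nat.cast_one, one_mul, one_mul] at h
  rw [← LSeries_twist_eq χ hre, show twist χ = fun m : ℕ => χ m * (Λ m : ℂ) from rfl, h]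
  exact norm_mom_le χ 0 hb t

/-- The line of absolute convergence, cut. -/
theorem line_tail (χ : DirichletCharacter ℂ q) {y : ℝ} (hy : 0 < y) {V : ℝ} (hV : 0 < V) :
    Integrable (fun t : ℝ => kernelMul (negLD χ) y (((1 + 1 / 16 : ℝ) : ℂ) + t * I)) ∧
    ‖(∫ t : ℝ, kernelMul (negLD χ) y (((1 + 1 / 16 : ℝ) : ℂ) + t * I)) -
        ∫ t in (-V)..V, kernelMul (negLD χ) y (((1 + 1 / 16 : ℝ) : ℂ) + t * I)‖ ≤
      y ^ (1 + 1 / 16 : ℝ) * (8 * zmom 0 (1 / 16)) / V := by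
  obtain ⟨σ, hσ⟩ : ∃ σ : ℝ, σ = 1 + 1 / 16 := ⟨_, rfl⟩
  obtain ⟨f, hf⟩ : ∃ f : ℝ → ℂ, f = fun t : ℝ => kernelMul (negLD χ) y ((σ : ℂ) + t * I) := ⟨_, rfl⟩
  rw [← hσ]
  rw [show (fun t : ℝ => kernelMul (negLD χ) y ((σ : ℂ) + t * I)) = f from hf.symm]
  obtain ⟨K, hK⟩ : ∃ K, K = y ^ σ * 4 * zmom 0 (1 / 16) := ⟨_, rfl⟩
  have hK0 : 0 ≤ K := by
    have := zmom_nonneg 0 (1 / 16 : ℝ)
    rw [hK]; positivity
  have hb : ∀ t, ‖f t‖ ≤ K * (1 + t ^ 2)⁻¹ := fun t => by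
    rw [hf]
    simp only
    rw [kernelMul_eq, norm_mul, hσ]
    refine (mul_le_mul (norm_kern_le hy (by norm_num) t) (norm_negLD_right_le χ t) (norm_nonneg _)
      (by positivity)).trans (le_of_eq ?_)
    rw [hK, hσ]
    ring
  have hfc : Continuous f := hf ▸ continuous_iff_continuousAt.2 fun t => by
    have hre : (((σ : ℂ) + t * I)).re = σ := by simp
    have hne : clear χ ((σ : ℂ) + t * I) ≠ 0 := clear_ne_zero χ (by rw [hre, hσ]; norm_num)
    have h1 : (σ : ℂ) + t * I - 1 ≠ 0 := fun h => by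
      have := congrArg Complex.re h
      rw [sub_re, hre, one_re, zero_re, hσ] at this
      norm_num at this
    refine ContinuousAt.comp' (g := kernelMul (negLD χ) y) ?_ (by fun_prop)
    rw [show kernelMul (negLD χ) y = fun s => kern y s * negLD χ s from funext fun s => kernelMul_eq _ y s]
    refine (differentiableAt_kern hy (by rw [hre, hσ]; norm_num)).continuousAt.mul ?_
    exact (((differentiable_clear χ).analyticAt _).deriv.continuousAt.div
      (differentiable_clear χ).continuous.continuousAt hne).neg.add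
        (continuousAt_const.mul ((continuousAt_id.sub continuousAt_const).inv₀ h1))
  have hI : Integrable fun t : ℝ => K * (1 + t ^ 2)⁻¹ := integrable_inv_one_add_sq.const_mul K
  have hfi : Integrable f := hI.mono' hfc.aestronglyMeasurable (Filter.Eventually.of_forall hb)
  refine ⟨hfi, ?_⟩
  rw [intervalIntegral.integral_of_le (by linarith), ← integral_Icc_eq_integral_Ioc,
    ← integral_add_compl (s := Icc (-V) V) measurableSet_Icc hfi, add_sub_cancel_left]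
  refine (norm_integral_le_of_norm_le hI.integrableOn (Filter.Eventually.of_forall hb)).trans ?_
  have h := integral_add_compl (s := Icc (-V) V) measurableSet_Icc hI
  rw [integral_Icc_eq_integral_Ioc, ← intervalIntegral.integral_of_le (by linarith),
    intervalIntegral.integral_const_mul, integral_inv_one_add_sq] at h
  simp only [integral_const_mul, integral_univ_inv_one_add_sq, Real.arctan_neg] at h ⊢
  rw [eq_sub_of_add_eq' h, hK, le_div_iff₀ hV]
  have h2 := arctan_le_self (inv_nonneg.2 hV.le)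
  rw [Real.arctan_inv_of_pos hV] at h2
  have h3 : (π / 2 - Real.arctan V) * V ≤ 1 := by
    have := mul_le_mul_of_nonneg_right h2 hV.le
    rwa [inv_mul_cancel₀ hV.ne'] at this
  have h4 := mul_le_mul_of_nonneg_left h3 (show 0 ≤ K * 2 by positivity)
  rw [hK] at h4
  linarith

/-- The residues. -/
theorem boxInt_kernelMul (χ : DirichletCharacter ℂ q) {y : ℝ} (hy : 0 < y) {a V U : ℝ}
    (ha : 1 / 2 ≤ a) (ha' : a < 1) (hV : 0 < V) (hVU : V ≤ U)
    (hfree : ∀ ρ : ℂ, clear χ ρ = 0 → 1 / 2 ≤ ρ.re → |ρ.im| ≤ U → ρ.re ≠ a ∧ |ρ.im| ≠ V) :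
    boxInt (kernelMul (negLD χ) y) a (1 + 1 / 16) V = 2 * π * I * (pol χ * ((y : ℂ) / 2) -
      ∑ ρ ∈ (zerosTo χ U).filter (fun ρ => a < ρ.re ∧ |ρ.im| < V),
        (analyticOrderNatAt (clear χ) ρ : ℂ) * kern y ρ) := by
  obtain ⟨Z, h, hh, he, hbox, hZ⟩ := exists_box_factor χ U
  have hfac : ∀ s, clear χ s = FA.RiemannMangoldt.rootProd Z s * h s := he
  obtain ⟨b, hb⟩ : ∃ b : ℝ, b = 1 + 1 / 16 := ⟨_, rfl⟩
  rw [← hb]
  have hab : a ≤ b := by rw [hb]; linarith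
  have hin : ∀ s : ℂ, s.re ∈ Icc a b → s.im ∈ Icc (-V) V → s.re ∈ Icc (1 / 2 : ℝ) (3 / 2) ∧ |s.im| ≤ |U| :=
    fun s h1 h2 => ⟨⟨by linarith [h1.1], by rw [hb] at h1; linarith [h1.2]⟩,
      (abs_le.2 h2).trans (hVU.trans (le_abs_self U))⟩
  obtain ⟨U₀, hU₀⟩ : ∃ U₀ : Set ℂ, U₀ = {s | 0 < s.re} := ⟨_, rfl⟩
  have hU₀o : IsOpen U₀ := hU₀ ▸ isOpen_lt continuous_const continuous_re
  have hbox₀ : ∀ s : ℂ, s.re ∈ Icc a b → s.im ∈ Icc (-V) V → s ∈ U₀ := fun s h1 _ => by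
    rw [hU₀]; show 0 < s.re; linarith [h1.1]
  have hkern : DifferentiableOn ℂ (kern y) U₀ := fun s hs => by
    rw [hU₀] at hs
    exact (differentiableAt_kern hy hs).differentiableWithinAt
  have hedge : ∀ s ∈ boxEdges a b V, s.re ∈ Icc a b ∧ s.im ∈ Icc (-V) V := fun s hs => by
    obtain ⟨h1, h2, -⟩ := hs
    rw [uIcc_of_le hab] at h1
    rw [uIcc_of_le (by linarith)] at h2
    exact ⟨h1, h2⟩
  have hedge0 : ∀ s ∈ boxEdges a b V, clear χ s ≠ 0 := fun s hs h0 => by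
    obtain ⟨h1, h2⟩ := hedge s hs
    obtain ⟨f1, f2⟩ := hfree s h0 (by linarith [h1.1]) ((abs_le.2 h2).trans hVU)
    have hlt := re_lt_one_of_clear h0
    rcases hs.2.2 with e | e | e | e
    · exact f2 (by rw [e, abs_neg, abs_of_pos hV])
    · exact f2 (by rw [e, abs_of_pos hV])
    · exact f1 e
    · rw [hb] at e; linarith
  have hzne : ∀ s ∈ boxEdges a b V, ∀ ρ ∈ Z, s ≠ ρ := fun s hs ρ hρ e => hedge0 s hs (e ▸ hZ ρ hρ)
  have hhne : ∀ s : ℂ, s.re ∈ Icc a b → s.im ∈ Icc (-V) V → h s ≠ 0 := fun s h1 h2 =>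
    (hbox s (hin s h1 h2).1 (hin s h1 h2).2).1
  obtain ⟨P, hP⟩ : ∃ P : ℂ → ℂ → ℂ, P = fun c s => kern y s / (s - c) := ⟨_, rfl⟩
  obtain ⟨R, hR⟩ : ∃ R : ℂ → ℂ, R = fun s => kern y s * -(deriv h s / h s) := ⟨_, rfl⟩
  have hRd : ∀ s : ℂ, s.re ∈ Icc a b → s.im ∈ Icc (-V) V → DifferentiableAt ℂ R s := fun s h1 h2 => by
    rw [hR]
    exact (differentiableAt_kern hy (by linarith [h1.1])).mul
      (((hh.analyticAt s).deriv.differentiableAt.div (hh s) (hhne s h1 h2)).neg)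
  have hPc : ∀ c : ℂ, (∀ s ∈ boxEdges a b V, s ≠ c) → ∀ s ∈ boxEdges a b V, ContinuousAt (P c) s :=
    fun c hc s hs => by
    obtain ⟨h1, h2⟩ := hedge s hs
    rw [hP]
    exact (hkern.differentiableAt (hU₀o.mem_nhds (hbox₀ s h1 h2))).continuousAt.div
      (continuousAt_id.sub continuousAt_const) (sub_ne_zero.2 (hc s hs))
  have h1ne : ∀ s ∈ boxEdges a b V, s ≠ 1 := fun s hs =>
    interior_not_edge (ρ := 1) (by simpa using ha') (by rw [hb]; simp) (by simpa using hV.ne) hV.le hs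
  obtain ⟨hZc, hZsum⟩ := boxInt_multiset_sum (f := fun ρ s => -1 * P ρ s) (a := a) (b := b) (T := V) Z
    fun ρ hρ s hs => continuousAt_const.mul (hPc ρ (fun t ht' => hzne t ht' ρ hρ) s hs)
  have hRc : ∀ s ∈ boxEdges a b V, ContinuousAt R s := fun s hs =>
    (hRd s (hedge s hs).1 (hedge s hs).2).continuousAt
  have hpc : ∀ s ∈ boxEdges a b V, ContinuousAt (fun s => pol χ * P 1 s) s := fun s hs =>
    continuousAt_const.mul (hPc 1 h1ne s hs)
  have hP1 : boxInt (P 1) a b V = 2 * π * I * ((y : ℂ) / 2) := by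
    rw [hP, boxInt_residue hU₀o hkern hbox₀ hV.le (ρ := 1) (by simpa using ha') (by rw [hb]; simp)
      (by simpa using hV.ne), if_pos (by simpa using hV), kern_apply_one]
  have hPρ : ∀ ρ ∈ Z, boxInt (P ρ) a b V =
      if a < ρ.re ∧ |ρ.im| < V then 2 * π * I * kern y ρ else 0 := fun ρ hρ => by
    have hlt := re_lt_one_of_clear (hZ ρ hρ)
    rw [hP]
    split_ifs with hc
    · rw [boxInt_residue hU₀o hkern hbox₀ hV.le hc.1 (by rw [hb]; linarith) hc.2.ne, if_pos hc.2]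
    · refine boxInt_eq_zero hab hV.le fun s h1 h2 => (hkern.differentiableAt (hU₀o.mem_nhds
        (hbox₀ s h1 h2))).div (differentiableAt_id.sub_const ρ) (sub_ne_zero.2 fun e => hc ?_)
      subst e
      obtain ⟨f1, f2⟩ := hfree s (hZ s hρ) (by linarith [h1.1]) ((abs_le.2 h2).trans hVU)
      exact ⟨lt_of_le_of_ne h1.1 (Ne.symm f1), lt_of_le_of_ne (abs_le.2 h2) f2⟩
  rw [boxInt_congr (G := fun s => R s + (pol χ * P 1 s + (Z.map fun ρ => -1 * P ρ s).sum)) fun s hs => ?_,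
    boxInt_add (F := R) (G := fun s => pol χ * P 1 s + (Z.map fun ρ => -1 * P ρ s).sum) hRc
      (fun s hs => (hpc s hs).add (hZc s hs)),
    boxInt_add (F := fun s => pol χ * P 1 s) (G := fun s => (Z.map fun ρ => -1 * P ρ s).sum) hpc hZc,
    boxInt_eq_zero hab hV.le hRd, boxInt_const_mul, hP1, hZsum]
  · rw [Multiset.map_congr rfl fun ρ hρ => show boxInt (fun s => -1 * P ρ s) a b V =
        -(2 * π * I) * (if a < ρ.re ∧ |ρ.im| < V then kern y ρ else 0) by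
      rw [boxInt_const_mul, hPρ ρ hρ]
      split_ifs <;> ring, Multiset.sum_map_mul_left, Finset.sum_multiset_map_count]
    simp only [smul_ite, smul_zero]
    rw [← Finset.sum_filter]
    have hset : Z.toFinset.filter (fun ρ => a < ρ.re ∧ |ρ.im| < V) =
        (zerosTo χ U).filter (fun ρ => a < ρ.re ∧ |ρ.im| < V) := by
      ext ρ
      simp only [Finset.mem_filter, Multiset.mem_toFinset, mem_zerosTo]
      refine ⟨fun hρ => ⟨⟨hZ ρ hρ.1, by linarith [hρ.2.1], by linarith [hρ.2.2]⟩, hρ.2⟩, fun hρ => ⟨?_, hρ.2⟩⟩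
      have h4 := (hbox ρ ⟨hρ.1.2.1, by linarith [re_lt_one_of_clear hρ.1.1]⟩
        (hρ.1.2.2.trans (le_abs_self U))).2
      exact Multiset.one_le_count_iff_mem.1 (h4 ▸ one_le_ordC hρ.1.1)
    rw [hset, Finset.sum_congr rfl fun ρ hρ => show Z.count ρ • kern y ρ =
      (analyticOrderNatAt (clear χ) ρ : ℂ) * kern y ρ by
        obtain ⟨hρ1, -⟩ := Finset.mem_filter.1 hρ
        obtain ⟨h1, h2, h3⟩ := mem_zerosTo.1 hρ1
        rw [(hbox ρ ⟨h2, by linarith [re_lt_one_of_clear h1]⟩ (h3.trans (le_abs_self U))).2, nsmul_eq_mul]]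
    ring
  · obtain ⟨h1, h2⟩ := hedge s hs
    have hroot : ∀ ρ ∈ Z, s ≠ ρ := hzne s hs
    have hd : deriv (clear χ) s = FA.RiemannMangoldt.rootProd Z s * (Z.map fun ρ => (s - ρ)⁻¹).sum * h s +
        FA.RiemannMangoldt.rootProd Z s * deriv h s := by
      rw [show clear χ = fun w => FA.RiemannMangoldt.rootProd Z w * h w from funext hfac]
      exact ((FA.RiemannMangoldt.hasDerivAt_rootProd hroot).mul (hh s).hasDerivAt).deriv
    have hlog : logDeriv (clear χ) s = (Z.map fun ρ => (s - ρ)⁻¹).sum + deriv h s / h s := by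
      have n1 := FA.RiemannMangoldt.rootProd_ne_zero hroot
      have n2 := hhne s h1 h2
      rw [logDeriv_apply, hd, hfac s]
      field_simp
    have hm : (Z.map fun ρ => -1 * P ρ s) = Z.map fun ρ => -kern y s * (s - ρ)⁻¹ := by
      refine Multiset.map_congr rfl fun ρ _ => ?_
      rw [hP]
      simp only [div_eq_mul_inv]
      ring
    dsimp only
    rw [hm, Multiset.sum_map_mul_left, kernelMul_eq, negLD, hlog, hR, hP]
    simp only [div_eq_mul_inv]
    ring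

/-- A horizontal edge. -/
theorem norm_horizontal_le (χ : DirichletCharacter ℂ q) {U V d K : ℝ} (hU : 1 ≤ U) (hVU : U ≤ V)
    (hVU' : V ≤ U + 1) (hd : 0 < d) (havoid : ∀ ρ ∈ zerosTo χ (U + 2), d ≤ |V - (|ρ.im|)|)
    {w : ℝ} (hw : |w| = V)
    (hK : ∑ ρ ∈ (zerosTo χ (U + 2)).filter (fun ρ => |w - ρ.im| ≤ 1 / 4),
      (analyticOrderNatAt (clear χ) ρ : ℝ) ≤ K) {y : ℝ} (hy : 1 ≤ y) {a : ℝ} (ha : 61 / 64 ≤ a)
    (ha' : a ≤ 1) :
    ‖∫ u in a..(1 + 1 / 16), kernelMul (negLD χ) y ((u : ℂ) + (w : ℂ) * I)‖ ≤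
      y ^ (1 + 1 / 16 : ℝ) * (4 / U ^ 2) * (448 * rimG * famL q (U + 1) + K / d + 1) := by
  have hH := famL_pos q (U + 1)
  have hK0 : 0 ≤ K := le_trans (Finset.sum_nonneg fun _ _ => Nat.cast_nonneg _) hK
  have hrim := one_le_rimG
  refine (intervalIntegral.norm_integral_le_of_norm_le_const (C := y ^ (1 + 1 / 16 : ℝ) * (4 / U ^ 2) *
    (448 * rimG * famL q (U + 1) + K / d + 1)) fun u hu => ?_).trans ?_
  · rw [uIoc_of_le (by linarith)] at hu
    obtain ⟨s, hs⟩ : ∃ s : ℂ, s = (u : ℂ) + (w : ℂ) * I := ⟨_, rfl⟩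
    have hsre : s.re = u := by simp [hs]
    have hsim : s.im = w := by simp [hs]
    have hne : clear χ s ≠ 0 := fun h => by
      have := havoid s (mem_zerosTo.2 ⟨h, by rw [hsre]; linarith [hu.1], by rw [hsim, hw]; linarith⟩)
      rw [hsim, hw, sub_self, abs_zero] at this
      linarith
    have hb := norm_logDeriv_clear_le χ (U := U + 1) (s := s) (by rw [hsre]; linarith [hu.1])
      (by rw [hsre]; linarith [hu.2]) (by rw [hsim, hw]; linarith) hne
    have hnear : ∑ ρ ∈ zerosTo χ (U + 1 + 1), (analyticOrderNatAt (clear χ) ρ : ℝ) *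
        (if |s.im - ρ.im| ≤ 1 / 4 then ‖s - ρ‖⁻¹ else 0) ≤ K / d := by
      rw [show U + 1 + 1 = U + 2 by ring]
      simp only [mul_ite, mul_zero]
      rw [← Finset.sum_filter, hsim, div_eq_mul_inv]
      refine le_trans ?_ (mul_le_mul_of_nonneg_right hK (inv_nonneg.2 hd.le))
      rw [Finset.sum_mul]
      refine Finset.sum_le_sum fun ρ hρ => mul_le_mul_of_nonneg_left (inv_anti₀ hd ?_) (Nat.cast_nonneg _)
      refine le_trans ?_ (abs_im_le_norm _)
      rw [sub_im, hsim]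
      have := havoid ρ (Finset.mem_filter.1 hρ).1
      rw [← hw] at this
      exact this.trans (abs_abs_sub_abs_le_abs_sub w ρ.im)
    have hpol : ‖pol χ * (s - 1)⁻¹‖ ≤ 1 := by
      have h1 : ‖pol χ‖ ≤ 1 := by rw [pol]; split_ifs <;> simp
      rw [norm_mul, norm_inv]
      refine mul_le_one₀ h1 (by positivity) (inv_le_one_of_one_le₀ ?_)
      refine le_trans ?_ (abs_im_le_norm _)
      rw [sub_im, one_im, sub_zero, hsim, hw]
      linarith
    rw [← hs, kernelMul_eq, norm_mul]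
    refine mul_le_mul ?_ ((norm_add_le _ _).trans (add_le_add ((norm_neg _).trans_le
      (hb.trans (add_le_add le_rfl hnear))) hpol)) (norm_nonneg _) (by positivity)
    refine (hs ▸ norm_kern_le (by linarith) (by linarith [hu.1]) w).trans ?_
    refine mul_le_mul (Real.rpow_le_rpow_of_exponent_le hy hu.2) ?_ (by positivity) (by positivity)
    refine div_le_div_of_nonneg_left (by norm_num) (by positivity) ?_
    rw [← sq_abs w, hw]
    nlinarith
  · refine mul_le_of_le_one_right (by positivity) ?_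
    rw [abs_le]
    constructor <;> linarith

theorem sum_order_near_le {C : ℝ} (hC : 0 ≤ C)
    (hunit : ∀ (q : ℕ) [NeZero q] (χ : DirichletCharacter ℂ q) (m : ℝ)
      (S : Finset ℂ), (∀ ρ ∈ S, clear χ ρ = 0 ∧ 1 / 2 ≤ ρ.re ∧ |ρ.im - m| ≤ 1 / 2) →
        ∑ ρ ∈ S, (analyticOrderNatAt (clear χ) ρ : ℝ) ≤ C * ht q m)
    (χ : DirichletCharacter ℂ q) {U : ℝ} (_hU : 1 ≤ U) {w : ℝ} (hw : |w| ≤ U + 1) :
    ∑ ρ ∈ (zerosTo χ (U + 2)).filter (fun ρ => |w - ρ.im| ≤ 1 / 4), (analyticOrderNatAt (clear χ) ρ : ℝ) ≤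
      C * famL q U := by
  refine (hunit q χ w _ fun ρ hρ => ?_).trans
    (mul_le_mul_of_nonneg_left (ht_le_famL (NeZero.pos q) le_rfl (by linarith [le_abs_self U])) hC)
  obtain ⟨h1, h2⟩ := Finset.mem_filter.1 hρ
  obtain ⟨h3, h4, -⟩ := mem_zerosTo.1 h1
  exact ⟨h3, h4, by rw [abs_sub_comm]; linarith⟩

/-- Where to cut. -/
theorem exists_cut {A : ℝ} (hA : 0 ≤ A)
    (hhalf : ∀ (q Q : ℕ) [NeZero q] (χ : DirichletCharacter ℂ q) (T : ℝ) (S : Finset ℂ), q ≤ Q →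
      (∀ ρ ∈ S, clear χ ρ = 0 ∧ 1 / 2 ≤ ρ.re ∧ |ρ.im| ≤ T) →
        ∑ ρ ∈ S, (analyticOrderNatAt (clear χ) ρ : ℝ) ≤ A * ((|T| + 2) * famL q T))
    (χ : DirichletCharacter ℂ q) {U : ℝ} (hU : 1 ≤ U) :
    ∃ V a : ℝ, U ≤ V ∧ V ≤ U + 1 ∧ 61 / 64 ≤ a ∧ a ≤ 31 / 32 ∧
      ∀ ρ ∈ zerosTo χ (U + 2), (2 * ((10 * A + 1) * (U * famL q U)))⁻¹ ≤ |V - (|ρ.im|)| ∧
        (128 * ((10 * A + 1) * (U * famL q U)))⁻¹ ≤ |a - ρ.re| := by
  have hH := five_le_famL q U
  obtain ⟨M, hM⟩ : ∃ M, M = (10 * A + 1) * (U * famL q U) := ⟨_, rfl⟩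
  rw [← hM]
  have hUH : 1 ≤ U * famL q U := one_le_mul_of_one_le_of_one_le hU (by linarith)
  have hM1 : 1 ≤ M := hM ▸ one_le_mul_of_one_le_of_one_le (by linarith) hUH
  have hN : ((zerosTo χ (U + 2)).card : ℝ) ≤ M - 1 := by
    refine (card_zerosTo_le_sum χ _).trans ((hhalf q q χ (U + 2) _ le_rfl fun ρ hρ => mem_zerosTo.1 hρ).trans ?_)
    have h1 := famL_add_le q hU (c := 2) (by norm_num) le_rfl
    rw [abs_of_nonneg (show 0 ≤ U + 2 by linarith), hM]
    have h2 : (U + 2 + 2) * famL q (U + 2) ≤ 5 * U * (2 * famL q U) :=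
      mul_le_mul (by linarith) h1 (famL_pos _ _).le (by linarith)
    have h3 := mul_le_mul_of_nonneg_left h2 hA
    linarith
  obtain ⟨V, hV, hVa⟩ := exists_avoid (A := (zerosTo χ (U + 2)).image fun ρ => |ρ.im|)
    ((Nat.cast_le.2 Finset.card_image_le).trans hN) U one_pos
  obtain ⟨a, ha, haa⟩ := exists_avoid (A := (zerosTo χ (U + 2)).image fun ρ => ρ.re)
    ((Nat.cast_le.2 Finset.card_image_le).trans hN) (61 / 64) (show (0 : ℝ) < 1 / 64 by norm_num)
  refine ⟨V, a, hV.1, hV.2, ha.1, by linarith [ha.2], fun ρ hρ => ⟨le_trans (le_of_eq ?_)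
    (hVa _ (Finset.mem_image_of_mem _ hρ)), le_trans (le_of_eq ?_) (haa _ (Finset.mem_image_of_mem _ hρ))⟩⟩
  · rw [sub_add_cancel, one_div]
  · rw [sub_add_cancel, div_div, one_div]
    ring_nf

theorem log_cut_le {A : ℝ} (hA : 0 ≤ A) (q : ℕ) {U : ℝ} (hU : 1 ≤ U) :
    Real.log (1 + 1 / (4 * (128 * ((10 * A + 1) * (U * famL q U)))⁻¹)) ≤ (330 * A + 35) * famL q U := by
  have hH := five_le_famL q U
  have hUH : 1 ≤ U * famL q U := one_le_mul_of_one_le_of_one_le hU (by linarith)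
  have e : 1 + 1 / (4 * (128 * ((10 * A + 1) * (U * famL q U)))⁻¹) ≤ (33 * (10 * A + 1)) * (U * famL q U) := by
    have : (1 : ℝ) ≤ (10 * A + 1) * (U * famL q U) := one_le_mul_of_one_le_of_one_le (by linarith) hUH
    rw [one_div (4 * _), mul_inv, inv_inv]
    linarith
  refine (Real.log_le_log (by positivity) e).trans ?_
  rw [Real.log_mul (show 33 * (10 * A + 1) ≠ 0 by positivity) (show U * famL q U ≠ 0 by positivity),
    Real.log_mul (show U ≠ 0 by positivity) (show famL q U ≠ 0 by positivity)]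
  have h1 := Real.log_le_sub_one_of_pos (show 0 < 33 * (10 * A + 1) by positivity)
  have h2 := Real.log_le_sub_one_of_pos (show 0 < famL q U by linarith)
  have h3 : Real.log U ≤ famL q U := by
    have := Real.log_le_log (show 0 < U by linarith) (show U ≤ |U| + 5 by linarith [le_abs_self U])
    rw [famL]
    linarith [FA.LinnikPrime.four_le_lg q]
  have h4 : 33 * (10 * A + 1) ≤ 33 * (10 * A + 1) * famL q U := le_mul_of_one_le_right (by positivity) (by linarith)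
  linarith

/-- **The explicit formula.** -/
theorem exists_explicit : ∃ C : ℝ, 1 ≤ C ∧ ∀ (q : ℕ) [NeZero q] (χ : DirichletCharacter ℂ q) (U : ℝ), 1 ≤ U →
    ∃ S : Finset ℂ, (∀ ρ ∈ S, clear χ ρ = 0 ∧ 1 / 2 ≤ ρ.re ∧ |ρ.im| ≤ U + 1) ∧
      (∀ ρ : ℂ, clear χ ρ = 0 → 31 / 32 < ρ.re → |ρ.im| ≤ U → ρ ∈ S) ∧
      ∀ y : ℝ, 1 ≤ y →
        ‖psiOneChar χ y - (pol χ * ((y : ℂ) ^ 2 / 2) -
          ∑ ρ ∈ S, (analyticOrderNatAt (clear χ) ρ : ℂ) * ((y : ℂ) ^ (ρ + 1) / (ρ * (ρ + 1))))‖ ≤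
        C * famL q U ^ 2 * (y ^ (33 / 16 : ℝ) / U + y ^ (63 / 32 : ℝ)) := by
  obtain ⟨A, hA, hhalf⟩ := exists_card_half_le
  obtain ⟨Cu, hCu, hunit⟩ := exists_card_unit_le
  obtain ⟨Cw, hCw, hweight⟩ := exists_sum_weight_le
  have hrim := one_le_rimG
  have hz := zmom_nonneg 0 (1 / 16 : ℝ)
  obtain ⟨C₁, hC₁⟩ : ∃ C₁ : ℝ, C₁ = 8 * zmom 0 (1 / 16) +
      8 * (896 * rimG + 2 * Cu * (10 * A + 1) + 1) := ⟨_, rfl⟩
  obtain ⟨C₂, hC₂⟩ : ∃ C₂ : ℝ, C₂ = 4 * ((896 * rimG + 32) * 4 + 16 * Cw * (330 * A + 35)) := ⟨_, rfl⟩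
  have hC₁0 : 0 ≤ C₁ := by rw [hC₁]; positivity
  have hC₂0 : 1 ≤ C₂ := by
    have : 0 ≤ 16 * Cw * (330 * A + 35) := by positivity
    rw [hC₂]; linarith
  refine ⟨C₁ + C₂, by linarith, fun q _ χ U hU => ?_⟩
  obtain ⟨H, hHdef⟩ : ∃ H, H = famL q U := ⟨_, rfl⟩
  have hH5 : 5 ≤ H := hHdef ▸ five_le_famL q U
  have hA0 : 0 ≤ A := by linarith
  obtain ⟨V, a, hVU, hVU', ha, ha', hcut⟩ := exists_cut hA0 (fun q Q _ χ T S hq hS => by
    have := hhalf q q χ T S le_rfl hS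
    exact this) χ hU
  obtain ⟨d₁, hd₁⟩ : ∃ d₁, d₁ = (2 * ((10 * A + 1) * (U * famL q U)))⁻¹ := ⟨_, rfl⟩
  obtain ⟨d₂, hd₂⟩ : ∃ d₂, d₂ = (128 * ((10 * A + 1) * (U * famL q U)))⁻¹ := ⟨_, rfl⟩
  simp only [← hd₁, ← hd₂] at hcut
  rw [← hHdef]
  have hd₁0 : 0 < d₁ := by rw [hd₁, ← hHdef]; positivity
  have hd₂0 : 0 < d₂ := by rw [hd₂, ← hHdef]; positivity
  refine ⟨(zerosTo χ (U + 2)).filter fun ρ => a < ρ.re ∧ |ρ.im| < V, fun ρ hρ => ?_,
    fun ρ h1 h2 h3 => ?_, fun y hy => ?_⟩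
  · obtain ⟨h1, -, h3⟩ := Finset.mem_filter.1 hρ
    obtain ⟨h4, h5, -⟩ := mem_zerosTo.1 h1
    exact ⟨h4, h5, by linarith⟩
  · have hm : ρ ∈ zerosTo χ (U + 2) := mem_zerosTo.2 ⟨h1, by linarith, by linarith⟩
    refine Finset.mem_filter.2 ⟨hm, by linarith, lt_of_le_of_ne (by linarith) fun e => ?_⟩
    have := (hcut ρ hm).1
    rw [e, sub_self, abs_zero] at this
    linarith
  have hy0 : 0 < y := by linarith
  have hfree : ∀ ρ : ℂ, clear χ ρ = 0 → 1 / 2 ≤ ρ.re → |ρ.im| ≤ U + 2 → ρ.re ≠ a ∧ |ρ.im| ≠ V :=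
    fun ρ h1 h2 h3 => by
    obtain ⟨h4, h5⟩ := hcut ρ (mem_zerosTo.2 ⟨h1, h2, h3⟩)
    exact ⟨fun e => by rw [e, sub_self, abs_zero] at h5; linarith,
      fun e => by rw [e, sub_self, abs_zero] at h4; linarith⟩
  have hres := boxInt_kernelMul χ hy0 (a := a) (V := V) (U := U + 2) (by linarith) (by linarith) (by linarith)
    (by linarith) hfree
  obtain ⟨hfi, htail⟩ := line_tail χ hy0 (V := V) (by linarith)
  have hperron := smoothSum_eq (f := twist χ) (F := negLD χ) (x := y) (σ := 1 + 1 / 16) hy0 (by norm_num)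
    (DirichletCharacter.LSeriesSummable_twist_vonMangoldt χ (by norm_num)) fun s hs => LSeries_twist_eq χ hs
  -- the four pieces
  obtain ⟨R, hR⟩ : ∃ R : ℂ, R = pol χ * ((y : ℂ) / 2) -
      ∑ ρ ∈ (zerosTo χ (U + 2)).filter (fun ρ => a < ρ.re ∧ |ρ.im| < V),
        (analyticOrderNatAt (clear χ) ρ : ℂ) * kern y ρ := ⟨_, rfl⟩
  rw [← hR] at hres
  obtain ⟨F, hF⟩ : ∃ F : ℝ → ℝ → ℂ, F = fun (u w : ℝ) => kernelMul (negLD χ) y ((u : ℂ) + (w : ℂ) * I) := ⟨_, rfl⟩
  obtain ⟨bot, hbot⟩ : ∃ b : ℂ, b = ∫ u in a..(1 + 1 / 16), F u (-V) := ⟨_, rfl⟩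
  obtain ⟨top, htop⟩ : ∃ b : ℂ, b = ∫ u in a..(1 + 1 / 16), F u V := ⟨_, rfl⟩
  obtain ⟨lft, hlft⟩ : ∃ b : ℂ, b = ∫ t in (-V)..V, F a t := ⟨_, rfl⟩
  obtain ⟨rgt, hrgt⟩ : ∃ b : ℂ, b = ∫ t in (-V)..V, F (1 + 1 / 16) t := ⟨_, rfl⟩
  obtain ⟨tot, htot⟩ : ∃ b : ℂ, b = ∫ t : ℝ, F (1 + 1 / 16) t := ⟨_, rfl⟩
  simp only [hF] at hbot htop hlft hrgt htot
  rw [boxInt, ← hbot, ← htop, ← hrgt, ← hlft] at hres
  rw [← htot, ← hrgt] at htail
  rw [← htot] at hperron
  have hkey : (2 * π : ℂ) * (smoothSum (twist χ) y - R) = (tot - rgt) + I * bot - I * top + lft := by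
    rw [hperron, Complex.real_smul, ofReal_div, ofReal_one, ofReal_mul, ofReal_ofNat]
    have hp : (π : ℂ) ≠ 0 := ofReal_ne_zero.2 Real.pi_ne_zero
    field_simp
    linear_combination (-I) * hres + (-lft + rgt - 2 * π * R) * Complex.I_sq
  -- the bounds
  have hH1 := famL_add_le q hU (c := 1) zero_le_one one_le_two
  rw [← hHdef] at hH1
  have hhor : ∀ w : ℝ, |w| = V → ‖∫ u in a..(1 + 1 / 16), kernelMul (negLD χ) y ((u : ℂ) + (w : ℂ) * I)‖ ≤
      y ^ (1 + 1 / 16 : ℝ) / U * (4 * ((896 * rimG + 2 * Cu * (10 * A + 1) + 1) * H ^ 2)) := fun w hw => by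
    refine (norm_horizontal_le χ hU hVU hVU' hd₁0 (fun ρ hρ => (hcut ρ hρ).1) hw
      (sum_order_near_le (by linarith) hunit χ hU (by linarith)) hy ha (by linarith)).trans ?_
    rw [← hHdef, hd₁, div_inv_eq_mul, ← hHdef]
    have hHH : H ≤ H ^ 2 := by rw [sq]; exact le_mul_of_one_le_left (by linarith) (by linarith)
    have hbig : 448 * rimG * famL q (U + 1) + Cu * H * (2 * ((10 * A + 1) * (U * H))) + 1 ≤
        U * ((896 * rimG + 2 * Cu * (10 * A + 1) + 1) * H ^ 2) := by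
      have t1 : 448 * rimG * famL q (U + 1) ≤ U * (896 * rimG * H ^ 2) := by
        refine le_trans ?_ (le_mul_of_one_le_left (by positivity) hU)
        have := mul_le_mul_of_nonneg_left (hH1.trans (show 2 * H ≤ 2 * H ^ 2 by linarith))
          (show 0 ≤ 448 * rimG by linarith)
        linarith
      have t2 : 1 ≤ U * H ^ 2 := one_le_mul_of_one_le_of_one_le hU (by linarith)
      linarith
    refine (mul_le_mul_of_nonneg_left hbig (by positivity)).trans (le_of_eq ?_)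
    field_simp
  have hW : ∑ ρ ∈ zerosTo χ (U + 1), (analyticOrderNatAt (clear χ) ρ : ℝ) / (1 + ρ.im ^ 2) ≤ Cw * (2 * H) := by
    refine (hweight q χ (zerosTo χ (U + 1)) (U + 1) 0 le_rfl fun ρ hρ => ?_).trans ?_
    · obtain ⟨h1, h2, h3⟩ := mem_zerosTo.1 hρ
      exact ⟨h1, h2, abs_nonneg _, h3⟩
    · rw [zero_add, div_one]
      exact mul_le_mul_of_nonneg_left hH1 (by linarith)
  have hleft : ‖lft‖ ≤ y ^ (31 / 32 : ℝ) * (C₂ * H ^ 2) := by
    have hl := integral_left_le χ (a := a) (V := V) (d := d₂) (U := U + 1) ha ha' (by linarith) hVU' hd₂0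
      (fun ρ hρ => ?_) (W := Cw * (2 * H)) ?_ hy0
    · rw [hlft]
      refine hl.trans ?_
      rw [mul_assoc (y ^ a)]
      refine mul_le_mul (Real.rpow_le_rpow_of_exponent_le hy ha') ?_ ?_ (by positivity)
      · have hlog := log_cut_le hA0 q hU
        rw [← hd₂, ← hHdef] at hlog
        have hHH : H ≤ H ^ 2 := by rw [sq]; exact le_mul_of_one_le_left (by linarith) (by linarith)
        have hπ : π ≤ 4 := Real.pi_le_four
        rw [hC₂, mul_assoc (4 : ℝ)]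
        refine mul_le_mul_of_nonneg_left ?_ (by norm_num)
        rw [add_mul ((896 * rimG + 32) * 4)]
        refine add_le_add ?_ ?_
        · refine le_trans (mul_le_mul (show 448 * rimG * famL q (U + 1) + 32 ≤ (896 * rimG + 32) * H ^ 2 by
            have := mul_le_mul_of_nonneg_left (hH1.trans (show 2 * H ≤ 2 * H ^ 2 by linarith))
              (show 0 ≤ 448 * rimG by linarith)
            linarith [show 1 ≤ H ^ 2 by linarith]) hπ Real.pi_pos.le (by positivity)) (le_of_eq ?_)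
          ring
        · refine (mul_le_mul_of_nonneg_right (mul_le_mul_of_nonneg_left hlog (by norm_num))
            (by positivity)).trans (le_of_eq ?_)
          ring
      · have := Real.log_nonneg (show (1 : ℝ) ≤ 1 + 1 / (4 * d₂) by
          linarith [show 0 ≤ 1 / (4 * d₂) by positivity])
        have := famL_pos q (U + 1)
        positivity
    · rw [show U + 1 + 1 = U + 2 by ring] at hρ
      exact (hcut ρ hρ).2
    · refine (hweight q χ (zerosTo χ (U + 1 + 1)) (U + 1 + 1) 0 le_rfl fun ρ hρ => ?_).trans ?_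
      · obtain ⟨h1, h2, h3⟩ := mem_zerosTo.1 hρ
        exact ⟨h1, h2, abs_nonneg _, h3⟩
      · rw [zero_add, div_one, show U + 1 + 1 = U + 2 by ring]
        exact mul_le_mul_of_nonneg_left (hHdef ▸ famL_add_le q hU (c := 2) (by norm_num) le_rfl) (by linarith)
  have htail' : ‖tot - rgt‖ ≤ y ^ (1 + 1 / 16 : ℝ) / U * (8 * zmom 0 (1 / 16) * H ^ 2) := by
    refine htail.trans ((div_le_div_of_nonneg_left (by positivity) (by linarith) hVU).trans ?_)
    rw [mul_div_right_comm]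
    refine mul_le_mul_of_nonneg_left (le_mul_of_one_le_right (by positivity) ?_) (by positivity)
    exact one_le_pow₀ (by linarith)
  have hI : ∀ z : ℂ, ‖I * z‖ = ‖z‖ := fun z => by rw [norm_mul, Complex.norm_I, one_mul]
  have hb1 : ‖bot‖ ≤ _ := hbot ▸ hhor (-V) (by rw [abs_neg, abs_of_pos (by linarith)])
  have hb2 : ‖top‖ ≤ _ := htop ▸ hhor V (abs_of_pos (by linarith))
  have hsmall : ‖smoothSum (twist χ) y - R‖ ≤
      (C₁ + C₂) * H ^ 2 * (y ^ (1 + 1 / 16 : ℝ) / U + y ^ (31 / 32 : ℝ)) := by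
    have h2π : ‖smoothSum (twist χ) y - R‖ ≤ ‖(2 * π : ℂ) * (smoothSum (twist χ) y - R)‖ := by
      rw [norm_mul]
      refine le_mul_of_one_le_left (norm_nonneg _) ?_
      rw [norm_mul, norm_real, RCLike.norm_ofNat, Real.norm_of_nonneg Real.pi_pos.le]
      linarith [Real.two_le_pi]
    refine h2π.trans ?_
    rw [hkey]
    have n1 := norm_add_le ((tot - rgt) + I * bot - I * top) lft
    have n2 := norm_sub_le ((tot - rgt) + I * bot) (I * top)
    have n3 := norm_add_le (tot - rgt) (I * bot)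
    rw [hI] at n2 n3
    have p1 : 0 ≤ y ^ (1 + 1 / 16 : ℝ) / U * (C₂ * H ^ 2) := by positivity
    have p2 : 0 ≤ y ^ (31 / 32 : ℝ) * (C₁ * H ^ 2) := by positivity
    have e : y ^ (1 + 1 / 16 : ℝ) / U * (C₁ * H ^ 2) = y ^ (1 + 1 / 16 : ℝ) / U * (8 * zmom 0 (1 / 16) * H ^ 2) +
        2 * (y ^ (1 + 1 / 16 : ℝ) / U * (4 * ((896 * rimG + 2 * Cu * (10 * A + 1) + 1) * H ^ 2))) := by
      rw [hC₁]; ring
    linarith
  rw [psiOneChar_eq χ hy0.ne']
  have e : (y : ℂ) * smoothSum (twist χ) y - (pol χ * ((y : ℂ) ^ 2 / 2) -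
      ∑ ρ ∈ (zerosTo χ (U + 2)).filter (fun ρ => a < ρ.re ∧ |ρ.im| < V),
        (analyticOrderNatAt (clear χ) ρ : ℂ) * ((y : ℂ) ^ (ρ + 1) / (ρ * (ρ + 1)))) =
      (y : ℂ) * (smoothSum (twist χ) y - R) := by
    rw [hR, mul_sub, mul_sub, Finset.mul_sum, show (y : ℂ) * (pol χ * ((y : ℂ) / 2)) =
      pol χ * ((y : ℂ) ^ 2 / 2) by ring]
    congr 2
    refine Finset.sum_congr rfl fun ρ hρ => ?_
    obtain ⟨-, h2, -⟩ := Finset.mem_filter.1 hρ
    rw [kern, cpow_add _ _ (ofReal_ne_zero.2 hy0.ne'), cpow_one]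
    ring
  rw [e, norm_mul, norm_real, Real.norm_of_nonneg hy0.le]
  refine (mul_le_mul_of_nonneg_left hsmall hy0.le).trans (le_of_eq ?_)
  rw [show (33 / 16 : ℝ) = 1 + 1 / 16 + 1 by norm_num, show (63 / 32 : ℝ) = 31 / 32 + 1 by norm_num,
    Real.rpow_add_one hy0.ne' (1 + 1 / 16), Real.rpow_add_one hy0.ne' (31 / 32)]
  ring

end FA.Gallagher

end
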