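import Fermat.Agent.Gallagher.Repulsion

/-!
# The sum over the low zeros

If `log x ≥ R L` with `R` large, the zeros of the whole family with `|im| ≤ T` weighted by
`exp (- R (1 - β) L / 2)` have bounded sum, by the log-free density theorem.
-/

set_option autoImplicit false
set_option linter.unusedSectionVars false

noncomputable section

open Complex Finset
open FA.LinnikPrime (re_lt_one_of_clear)
open scoped Real Classical

namespace FA.Gallagher

theorem sum_exp_neg_le (n : ℕ) : ∑ i ∈ range n, Real.exp (-(i : ℝ)) ≤ 2 := by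
  have h0 : 0 ≤ Real.exp (-1) := (Real.exp_pos _).le
  have h2 : Real.exp (-1) ≤ 1 / 2 := by
    rw [Real.exp_neg, one_div]
    exact inv_anti₀ two_pos (by linarith [Real.add_one_le_exp (1 : ℝ)])
  simp only [show ∀ i : ℕ, Real.exp (-(i : ℝ)) = Real.exp (-1) ^ i from fun i => by
    rw [← Real.exp_nat_mul]; ring_nf]
  refine ((summable_geometric_of_lt_one h0 (by linarith)).sum_le_tsum _ fun i _ => by positivity).trans ?_
  rw [tsum_geometric_of_lt_one h0 (by linarith), inv_le_iff_one_le_mul₀ (by linarith)]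
  linarith

/-- **The weighted sum of the zeros of the family.** -/
theorem exists_head : ∃ C : ℝ, 1 ≤ C ∧ ∀ (Q : ℕ) (T R : ℝ), C ≤ R →
    ∀ S : (Σ q : ℕ, DirichletCharacter ℂ q) → Finset ℂ,
      (∀ u ∈ family Q, ∀ ρ ∈ S u, lfun u ρ = 0 ∧ 1 / 2 ≤ ρ.re ∧ |ρ.im| ≤ T) →
        ∑ u ∈ family Q, ∑ ρ ∈ S u, lord u ρ * Real.exp (-(R * ((1 - ρ.re) * famL Q T)) / 2) ≤ C := by
  obtain ⟨D, hD, hdens⟩ := exists_density
  refine ⟨2 * Real.exp (2 * D) + 2 * D + 2, by linarith [Real.exp_pos (2 * D)],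
    fun Q T R hR S hS => ?_⟩
  obtain ⟨L, hL⟩ : ∃ L, L = famL Q T := ⟨_, rfl⟩
  rw [← hL]
  have hL5 : 5 ≤ L := hL ▸ five_le_famL Q T
  have hR' : 2 * D + 2 ≤ R := by linarith [Real.exp_pos (2 * D)]
  suffices h : ∑ u ∈ family Q, ∑ ρ ∈ S u, lord u ρ * Real.exp (-(R * ((1 - ρ.re) * L)) / 2) ≤
      2 * Real.exp (2 * D) from h.trans (by linarith)
  have hfacts : ∀ u ∈ family Q, ∀ ρ ∈ S u, 0 ≤ (1 - ρ.re) * L ∧ (1 - ρ.re) * L ≤ L := fun u hu ρ hρ => by
    obtain ⟨h1, h2, -⟩ := hS u hu ρ hρ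
    have : NeZero u.1 := ⟨Nat.one_le_iff_ne_zero.1 (mem_family.1 hu).1⟩
    rw [lfun_eq] at h1
    exact ⟨mul_nonneg (by linarith [re_lt_one_of_clear h1]) (by linarith),
      mul_le_of_le_one_left (by linarith) (by linarith)⟩
  have hfib : ∀ u ∈ family Q, ∑ ρ ∈ S u, lord u ρ * Real.exp (-(R * ((1 - ρ.re) * L)) / 2) ≤
      ∑ i ∈ range (⌊L⌋₊ + 1), Real.exp (-(R * i) / 2) *
        ∑ ρ ∈ (S u).filter (fun ρ => ⌊(1 - ρ.re) * L⌋₊ = i), lord u ρ := fun u hu => by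
    rw [← Finset.sum_fiberwise_of_maps_to (g := fun ρ : ℂ => ⌊(1 - ρ.re) * L⌋₊) (t := range (⌊L⌋₊ + 1))
      fun ρ hρ => mem_range.2 (Nat.lt_succ_of_le (Nat.floor_mono (hfacts u hu ρ hρ).2))]
    refine Finset.sum_le_sum fun i _ => ?_
    rw [Finset.mul_sum]
    refine Finset.sum_le_sum fun ρ hρ => ?_
    obtain ⟨hρS, hi⟩ := Finset.mem_filter.1 hρ
    rw [mul_comm]
    refine mul_le_mul_of_nonneg_right (Real.exp_le_exp.2 ?_) (lord_nonneg u ρ)
    have h1 := Nat.floor_le (hfacts u hu ρ hρS).1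
    rw [hi] at h1
    have := mul_le_mul_of_nonneg_left h1 (show 0 ≤ R by linarith)
    linarith
  refine (Finset.sum_le_sum hfib).trans ?_
  rw [Finset.sum_comm]
  refine (Finset.sum_le_sum (g := fun i : ℕ => Real.exp (2 * D) * Real.exp (-(i : ℝ))) fun i _ => ?_).trans ?_
  · rw [← Finset.mul_sum]
    have hσ : ∀ u ∈ family Q, ∀ ρ ∈ (S u).filter (fun ρ => ⌊(1 - ρ.re) * L⌋₊ = i),
        lfun u ρ = 0 ∧ max (1 / 2) (1 - ((i : ℝ) + 1) / L) ≤ ρ.re ∧ |ρ.im| ≤ T := fun u hu ρ hρ => by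
      obtain ⟨hρS, hi⟩ := Finset.mem_filter.1 hρ
      obtain ⟨h1, h2, h3⟩ := hS u hu ρ hρS
      refine ⟨h1, max_le h2 ?_, h3⟩
      have h4 := Nat.lt_floor_add_one ((1 - ρ.re) * L)
      rw [hi, ← lt_div_iff₀ (by linarith)] at h4
      linarith
    have h := hdens Q T _ (le_max_left _ _) _ hσ
    refine (mul_le_mul_of_nonneg_left h (Real.exp_pos _).le).trans ?_
    rw [← Real.exp_add, ← Real.exp_add, Real.exp_le_exp, ← hL]
    have h5 : (1 - max (1 / 2) (1 - ((i : ℝ) + 1) / L)) * L ≤ (i : ℝ) + 1 := by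
      rw [← le_div_iff₀ (by linarith)]
      linarith [le_max_right (1 / 2 : ℝ) (1 - ((i : ℝ) + 1) / L)]
    have h6 := mul_le_mul_of_nonneg_left h5 (show 0 ≤ D by linarith)
    have h7 := mul_le_mul_of_nonneg_right hR' (Nat.cast_nonneg (α := ℝ) i)
    linarith
  · rw [← Finset.mul_sum, mul_comm (2 : ℝ) (Real.exp _)]
    exact mul_le_mul_of_nonneg_left (sum_exp_neg_le _) (Real.exp_pos _).le

end FA.Gallagher

end
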