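import Fermat.Agent.Gallagher.Disc

/-!
# The smoothed sums at any height

For `0 < b ≤ 1 / 8` and any real `t` the smoothed sum is the pole less the `(k + 1)`-st inverse powers
of `1 + b + it - ρ` over the zeros near `9 / 8 + it`, up to `O (k ht(q, t) 32 ^ k)`; in particular
`∑ b ^ 2 / |1 + b + it - ρ| ^ 2 ≤ 2 + O (b ht(q, t))`.
-/

set_option autoImplicit false
set_option linter.unusedSectionVars false

noncomputable section

open Complex Metric Filter Topology
open FA.LinnikPrime (clear pol pol_of_ne_one mom zmom coef line line_re line_im iteratedDeriv_logDeriv_clear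
  norm_mom_le zmom_zero_le zetaErr re_pol_le clear_ne_zero lg errTerm)
open scoped Nat Real ArithmeticFunction.vonMangoldt

namespace FA.Gallagher

variable {q : ℕ} [NeZero q] (χ : DirichletCharacter ℂ q)

/-- The inverse powers over the zeros near height `t`. -/
def zsumAt (k : ℕ) (b t : ℝ) : ℂ := ((nearAt χ t).map fun ρ => ((line b t - ρ) ^ (k + 1))⁻¹).sum

/-- The error of the formula. -/
def errAt (q k : ℕ) (t : ℝ) : ℝ := (k + 1) * (14 * (rimG * ht q t)) * 32 ^ (k + 1)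

theorem errAt_nonneg (q k : ℕ) (t : ℝ) : 0 ≤ errAt q k t := by
  have := one_le_rimG
  have := ht_pos q t
  rw [errAt]; positivity

theorem le_re_line_sub {t' : ℝ} {ρ : ℂ} (h : ρ ∈ nearAt χ t') (b t : ℝ) : b ≤ (line b t - ρ).re := by
  rw [sub_re, line_re]; linarith [re_lt_one_of_mem h]

theorem le_norm_line_sub {t' : ℝ} {ρ : ℂ} (h : ρ ∈ nearAt χ t') (b t : ℝ) : b ≤ ‖line b t - ρ‖ :=
  (le_re_line_sub χ h b t).trans (re_le_norm _)

/-- **The explicit formula at height `t`.** -/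
theorem mom_formula (k : ℕ) {b : ℝ} (hb : 0 < b) (hb8 : b ≤ 1 / 8) (t : ℝ) :
    ‖mom χ k b t - (pol χ * (((b : ℂ) + (t : ℂ) * I) ^ (k + 1))⁻¹ - zsumAt χ k b t)‖ ≤ errAt q k t := by
  have hs : ‖line b t - pt t‖ ≤ 3 / 16 := by
    rw [Complex.norm_def, Real.sqrt_le_left (by norm_num), normSq_apply, sub_re, sub_im, line_re,
      line_im, pt_re, pt_im, sub_self, mul_zero, add_zero]
    nlinarith
  have h := norm_iteratedDeriv_sub_le χ t k hs (clear_ne_zero χ (by rw [line_re]; linarith))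
  change ‖iteratedDeriv k (logDeriv (clear χ)) (line b t) - (-1) ^ k * k ! * zsumAt χ k b t‖ ≤ _ at h
  rw [line, iteratedDeriv_logDeriv_clear χ k hb t, ← mul_sub, norm_mul, norm_mul, norm_pow, norm_neg,
    norm_one, one_pow, one_mul, RCLike.norm_natCast, Nat.factorial_succ, Nat.cast_mul] at h
  rw [norm_sub_rev, show zsumAt χ k b t - (pol χ * (((b : ℂ) + (t : ℂ) * I) ^ (k + 1))⁻¹ - mom χ k b t) =
    mom χ k b t - (pol χ * (((b : ℂ) + (t : ℂ) * I) ^ (k + 1))⁻¹ - zsumAt χ k b t) by ring] at h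
  refine le_of_mul_le_mul_left (h.trans (le_of_eq ?_)) (Nat.cast_pos.2 k.factorial_pos)
  rw [errAt]
  push_cast
  ring

theorem re_inv_line_sub_nonneg {t' : ℝ} {ρ : ℂ} (h : ρ ∈ nearAt χ t') {b : ℝ} (hb : 0 ≤ b) (t : ℝ) :
    0 ≤ (line b t - ρ)⁻¹.re := by
  rw [inv_re]
  exact div_nonneg (hb.trans (le_re_line_sub χ h b t)) (normSq_nonneg _)

/-- The real part, over part of the list. -/
theorem re_mom_zero_le {b : ℝ} (hb : 0 < b) (hb8 : b ≤ 1 / 8) (t : ℝ) {T : Multiset ℂ}
    (hT : T ≤ nearAt χ t) :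
    (mom χ 0 b t).re ≤ (pol χ * ((b : ℂ) + (t : ℂ) * I)⁻¹).re -
      (T.map fun ρ => (line b t - ρ)⁻¹.re).sum + errAt q 0 t := by
  have h := (le_abs_self _).trans ((abs_re_le_norm _).trans (mom_formula χ 0 hb hb8 t))
  rw [sub_re, sub_re, zero_add, pow_one, zsumAt] at h
  simp only [zero_add, pow_one] at h
  have hre : ((nearAt χ t).map fun ρ => (line b t - ρ)⁻¹).sum.re =
      ((nearAt χ t).map fun ρ => (line b t - ρ)⁻¹.re).sum := by
    rw [← Complex.reLm_coe, map_multiset_sum, Multiset.map_map]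
    rfl
  obtain ⟨U, hU⟩ := Multiset.le_iff_exists_add.1 hT
  have hU0 : 0 ≤ (U.map fun ρ => (line b t - ρ)⁻¹.re).sum := Multiset.sum_nonneg fun x hx => by
    obtain ⟨ρ, hρ, rfl⟩ := Multiset.mem_map.1 hx
    exact re_inv_line_sub_nonneg χ (hU ▸ Multiset.mem_add.2 (Or.inr hρ)) hb.le t
  rw [hre, hU, Multiset.map_add, Multiset.sum_add] at h
  linarith

/-- The constant of Landau's bound. -/
def landG : ℝ := 896 * rimG + 2 * zetaErr

theorem zetaErr_nonneg : 0 ≤ zetaErr := FA.LinnikPrime.errTerm_nonneg 1 0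

theorem one_le_landG : 1 ≤ landG := by
  rw [landG]; linarith [one_le_rimG, zetaErr_nonneg]

theorem errAt_zero_le (q : ℕ) (t : ℝ) : errAt q 0 t ≤ landG / 2 * ht q t := by
  rw [errAt, landG]
  have := mul_nonneg zetaErr_nonneg (ht_pos q t).le
  push_cast
  linarith

theorem zetaErr_le (q : ℕ) (t : ℝ) : zetaErr ≤ landG / 2 * ht q t := by
  have h1 := five_le_ht q t
  have h3 := one_le_rimG
  have h2 := mul_le_mul_of_nonneg_left (show (1 : ℝ) ≤ ht q t by linarith) zetaErr_nonneg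
  have h4 := mul_nonneg (show 0 ≤ rimG by linarith) (ht_pos q t).le
  rw [landG]; linarith

/-- **Landau's bound.** -/
theorem sum_sq_le {b : ℝ} (hb : 0 < b) (hb8 : b ≤ 1 / 8) (t : ℝ) :
    ((nearAt χ t).map fun ρ => (b / ‖line b t - ρ‖) ^ 2).sum ≤ 2 + landG * ht q t * b := by
  have h1 := re_mom_zero_le χ hb hb8 t le_rfl
  have h2 : -(1 / b + zetaErr) ≤ (mom χ 0 b t).re := FA.LinnikPrime.re_mom_ge χ hb hb8 t
  have h3 := re_pol_le χ hb t
  have h4 : ((nearAt χ t).map fun ρ => (b / ‖line b t - ρ‖) ^ 2).sum ≤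
      b * ((nearAt χ t).map fun ρ => (line b t - ρ)⁻¹.re).sum := by
    rw [← Multiset.sum_map_mul_left]
    refine Multiset.sum_map_le_sum_map _ _ fun ρ hρ => ?_
    rw [inv_re, normSq_eq_norm_sq, div_pow, sq b, mul_div_assoc]
    exact mul_le_mul_of_nonneg_left
      (div_le_div_of_nonneg_right (le_re_line_sub χ hρ b t) (sq_nonneg _)) hb.le
  have h5 : b * (1 / b) = 1 := by field_simp
  have h6 : b * ((nearAt χ t).map fun ρ => (line b t - ρ)⁻¹.re).sum ≤
      b * (1 / b + (1 / b + zetaErr) + errAt q 0 t) :=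
    mul_le_mul_of_nonneg_left (by linarith) hb.le
  have h7 := mul_le_mul_of_nonneg_left (zetaErr_le q t) hb.le
  have h8 := mul_le_mul_of_nonneg_left (errAt_zero_le q t) hb.le
  rw [mul_add, mul_add, mul_add, h5] at h6
  linarith

theorem norm_zsumAt_mul_le (k : ℕ) {b : ℝ} (hb : 0 < b) (t : ℝ) :
    ‖zsumAt χ k b t‖ * b ^ (k + 1) ≤
      ((nearAt χ t).map fun ρ => (b / ‖line b t - ρ‖) ^ (k + 1)).sum := by
  refine (mul_le_mul_of_nonneg_right (norm_multiset_sum_le _) (by positivity)).trans (le_of_eq ?_)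
  rw [Multiset.map_map, ← Multiset.sum_map_mul_right]
  refine congrArg Multiset.sum (Multiset.map_congr rfl fun ρ _ => ?_)
  simp only [Function.comp_apply, norm_inv, norm_pow, div_pow]
  ring

/-- The height of a family: moduli up to `Q`, heights up to `T`. -/
def famL (Q : ℕ) (T : ℝ) : ℝ := lg Q + Real.log (|T| + 5)

theorem ht_le_famL {q Q : ℕ} (hq : 0 < q) (hQ : q ≤ Q) {t T : ℝ} (ht' : |t| ≤ |T| + 2) :
    ht q t ≤ famL Q T := by
  rw [ht, famL, lg, lg]
  refine add_le_add (add_le_add (Real.log_le_log (Nat.cast_pos.2 hq) (Nat.cast_le.2 hQ)) le_rfl)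
    (Real.log_le_log (by linarith [abs_nonneg t]) (by linarith))

theorem five_le_famL (Q : ℕ) (T : ℝ) : 5 ≤ famL Q T := by
  have h1 : Real.log 3 ≤ Real.log (|T| + 5) := Real.log_le_log (by norm_num) (by linarith [abs_nonneg T])
  have h2 : 1 ≤ Real.log 3 := by
    rw [Real.le_log_iff_exp_le (by norm_num)]
    linarith [Real.exp_one_lt_d9]
  rw [famL]; linarith [FA.LinnikPrime.four_le_lg Q]

theorem famL_pos (Q : ℕ) (T : ℝ) : 0 < famL Q T := by linarith [five_le_famL Q T]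

end FA.Gallagher

end
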