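import Fermat.Agent.Gallagher.Head
import Fermat.Agent.Gallagher.OneChar

/-!
# Gallagher's prime number theorem

For `Q ^ M ≤ x`, `log x ≤ (log Q) ^ 2` and `x / Q ≤ h ≤ x` the sum over all primitive characters of
modulus `≤ Q` of `|∑_{x < n ≤ x + h} χ(n) Λ(n) - main term|` is `O (h exp (- c log x / log Q))`, and in
the presence of the exceptional zero `β`, its term subtracted, smaller by the factor `(1 - β) log Q`.
-/

set_option autoImplicit false
set_option linter.unusedSectionVars false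

noncomputable section

open Complex Finset
open FA.LinnikPrime (clear pol re_lt_one_of_clear lg exists_one_sub_zero_ge clear_of_ne_one)
open scoped Real Classical ArithmeticFunction.vonMangoldt

namespace FA.Gallagher

/-- `∑_{x < n ≤ x + h} χ(n) Λ(n)`. -/
def psiInt (u : Σ q : ℕ, DirichletCharacter ℂ q) (x h : ℝ) : ℂ :=
  ∑ n ∈ Ioc ⌊x⌋₊ ⌊x + h⌋₊, u.2 (n : ZMod u.1) * (Λ n : ℂ)

theorem psiInt_eq (u : Σ q : ℕ, DirichletCharacter ℂ q) [NeZero u.1] {x h : ℝ} (hh : 0 ≤ h) :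
    psiInt u x h = psiChar u.2 (x + h) - psiChar u.2 x := by
  have hle : ⌊x⌋₊ ≤ ⌊x + h⌋₊ := Nat.floor_mono (by linarith)
  rw [psiChar, psiChar, psiInt, ← Finset.sum_sdiff (Finset.Icc_subset_Icc_right hle), add_sub_cancel_right]
  refine Finset.sum_congr ?_ fun n _ => rfl
  ext n
  rw [mem_Ioc, mem_sdiff, mem_Icc, mem_Icc]
  omega

/-- The main term. -/
def mainTerm (u : Σ q : ℕ, DirichletCharacter ℂ q) (h : ℝ) : ℂ := if u.2 = 1 then (h : ℂ) else 0

theorem pol_mul_eq (u : Σ q : ℕ, DirichletCharacter ℂ q) [NeZero u.1] (h : ℝ) :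
    pol u.2 * h = mainTerm u h := by
  rw [pol, mainTerm]
  split_ifs <;> simp

/-- The low zeros of the family, with the saving. -/
theorem exists_low_sum : ∃ C : ℝ, 1 ≤ C ∧ ∀ (Q : ℕ) (T x R F : ℝ), 0 < x → C ≤ R → 0 ≤ F →
    R * famL Q T = Real.log x →
    ∀ S : (Σ q : ℕ, DirichletCharacter ℂ q) → Finset ℂ,
      (∀ u ∈ family Q, ∀ ρ ∈ S u, lfun u ρ = 0 ∧ 1 / 2 ≤ ρ.re ∧ |ρ.im| ≤ T ∧
        zoneG ≤ (1 - ρ.re) * famL Q T ∧ Real.exp (-(R * ((1 - ρ.re) * famL Q T)) / 4) ≤ F) →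
        ∑ u ∈ family Q, ∑ ρ ∈ S u, lord u ρ * x ^ (ρ.re - 1) ≤ C * (Real.exp (-(R * zoneG) / 4) * F) := by
  obtain ⟨C, hC, hhead⟩ := exists_head
  refine ⟨C, hC, fun Q T x R F hx hR hF hRL S hS => ?_⟩
  have hterm : ∀ u ∈ family Q, ∀ ρ ∈ S u, lord u ρ * x ^ (ρ.re - 1) ≤
      Real.exp (-(R * zoneG) / 4) * F * (lord u ρ * Real.exp (-(R * ((1 - ρ.re) * famL Q T)) / 2)) :=
    fun u hu ρ hρ => by
    obtain ⟨-, -, -, h4, h5⟩ := hS u hu ρ hρ
    rw [mul_left_comm]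
    refine mul_le_mul_of_nonneg_left ?_ (lord_nonneg u ρ)
    obtain ⟨y, hy⟩ : ∃ y, y = (1 - ρ.re) * famL Q T := ⟨_, rfl⟩
    rw [← hy] at h4 h5 ⊢
    have e : x ^ (ρ.re - 1) = Real.exp (-(R * y) / 4) * Real.exp (-(R * y) / 4) * Real.exp (-(R * y) / 2) := by
      rw [← Real.exp_add, ← Real.exp_add, Real.rpow_def_of_pos hx, ← hRL, hy]
      ring_nf
    rw [e]
    refine mul_le_mul_of_nonneg_right (mul_le_mul (Real.exp_le_exp.2 ?_) h5 (Real.exp_pos _).le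
      (Real.exp_pos _).le) (Real.exp_pos _).le
    have := mul_le_mul_of_nonneg_left h4 (show 0 ≤ R by linarith)
    linarith
  refine (Finset.sum_le_sum fun u hu => Finset.sum_le_sum fun ρ hρ => hterm u hu ρ hρ).trans ?_
  simp only [← Finset.mul_sum]
  rw [mul_comm C]
  refine mul_le_mul_of_nonneg_left (hhead Q T R hR S fun u hu ρ hρ => ?_) (by positivity)
  obtain ⟨h1, h2, h3, -⟩ := hS u hu ρ hρ
  exact ⟨h1, h2, h3⟩

/-- The smallness of everything but the low zeros. -/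
theorem small_le (q : ℕ) {Q P K N : ℕ} (hq0 : 0 < q) (hqQ : q ≤ Q) (hQ : 2 ≤ Q) (hK : K = P + 5)
    (hN : N = 2 * P + 11) {x U d T : ℝ} (hx : 1 ≤ x) (hU : U = x ^ (1 / 8 : ℝ))
    (hd : d = x / (Q : ℝ) ^ K) (hd1 : 1 ≤ d) (hT : T = (Q : ℝ) ^ N) (hlx : Real.log x ≤ (Q : ℝ) ^ 2)
    (hpow : (Q : ℝ) ^ (2 * P + 13) ≤ x ^ (1 / 32 : ℝ)) :
    (d + 1) * (Real.log (4 * x) + 1) + x ^ 2 * famL q U / (d * T) +
        famL q U ^ 2 / d * (x ^ (33 / 16 : ℝ) / U + x ^ (63 / 32 : ℝ)) ≤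
      40 * (x / (Q : ℝ) ^ (P + 3)) := by
  obtain ⟨E, hE⟩ : ∃ E : ℝ, E = Q := ⟨_, rfl⟩
  rw [← hE] at hd hT hlx hpow ⊢
  have hE2 : 2 ≤ E := hE ▸ by exact_mod_cast hQ
  have hE4 : 4 ≤ E ^ 2 := by nlinarith
  have hE0 : 0 < E := by linarith
  have hx0 : 0 < x := by linarith
  have hl4 : Real.log (4 * x) + 1 ≤ 2 * E ^ 2 := by
    rw [Real.log_mul (by norm_num) hx0.ne']
    have : Real.log 4 ≤ 2 := by
      rw [show (4 : ℝ) = 2 * 2 by norm_num, Real.log_mul two_ne_zero two_ne_zero]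
      linarith [Real.log_two_lt_d9]
    linarith
  have hUx : 1 ≤ U ∧ U ≤ x := by
    rw [hU]
    refine ⟨Real.one_le_rpow hx (by norm_num), ?_⟩
    exact (Real.rpow_le_rpow_of_exponent_le hx (by norm_num : (1 / 8 : ℝ) ≤ 1)).trans_eq (Real.rpow_one x)
  have hH : famL q U ≤ 4 * E ^ 2 := by
    have h1 := Real.log_le_log (Nat.cast_pos.2 hq0) (Nat.cast_le.2 hqQ)
    rw [← hE] at h1
    have h2 : Real.log E ≤ E := (Real.log_le_sub_one_of_pos hE0).trans (by linarith)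
    have h3 : Real.log (|U| + 5) ≤ 3 + Real.log x := by
      refine (Real.log_le_log (by positivity) (show |U| + 5 ≤ 6 * x by
        rw [abs_of_pos (by linarith)]; linarith)).trans ?_
      rw [Real.log_mul (by norm_num) hx0.ne']
      have h6 : Real.log 6 ≤ Real.log 2 + Real.log 2 + Real.log 2 := by
        rw [← Real.log_mul two_ne_zero two_ne_zero, ← Real.log_mul (by norm_num) two_ne_zero]
        exact Real.log_le_log (by norm_num) (by norm_num)
      linarith [Real.log_two_lt_d9]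
    rw [famL, lg]
    nlinarith
  have hH0 := famL_pos q U
  have hd0 : 0 < d := by linarith
  have hU0 : 0 < U := by linarith [hUx.1]
  have t1 : (d + 1) * (Real.log (4 * x) + 1) ≤ 4 * (x / E ^ (P + 3)) := by
    refine (mul_le_mul (show d + 1 ≤ 2 * d by linarith) hl4
      (by linarith [Real.log_nonneg (show (1 : ℝ) ≤ 4 * x by linarith)]) (by linarith)).trans (le_of_eq ?_)
    rw [hd, hK, show P + 5 = P + 3 + 2 by ring, pow_add]
    field_simp
    ring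
  have t2 : x ^ 2 * famL q U / (d * T) ≤ 4 * (x / E ^ (P + 3)) := by
    refine (div_le_div_of_nonneg_right (mul_le_mul_of_nonneg_left hH (sq_nonneg x))
      (by rw [hT]; positivity)).trans (le_of_eq_of_le ?_ (mul_le_mul_of_nonneg_left
        (div_le_div_of_nonneg_left hx0.le (by positivity)
          (pow_le_pow_right₀ (by linarith : (1 : ℝ) ≤ E) (show P + 3 ≤ P + 4 by omega))) (by norm_num)))
    rw [hd, hT, hK, hN, show 2 * P + 11 = (P + 4) + (P + 5) + 2 by ring, pow_add E (P + 4 + (P + 5)),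
      pow_add E (P + 4)]
    field_simp
  have t3 : famL q U ^ 2 / d * (x ^ (33 / 16 : ℝ) / U + x ^ (63 / 32 : ℝ)) ≤ 32 * (x / E ^ (P + 3)) := by
    have h33 : x ^ (33 / 16 : ℝ) / U ≤ x ^ (63 / 32 : ℝ) := by
      rw [hU, ← Real.rpow_sub hx0]
      exact Real.rpow_le_rpow_of_exponent_le hx (by norm_num)
    refine (mul_le_mul (div_le_div_of_nonneg_right (pow_le_pow_left₀ hH0.le hH 2) hd0.le)
      (show _ ≤ 2 * x ^ (63 / 32 : ℝ) by linarith) (by positivity) (by positivity)).trans ?_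
    have hsplit : x ^ (63 / 32 : ℝ) * x ^ (1 / 32 : ℝ) = x ^ 2 := by
      rw [← Real.rpow_add hx0]
      norm_num
    obtain ⟨X, hX⟩ : ∃ X, X = x ^ (63 / 32 : ℝ) := ⟨_, rfl⟩
    have hX0 : 0 ≤ X := hX ▸ by positivity
    rw [← hX] at hsplit ⊢
    rw [hd, div_div_eq_mul_div, div_mul_eq_mul_div, div_le_iff₀ hx0]
    rw [show 32 * (x / E ^ (P + 3)) * x = 32 * x ^ 2 / E ^ (P + 3) by ring, le_div_iff₀ (by positivity)]
    have h1 : X * E ^ (2 * P + 12) ≤ x ^ 2 := by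
      refine le_trans ?_ hsplit.le
      exact mul_le_mul_of_nonneg_left ((pow_le_pow_right₀ (by linarith) (by omega)).trans hpow) hX0
    refine le_trans (le_of_eq ?_) (mul_le_mul_of_nonneg_left h1 (by norm_num : (0 : ℝ) ≤ 32))
    rw [hK, show 2 * P + 12 = (P + 3) + (P + 5) + 4 by ring, pow_add E (P + 3 + (P + 5)), pow_add E (P + 3)]
    ring
  linarith

/-- **Gallagher's prime number theorem.** -/
theorem exists_gallagher : ∃ C c : ℝ, ∃ M : ℕ, 1 ≤ C ∧ 0 < c ∧ ∀ Q : ℕ, 2 ≤ Q → ∀ x h : ℝ,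
    (Q : ℝ) ^ M ≤ x → Real.log x ≤ Real.log Q ^ 2 → x / Q ≤ h → h ≤ x →
      ∑ u ∈ family Q, ‖psiInt u x h - mainTerm u h‖ ≤
          C * h * Real.exp (-(c * (Real.log x / Real.log Q))) ∨
        ∃ u₁ ∈ family Q, u₁.2 ≠ 1 ∧ u₁.2 ^ 2 = 1 ∧ ∃ β : ℝ, lfun u₁ β = 0 ∧ 1 / 2 < β ∧
          (1 - β) * Real.log Q ≤ 1 ∧
          ∑ u ∈ family Q, ‖psiInt u x h - mainTerm u h + (if u = u₁ then (excG x h β : ℂ) else 0)‖ ≤
            C * ((1 - β) * Real.log Q) * h * Real.exp (-(c * (Real.log x / Real.log Q))) := by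
  obtain ⟨C₁, hC₁, hone⟩ := exists_one_char
  obtain ⟨Cl, hCl, hlow⟩ := exists_low_sum
  obtain ⟨Cr, cr, hCr, hcr, hrep⟩ := exists_repulsion
  obtain ⟨G, hG, hsieg⟩ := exists_one_sub_zero_ge
  obtain ⟨P, hP⟩ : ∃ P : ℕ, P = ⌈G⌉₊ + 1 := ⟨_, rfl⟩
  obtain ⟨N, hN⟩ : ∃ N : ℕ, N = 2 * P + 11 := ⟨_, rfl⟩
  obtain ⟨κ, hκ⟩ : ∃ κ : ℝ, κ = 7 * ((N : ℝ) + 2) := ⟨_, rfl⟩
  have hκ0 : 0 < κ := by rw [hκ]; positivity
  obtain ⟨M, hM⟩ : ∃ M : ℕ, M = 32 * (2 * P + 13) + ⌈κ * (Cl + 4 * Cr)⌉₊ := ⟨_, rfl⟩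
  obtain ⟨c, hc⟩ : ∃ c : ℝ, c = min 1 (zoneG / (4 * κ)) := ⟨_, rfl⟩
  have hz := zoneG_pos
  have hc0 : 0 < c := hc ▸ lt_min one_pos (by positivity)
  obtain ⟨C, hC⟩ : ∃ C : ℝ, C = 40 * C₁ * (2 * Real.exp (4 * G) + 1) + Cl * (1 + κ / cr) := ⟨_, rfl⟩
  have hC1 : 1 ≤ C := by
    have h1 : 1 ≤ Cl * (1 + κ / cr) := one_le_mul_of_one_le_of_one_le hCl (le_add_of_nonneg_right (by positivity))
    have h2 : 0 ≤ 40 * C₁ * (2 * Real.exp (4 * G) + 1) := by positivity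
    rw [hC]; linarith
  refine ⟨C, c, M, hC1, hc0, fun Q hQ x h hQx hlx hh hhx => ?_⟩
  have hE2 : (2 : ℝ) ≤ Q := by exact_mod_cast hQ
  have hlQ : 0.69 ≤ Real.log Q := by
    linarith [Real.log_two_gt_d9, Real.log_le_log two_pos hE2]
  obtain ⟨lQ, hlQdef⟩ : ∃ l, l = Real.log Q := ⟨_, rfl⟩
  rw [← hlQdef] at hlx hlQ ⊢
  have hx1 : 1 ≤ x := le_trans (one_le_pow₀ (by linarith)) hQx
  have hx0 : 0 < x := by linarith
  have hh0 : 0 ≤ h := le_trans (by positivity) hh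
  have hMlx : (M : ℝ) * lQ ≤ Real.log x := by
    rw [hlQdef, ← Real.log_pow]
    exact Real.log_le_log (by positivity) hQx
  have hlQQ : lQ ≤ Q := hlQdef ▸ (Real.log_le_sub_one_of_pos (by linarith)).trans (by linarith)
  -- the parameters
  obtain ⟨U, hU⟩ : ∃ U : ℝ, U = x ^ (1 / 8 : ℝ) := ⟨_, rfl⟩
  obtain ⟨T, hT⟩ : ∃ T : ℝ, T = (Q : ℝ) ^ N := ⟨_, rfl⟩
  obtain ⟨d, hd⟩ : ∃ d : ℝ, d = x / (Q : ℝ) ^ (P + 5) := ⟨_, rfl⟩
  have hT1 : 1 ≤ T := hT ▸ one_le_pow₀ (by linarith)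
  have hU1 : 1 ≤ U := hU ▸ Real.one_le_rpow hx1 (by norm_num)
  have hpowle : ∀ (j : ℕ) (e : ℝ), 0 ≤ e → (j : ℝ) ≤ (M : ℝ) * e → (Q : ℝ) ^ j ≤ x ^ e := fun j e he hje => by
    rw [← Real.rpow_natCast]
    refine (Real.rpow_le_rpow_of_exponent_le (by linarith) hje).trans ?_
    rw [Real.rpow_mul (by linarith), Real.rpow_natCast]
    exact Real.rpow_le_rpow (by positivity) hQx he
  have hM32 : ((32 * (2 * P + 13) : ℕ) : ℝ) ≤ M := Nat.cast_le.2 (by omega)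
  have hMκ : κ * (Cl + 4 * Cr) ≤ M := by
    refine (Nat.le_ceil _).trans (Nat.cast_le.2 ?_)
    omega
  have hTU : T ≤ U := by
    rw [hT, hU]
    refine hpowle N _ (by norm_num) ?_
    rw [hN]
    push_cast at hM32 ⊢
    linarith
  have hd1 : 1 ≤ d := by
    rw [hd, one_le_div (by positivity)]
    refine le_trans (pow_le_pow_right₀ (by linarith) ?_) hQx
    omega
  have hdx : d ≤ x := hd ▸ div_le_self hx0.le (one_le_pow₀ (by linarith))
  obtain ⟨L, hL⟩ : ∃ L, L = famL Q T := ⟨_, rfl⟩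
  have hL5 : 5 ≤ L := hL ▸ five_le_famL Q T
  have hLκ : L ≤ κ * lQ := by
    have h1 : Real.log (|T| + 5) ≤ (N : ℝ) * lQ + 3 := by
      rw [abs_of_pos (by linarith), hlQdef]
      refine (Real.log_le_log (by linarith) (show T + 5 ≤ 8 * T by linarith)).trans ?_
      rw [Real.log_mul (by norm_num) (by linarith), hT, Real.log_pow,
        show (8 : ℝ) = 2 * 2 * 2 by norm_num, Real.log_mul (by norm_num) two_ne_zero,
        Real.log_mul two_ne_zero two_ne_zero]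
      linarith [Real.log_two_lt_d9]
    rw [hL, famL, lg, ← hlQdef, hκ]
    have := mul_nonneg (Nat.cast_nonneg N : (0 : ℝ) ≤ N) (show 0 ≤ lQ by linarith)
    linarith
  have hLlQ : lQ ≤ L := by
    rw [hL, famL, lg, ← hlQdef]
    linarith [Real.log_nonneg (show (1 : ℝ) ≤ |T| + 5 by linarith [abs_nonneg T])]
  obtain ⟨R, hR⟩ : ∃ R, R = Real.log x / L := ⟨_, rfl⟩
  have hRL : R * L = Real.log x := hR ▸ div_mul_cancel₀ _ (by linarith)
  have hRbig : Cl + 4 * Cr ≤ R := by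
    rw [hR, le_div_iff₀ (by linarith)]
    refine (mul_le_mul_of_nonneg_left hLκ (by linarith)).trans ?_
    have := mul_le_mul_of_nonneg_right hMκ (show 0 ≤ lQ by linarith)
    linarith
  have hdecay : Real.exp (-(R * zoneG) / 4) ≤ Real.exp (-(c * (Real.log x / lQ))) := by
    rw [Real.exp_le_exp]
    have h1 : Real.log x / lQ ≤ κ * R := by
      rw [div_le_iff₀ (by linarith), ← hRL]
      calc R * L ≤ R * (κ * lQ) := mul_le_mul_of_nonneg_left hLκ (by linarith)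
        _ = _ := by ring
    have h2 := mul_le_mul_of_nonneg_left h1 hc0.le
    have h3 : c * κ ≤ zoneG / 4 := by
      have := mul_le_mul_of_nonneg_right (hc ▸ min_le_right 1 (zoneG / (4 * κ))) hκ0.le
      refine this.trans (le_of_eq ?_)
      field_simp
    have h4 := mul_le_mul_of_nonneg_right h3 (show 0 ≤ R by linarith)
    linarith
  -- everything but the low zeros
  obtain ⟨ε, hε⟩ : ∃ ε : ℝ, ε = ((Q : ℝ) ^ P)⁻¹ := ⟨_, rfl⟩
  have hε0 : 0 < ε := by rw [hε]; positivity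
  have hlx2 : Real.log x ≤ (Q : ℝ) ^ 2 := hlx.trans (pow_le_pow_left₀ (by linarith) hlQQ 2)
  have hsmall : ∀ u ∈ family Q, C₁ * ((d + 1) * (Real.log (4 * x) + 1) + x ^ 2 * famL u.1 U / (d * T) +
      famL u.1 U ^ 2 / d * (x ^ (33 / 16 : ℝ) / U + x ^ (63 / 32 : ℝ))) ≤
      40 * C₁ * (x / (Q : ℝ) ^ (P + 3)) := fun u hu => by
    obtain ⟨hu1, huQ, -⟩ := mem_family.1 hu
    have h1 := mul_le_mul_of_nonneg_left (small_le u.1 (K := P + 5) (N := N) hu1 huQ hQ rfl hN hx1 hU hd hd1 hT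
      hlx2 (hpowle _ _ (by norm_num) (by push_cast at hM32 ⊢; linarith))) (show 0 ≤ C₁ by linarith)
    linarith
  have hsum : (family Q).card • (40 * C₁ * (x / (Q : ℝ) ^ (P + 3))) ≤ 40 * C₁ * (h * ε) := by
    rw [nsmul_eq_mul, mul_left_comm]
    refine mul_le_mul_of_nonneg_left ((mul_le_mul_of_nonneg_right (card_family_le Q) (by positivity)).trans ?_)
      (by positivity)
    refine le_trans (le_of_eq ?_) (mul_le_mul_of_nonneg_right hh hε0.le)
    rw [hε, pow_add]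
    field_simp
  have hεQ : ε ≤ Real.exp (-lQ) := by
    rw [hε, hlQdef, Real.exp_neg, Real.exp_log (by linarith)]
    exact inv_anti₀ (by linarith) (le_self_pow₀ (by linarith) (by omega))
  have hdecay0 : Real.exp (-lQ) ≤ Real.exp (-(c * (Real.log x / lQ))) := by
    rw [Real.exp_le_exp, neg_le_neg_iff]
    have h1 : Real.log x / lQ ≤ lQ := by rw [div_le_iff₀ (by linarith), ← sq]; exact hlx
    have h2 := mul_le_mul_of_nonneg_left h1 hc0.le
    have h3 := mul_le_mul_of_nonneg_right (hc ▸ min_le_left 1 (zoneG / (4 * κ))) (show 0 ≤ lQ by linarith)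
    linarith
  -- the sets of zeros
  have hSex : ∀ u : Σ q : ℕ, DirichletCharacter ℂ q, ∃ S : Finset ℂ, u ∈ family Q →
      (∀ ρ ∈ S, lfun u ρ = 0 ∧ 1 / 2 ≤ ρ.re) ∧
      (∀ ρ : ℂ, lfun u ρ = 0 → 31 / 32 < ρ.re → ρ.im = 0 → ρ ∈ S) ∧
      ∀ E : Finset ℂ, E ⊆ S → E.card ≤ 1 → (∀ ρ ∈ E, ρ.im = 0 ∧ lord u ρ = 1) →
        ‖psiInt u x h - mainTerm u h + ∑ ρ ∈ E, (excG x h ρ.re : ℂ)‖ ≤
          40 * C₁ * (x / (Q : ℝ) ^ (P + 3)) +
            h * ∑ ρ ∈ (S \ E).filter (fun ρ => |ρ.im| ≤ T), lord u ρ * x ^ (ρ.re - 1) := fun u => by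
    by_cases hu : u ∈ family Q
    · have : NeZero u.1 := ⟨Nat.one_le_iff_ne_zero.1 (mem_family.1 hu).1⟩
      obtain ⟨S, hS1, hS2, hS3⟩ := hone u.1 u.2 U hU1
      refine ⟨S, fun _ => ⟨fun ρ hρ => ?_, fun ρ h1 h2 h3 => ?_, fun E hE hEc hE1 => ?_⟩⟩
      · rw [lfun_eq]; exact ⟨(hS1 ρ hρ).1, (hS1 ρ hρ).2.1⟩
      · rw [lfun_eq] at h1
        exact hS2 ρ h1 h2 (by rw [h3, abs_zero]; linarith)
      · have h4 := hS3 E hE hEc (fun ρ hρ => ⟨(hE1 ρ hρ).1, by
          have := (hE1 ρ hρ).2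
          rw [lord, lfun_eq] at this
          exact_mod_cast this⟩) x h d T hx1 hh0 hhx (by linarith) hdx hT1
        rw [← psiInt_eq u hh0, pol_mul_eq] at h4
        refine h4.trans (add_le_add (hsmall u hu) (le_of_eq ?_))
        simp only [lord, lfun_eq]
    · exact ⟨∅, fun hu' => absurd hu' hu⟩
  choose S hS using hSex
  by_cases hexc : ∃ u ∈ family Q, ∃ ρ ∈ S u, |ρ.im| ≤ T ∧ 1 - ρ.re < zoneG / L
  · -- the exceptional zero
    obtain ⟨u₁, hu₁, ρ₁, hρ₁S, hρ₁i, hρ₁d⟩ := hexc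
    have : NeZero u₁.1 := ⟨Nat.one_le_iff_ne_zero.1 (mem_family.1 hu₁).1⟩
    have hρ₁0 := ((hS u₁ hu₁).1 ρ₁ hρ₁S).1
    have hz' := hρ₁0
    rw [lfun_eq] at hz'
    obtain ⟨hne1, hsq, him⟩ := zone (Q := Q) (T := T) (mem_family.1 hu₁).2.1 hz' hρ₁i (hL ▸ hρ₁d)
    obtain ⟨β, hβ⟩ : ∃ β : ℝ, β = ρ₁.re := ⟨_, rfl⟩
    have hρβ : (β : ℂ) = ρ₁ := Complex.ext (by simp [hβ]) (by simp [him])
    have hδ0 : 0 < 1 - β := by rw [hβ]; linarith [re_lt_one_of_clear hz']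
    have hzL := zoneG_div_le (show 1 ≤ L by linarith)
    have hδlQ : (1 - β) * lQ ≤ 1 := by
      refine (mul_le_mul_of_nonneg_left hLlQ hδ0.le).trans ?_
      have h1 := mul_le_mul_of_nonneg_right hρ₁d.le (show 0 ≤ L by linarith)
      rw [div_mul_cancel₀ _ (by linarith)] at h1
      rw [hβ]
      linarith [show zoneG ≤ 1 from ((min_le_left _ _).trans (min_le_right _ _)).trans (by norm_num)]
    refine Or.inr ⟨u₁, hu₁, hne1, hsq, β, hρβ.symm ▸ hρ₁0, by rw [hβ]; linarith [hzL.2], hδlQ, ?_⟩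
    obtain ⟨E, hE⟩ : ∃ E : (Σ q : ℕ, DirichletCharacter ℂ q) → Finset ℂ,
        E = fun u => if u = u₁ then {ρ₁} else ∅ := ⟨_, rfl⟩
    have hEu : ∀ u ∈ family Q, ‖psiInt u x h - mainTerm u h + (if u = u₁ then (excG x h β : ℂ) else 0)‖ ≤
        40 * C₁ * (x / (Q : ℝ) ^ (P + 3)) +
          h * ∑ ρ ∈ (S u \ E u).filter (fun ρ => |ρ.im| ≤ T), lord u ρ * x ^ (ρ.re - 1) := fun u hu => by
      have h1 := (hS u hu).2.2 (E u) ?_ ?_ ?_
      · refine le_of_eq_of_le ?_ h1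
        congr 2
        rw [hE]
        simp only
        split_ifs <;> simp [hβ]
      · simp only [hE]
        split_ifs with he
        · subst he; exact Finset.singleton_subset_iff.2 hρ₁S
        · exact Finset.empty_subset _
      · simp only [hE]
        split_ifs <;> simp
      · simp only [hE]
        split_ifs with he
        · subst he
          intro ρ hρ
          rw [Finset.mem_singleton] at hρ
          subst hρ
          exact ⟨him, (zone_unique hu hu hρ₁0 hρ₁i (hL ▸ hρ₁d) hρ₁0 hρ₁i (hL ▸ hρ₁d)).2.2⟩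
        · simp
    refine (Finset.sum_le_sum hEu).trans ?_
    rw [Finset.sum_add_distrib, Finset.sum_const, ← Finset.mul_sum]
    have hsieg' : 2⁻¹ * (Real.exp (4 * G))⁻¹ * ε ≤ (1 - β) * lQ * Real.exp (-lQ) := by
      have hlg : lg u₁.1 ≤ lQ + 4 := by
        rw [lg, hlQdef]
        linarith [Real.log_le_log (Nat.cast_pos.2 (NeZero.pos u₁.1))
          (Nat.cast_le.2 (mem_family.1 hu₁).2.1 : (u₁.1 : ℝ) ≤ Q)]
      have h1 : Real.exp (-(G * (lQ + 4))) ≤ 1 - β :=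
        (Real.exp_le_exp.2 (neg_le_neg (mul_le_mul_of_nonneg_left hlg (by linarith)))).trans
          (hsieg u₁.1 u₁.2 hne1 hsq β (by rw [hρβ, ← clear_of_ne_one hne1]; exact hz'))
      have h2 : ε ≤ Real.exp (-((G + 1) * lQ)) := by
        rw [hε, ← Real.exp_log (show (0 : ℝ) < ((Q : ℝ) ^ P)⁻¹ by positivity), Real.exp_le_exp, Real.log_inv,
          Real.log_pow, ← hlQdef, neg_le_neg_iff, hP]
        refine mul_le_mul_of_nonneg_right ?_ (by linarith)
        push_cast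
        linarith [Nat.le_ceil G]
      calc 2⁻¹ * (Real.exp (4 * G))⁻¹ * ε ≤ 2⁻¹ * (Real.exp (4 * G))⁻¹ * Real.exp (-((G + 1) * lQ)) :=
            mul_le_mul_of_nonneg_left h2 (by positivity)
        _ = Real.exp (-(G * (lQ + 4))) * 2⁻¹ * Real.exp (-lQ) := by
            rw [← Real.exp_neg, mul_assoc, ← Real.exp_add, mul_comm _ (2⁻¹ : ℝ), mul_assoc, ← Real.exp_add]
            ring_nf
        _ ≤ _ := by
            refine mul_le_mul_of_nonneg_right (mul_le_mul h1 ?_ (by norm_num) hδ0.le) (Real.exp_pos _).le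
            linarith
    have hlowsum := hlow Q T x R ((1 - β) * L / cr) hx0 (by linarith) (by positivity) (hL ▸ hRL)
      (fun u => (S u \ E u).filter fun ρ => |ρ.im| ≤ T) fun u hu ρ hρ => by
        obtain ⟨hρ', hρi⟩ := Finset.mem_filter.1 hρ
        obtain ⟨hρS, hρE⟩ := Finset.mem_sdiff.1 hρ'
        obtain ⟨hρ0, hρ12⟩ := (hS u hu).1 ρ hρS
        have : NeZero u.1 := ⟨Nat.one_le_iff_ne_zero.1 (mem_family.1 hu).1⟩
        have hne : u ≠ u₁ ∨ ρ ≠ (β : ℂ) := by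
          by_contra hboth
          simp only [not_or, not_not] at hboth
          exact hρE (by simp [hE, hboth.1, hboth.2, hρβ])
        rw [← hL]
        have hy : zoneG ≤ (1 - ρ.re) * L := by
          by_contra hlt
          have hρz : 1 - ρ.re < zoneG / L := by rw [lt_div_iff₀ (by linarith)]; exact not_le.1 hlt
          obtain ⟨e1, e2, -⟩ := zone_unique hu hu₁ hρ0 hρi (hL ▸ hρz) hρ₁0 hρ₁i (hL ▸ hρ₁d)
          exact hne.elim (fun h' => h' e1) fun h' => h' (e2.trans hρβ.symm)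
        refine ⟨hρ0, hρ12, hρi, hy, ?_⟩
        have h1 := hrep Q T u₁ hu₁ hne1 hsq β (hρβ.symm ▸ hρ₁0) u hu ρ hρ0 hρi hne
        rw [← hL] at h1
        rw [le_div_iff₀ hcr]
        have h2 : Real.exp (-(R * ((1 - ρ.re) * L)) / 4) * Real.exp (Cr * ((1 - ρ.re) * L)) ≤ 1 := by
          rw [← Real.exp_add, Real.exp_le_one_iff]
          have := mul_le_mul_of_nonneg_right (show 4 * Cr ≤ R by linarith) (hz.le.trans hy)
          linarith
        calc Real.exp (-(R * ((1 - ρ.re) * L)) / 4) * cr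
            ≤ Real.exp (-(R * ((1 - ρ.re) * L)) / 4) * ((1 - β) * L * Real.exp (Cr * ((1 - ρ.re) * L))) :=
              mul_le_mul_of_nonneg_left h1 (Real.exp_pos _).le
          _ = (1 - β) * L * (Real.exp (-(R * ((1 - ρ.re) * L)) / 4) * Real.exp (Cr * ((1 - ρ.re) * L))) := by ring
          _ ≤ _ := mul_le_of_le_one_right (by positivity) h2
    refine (add_le_add hsum (mul_le_mul_of_nonneg_left hlowsum hh0)).trans ?_
    obtain ⟨W, hW⟩ : ∃ W, W = (1 - β) * lQ * h * Real.exp (-(c * (Real.log x / lQ))) := ⟨_, rfl⟩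
    have hlQ0 : 0 ≤ (1 - β) * lQ := mul_nonneg hδ0.le (by linarith)
    have hW0 : 0 ≤ W := by rw [hW]; positivity
    have p1 : h * ε ≤ 2 * Real.exp (4 * G) * W := by
      have h1 := hsieg'.trans (mul_le_mul_of_nonneg_left hdecay0 hlQ0)
      rw [mul_assoc, inv_mul_le_iff₀ two_pos, inv_mul_le_iff₀ (Real.exp_pos _)] at h1
      have := mul_le_mul_of_nonneg_left h1 hh0
      rw [hW]
      linarith
    have p2 : h * (Cl * (Real.exp (-(R * zoneG) / 4) * ((1 - β) * L / cr))) ≤ Cl * (κ / cr) * W := by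
      have h1 : (1 - β) * L / cr ≤ κ / cr * ((1 - β) * lQ) := by
        rw [div_mul_eq_mul_div]
        refine div_le_div_of_nonneg_right ?_ hcr.le
        have := mul_le_mul_of_nonneg_left hLκ hδ0.le
        linarith
      refine (mul_le_mul_of_nonneg_left (mul_le_mul_of_nonneg_left (mul_le_mul hdecay h1 (by positivity)
        (Real.exp_pos _).le) (by linarith)) hh0).trans (le_of_eq ?_)
      rw [hW]; ring
    rw [show C * ((1 - β) * lQ) * h * Real.exp (-(c * (Real.log x / lQ))) = C * W by rw [hW]; ring, hC]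
    have p3 : 0 ≤ (40 * C₁ + Cl) * W := by positivity
    have := mul_le_mul_of_nonneg_left p1 (show 0 ≤ 40 * C₁ by linarith)
    linarith
  · refine Or.inl ?_
    have hu' : ∀ u ∈ family Q, ‖psiInt u x h - mainTerm u h‖ ≤ 40 * C₁ * (x / (Q : ℝ) ^ (P + 3)) +
        h * ∑ ρ ∈ (S u).filter (fun ρ => |ρ.im| ≤ T), lord u ρ * x ^ (ρ.re - 1) := fun u hu => by
      simpa using (hS u hu).2.2 ∅ (Finset.empty_subset _) (by simp) (by simp)
    refine (Finset.sum_le_sum hu').trans ?_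
    rw [Finset.sum_add_distrib, Finset.sum_const, ← Finset.mul_sum]
    have hlowsum := hlow Q T x R 1 hx0 (by linarith) zero_le_one (hL ▸ hRL)
      (fun u => (S u).filter fun ρ => |ρ.im| ≤ T) fun u hu ρ hρ => by
        obtain ⟨hρS, hρi⟩ := Finset.mem_filter.1 hρ
        obtain ⟨hρ0, hρ12⟩ := (hS u hu).1 ρ hρS
        rw [← hL]
        have hy : zoneG ≤ (1 - ρ.re) * L := by
          by_contra hlt
          exact hexc ⟨u, hu, ρ, hρS, hρi, by rw [lt_div_iff₀ (by linarith)]; exact not_le.1 hlt⟩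
        refine ⟨hρ0, hρ12, hρi, hy, Real.exp_le_one_iff.2 ?_⟩
        have := mul_nonneg (show 0 ≤ R by linarith) (hz.le.trans hy)
        linarith
    refine (add_le_add hsum (mul_le_mul_of_nonneg_left hlowsum hh0)).trans ?_
    rw [mul_one]
    obtain ⟨W, hW⟩ : ∃ W, W = h * Real.exp (-(c * (Real.log x / lQ))) := ⟨_, rfl⟩
    have hW0 : 0 ≤ W := by rw [hW]; positivity
    have p1 : h * ε ≤ W := hW ▸ mul_le_mul_of_nonneg_left (hεQ.trans hdecay0) hh0
    have p2 : h * (Cl * Real.exp (-(R * zoneG) / 4)) ≤ Cl * W := by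
      rw [hW, mul_left_comm]
      exact mul_le_mul_of_nonneg_left (mul_le_mul_of_nonneg_left hdecay hh0) (by linarith)
    rw [show C * h * Real.exp (-(c * (Real.log x / lQ))) = C * W by rw [hW]; ring, hC]
    have p3 : 0 ≤ (80 * C₁ * Real.exp (4 * G) + Cl * (κ / cr)) * W := by positivity
    have := mul_le_mul_of_nonneg_left p1 (show 0 ≤ 40 * C₁ by linarith)
    linarith

end FA.Gallagher

end
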