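import Fermat.Agent.Gallagher.Zone
import Fermat.Agent.LinnikPrime.Repulsion
import Fermat.Agent.LinnikPrime.LOne

/-!
# The repulsion of Deuring and Heilbronn at any height and across moduli

If `β` is a real zero of the real character `χ₁` and `ρ` any other zero, `|im ρ| ≤ T`, of a primitive
character of modulus `≤ Q`, then `c ≤ (1 - β) L exp (C (1 - re ρ) L)`: as `β` tends to `1` all the other
zeros retreat like `log (1 / ((1 - β) L)) / L`.
-/

set_option autoImplicit false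
set_option linter.unusedSectionVars false

noncomputable section

open Complex
open DirichletCharacter (changeLevel LFunction)
open FA.LinnikPrime (clear pol pol_one pol_of_ne_one clear_of_ne_one re_lt_one_of_clear mom mom_one_level
  zmom re_comb_nonneg chTerm chTerm_mul chTerm_im_eq_zero abs_re_chTerm_le line seen seenSum seenPole
  pole_sub_seenSum_le seenSum_erase sum_Icc_mul_pow_le mem_seen_self lg exists_one_sub_zero_ge)
open scoped Nat Real

namespace FA.Gallagher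

variable {q : ℕ} [NeZero q]

theorem mom_re_mul_le (χ : DirichletCharacter ℂ q) {j : ℕ} (hj : 1 ≤ j) {x : ℝ} (hx : 0 < x)
    (hx8 : x ≤ 1 / 8) (t : ℝ) :
    (mom χ (2 * j - 1) x t).re * x ^ (2 * j) ≤
      (pol χ * seenPole j x t).re - seenSum j x t (nearAt χ t) + errAt q (2 * j - 1) t * x ^ (2 * j) := by
  have hk : 2 * j - 1 + 1 = 2 * j := by omega
  have h := (le_abs_self _).trans
    ((abs_re_le_norm _).trans (mom_formula χ (2 * j - 1) hx hx8 t))
  rw [sub_re, sub_re, hk] at h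
  have hx0 : (0 : ℝ) ≤ x ^ (2 * j) := by positivity
  have e1 : (pol χ * (((x : ℂ) + (t : ℂ) * I) ^ (2 * j))⁻¹).re * x ^ (2 * j) =
      (pol χ * seenPole j x t).re := by
    rw [← re_mul_ofReal, seenPole, ← pow_mul, div_pow, ofReal_pow]
    congr 1
    ring
  have e2 : (zsumAt χ (2 * j - 1) x t).re * x ^ (2 * j) = seenSum j x t (nearAt χ t) := by
    rw [← re_mul_ofReal, seenSum, zsumAt, ← Multiset.sum_map_mul_right]
    refine congrArg Complex.re (congrArg Multiset.sum (Multiset.map_congr rfl fun w _ => ?_))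
    rw [seen, hk, ← pow_mul, div_pow, ofReal_pow]
    ring
  have := mul_le_mul_of_nonneg_right h hx0
  rw [sub_mul, sub_mul, e1, e2] at this
  linarith

theorem sum_norm_seen_le (χ : DirichletCharacter ℂ q) {t : ℝ} {T : Multiset ℂ} (hT : T ≤ nearAt χ t)
    {x : ℝ} (hx : 0 < x) (hx8 : x ≤ 1 / 8) :
    ((T.map (seen x t)).map fun z => ‖z‖).sum ≤ 2 + landG * ht q t * x := by
  refine le_trans ?_ (sum_sq_le χ hx hx8 t)
  obtain ⟨U, hU⟩ := Multiset.le_iff_exists_add.1 hT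
  rw [Multiset.map_map, hU, Multiset.map_add, Multiset.sum_add]
  refine le_add_of_le_of_nonneg (le_of_eq (congrArg Multiset.sum (Multiset.map_congr rfl fun w _ => ?_)))
    (Multiset.sum_nonneg fun y hy => ?_)
  · simp only [Function.comp_apply, seen, norm_pow, norm_div, norm_real, Real.norm_of_nonneg hx.le]
  · obtain ⟨z, -, rfl⟩ := Multiset.mem_map.1 hy
    positivity

theorem ht_zero_le (q : ℕ) (t : ℝ) : ht q 0 ≤ ht q t := by
  rw [ht, ht, abs_zero]
  linarith [Real.log_le_log (show (0 : ℝ) < 0 + 3 by norm_num) (show 0 + 3 ≤ |t| + 3 by linarith [abs_nonneg t])]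

/-- A pole far off is an error. -/
theorem seenPole_re_le {j : ℕ} (hj : 1 ≤ j) {x : ℝ} (hx : 0 < x) {t : ℝ} (ht' : 1 / 8 ≤ |t|) (q : ℕ) :
    (seenPole j x t).re ≤ errAt q (2 * j - 1) t * x ^ (2 * j) := by
  refine (re_le_norm _).trans ?_
  have hn : 1 / 8 ≤ ‖(x : ℂ) + (t : ℂ) * I‖ := ht'.trans (le_trans (by simp) (abs_im_le_norm _))
  rw [seenPole, ← pow_mul, norm_pow, norm_div, norm_real, Real.norm_of_nonneg hx.le]
  refine (pow_le_pow_left₀ (by positivity) (div_le_div_of_nonneg_left hx.le (by norm_num) hn) _).trans ?_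
  rw [div_pow, one_div, inv_pow, div_inv_eq_mul, mul_comm]
  refine mul_le_mul_of_nonneg_right ?_ (by positivity)
  rw [errAt, show 2 * j - 1 + 1 = 2 * j by omega]
  refine (pow_le_pow_left₀ (by norm_num) (by norm_num : (8 : ℝ) ≤ 32) _).trans
    (le_mul_of_one_le_left (by positivity) ?_)
  refine one_le_mul_of_one_le_of_one_le (le_add_of_nonneg_left (Nat.cast_nonneg _)) ?_
  have h1 : 1 ≤ rimG * ht q t := one_le_mul_of_one_le_of_one_le one_le_rimG (by linarith [five_le_ht q t])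
  linarith

/-- The lists at height `γ`, with `β` removed against a pole near it. -/
theorem exists_side {χ₁ χ : DirichletCharacter ℂ q} (h₁ : χ₁ ≠ 1) (h₁2 : χ₁ ^ 2 = 1) {β : ℝ}
    (hβ : clear χ₁ β = 0) (hβ' : 15 / 16 ≤ β) {ρ : ℂ} (hρ : ρ ∈ nearAt χ ρ.im)
    (hne : χ ≠ χ₁ ∨ ρ ≠ (β : ℂ)) :
    ∃ T₂ T₃ : Multiset ℂ, T₂ ≤ nearAt χ ρ.im ∧ T₃ ≤ nearAt (χ₁ * χ) ρ.im ∧ ρ ∈ T₂ ∧
      ∀ (j : ℕ), 1 ≤ j → ∀ x : ℝ, 0 < x →
        (pol χ * seenPole j x ρ.im).re - seenSum j x ρ.im (nearAt χ ρ.im) +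
          ((pol (χ₁ * χ) * seenPole j x ρ.im).re - seenSum j x ρ.im (nearAt (χ₁ * χ) ρ.im)) ≤
        2 * j * ((1 - β) / x) + errAt q (2 * j - 1) ρ.im * x ^ (2 * j) -
          seenSum j x ρ.im T₂ - seenSum j x ρ.im T₃ := by
  have hβ1 : β ≤ 1 := by simpa using (re_lt_one_of_clear hβ).le
  have hnn : ∀ (j : ℕ) (x : ℝ), 0 < x → 0 ≤ 2 * (j : ℝ) * ((1 - β) / x) := fun j x hx =>
    mul_nonneg (by positivity) (div_nonneg (by linarith) hx.le)
  have herr : ∀ (j : ℕ) (x : ℝ), 0 < x → 0 ≤ errAt q (2 * j - 1) ρ.im * x ^ (2 * j) := fun j x hx =>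
    mul_nonneg (errAt_nonneg _ _ _) (by positivity)
  by_cases hγ : |ρ.im| ≤ 1 / 8
  · have hβm : (β : ℂ) ∈ nearAt χ₁ ρ.im :=
      mem_nearAt hβ (by simpa using hβ') (by rw [ofReal_im, zero_sub, abs_neg]; exact hγ)
    by_cases hone : χ = 1
    · subst hone
      rw [mul_one]
      refine ⟨_, (nearAt χ₁ ρ.im).erase (β : ℂ), le_rfl, Multiset.erase_le _ _, hρ, fun j _ x hx => ?_⟩
      rw [pol_one, one_mul, pol_of_ne_one h₁, zero_mul, zero_re]
      linarith [pole_sub_seenSum_le hβm hβ1 j hx ρ.im, herr j x hx]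
    by_cases heq : χ = χ₁
    · subst heq
      rw [← sq, h₁2]
      refine ⟨(nearAt χ ρ.im).erase (β : ℂ), _, Multiset.erase_le _ _, le_rfl,
        (Multiset.mem_erase_of_ne (hne.resolve_left fun h => h rfl)).2 hρ, fun j _ x hx => ?_⟩
      rw [pol_one, one_mul, pol_of_ne_one h₁, zero_mul, zero_re]
      linarith [pole_sub_seenSum_le hβm hβ1 j hx ρ.im, herr j x hx]
    · have hprod : χ₁ * χ ≠ 1 := fun h => heq (by
        calc χ = χ₁ * χ₁ * χ := by rw [← sq, h₁2, one_mul]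
          _ = χ₁ := by rw [mul_assoc, h, mul_one])
      refine ⟨_, _, le_rfl, le_rfl, hρ, fun j _ x hx => ?_⟩
      rw [pol_of_ne_one hone, pol_of_ne_one hprod, zero_mul, zero_re]
      linarith [hnn j x hx, herr j x hx]
  · refine ⟨_, _, le_rfl, le_rfl, hρ, fun j hj x hx => ?_⟩
    have hp := seenPole_re_le hj hx (not_le.1 hγ).le q
    by_cases hone : χ = 1
    · subst hone
      rw [mul_one, pol_one, one_mul, pol_of_ne_one h₁, zero_mul, zero_re]
      linarith [hnn j x hx]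
    by_cases hprod : χ₁ * χ = 1
    · rw [hprod, pol_one, one_mul, pol_of_ne_one hone, zero_mul, zero_re]
      linarith [hnn j x hx]
    · rw [pol_of_ne_one hone, pol_of_ne_one hprod, zero_mul, zero_re]
      linarith [hnn j x hx, herr j x hx]

/-- The power sums over all lists but the removed zeros are small. -/
theorem seen_upper {χ₁ χ : DirichletCharacter ℂ q} (h₁ : χ₁ ≠ 1) (h₁2 : χ₁ ^ 2 = 1) {β : ℝ}
    (hβm : (β : ℂ) ∈ nearAt χ₁ 0) {γ : ℝ} {T₂ T₃ : Multiset ℂ}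
    (hside : ∀ (j : ℕ), 1 ≤ j → ∀ x : ℝ, 0 < x →
      (pol χ * seenPole j x γ).re - seenSum j x γ (nearAt χ γ) +
        ((pol (χ₁ * χ) * seenPole j x γ).re - seenSum j x γ (nearAt (χ₁ * χ) γ)) ≤
      2 * j * ((1 - β) / x) + errAt q (2 * j - 1) γ * x ^ (2 * j) - seenSum j x γ T₂ - seenSum j x γ T₃)
    {j : ℕ} (hj : 1 ≤ j) {x : ℝ} (hx : 0 < x) (hx8 : x ≤ 1 / 8) :
    seenSum j x 0 (nearAt (1 : DirichletCharacter ℂ 1) 0) +
        seenSum j x 0 ((nearAt χ₁ 0).erase (β : ℂ)) + seenSum j x γ T₂ + seenSum j x γ T₃ ≤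
      4 * j * ((1 - β) / x) + 5 * (errAt q (2 * j - 1) γ * x ^ (2 * j)) := by
  have hβ1 : β ≤ 1 := by simpa using (re_lt_one_of_mem hβm).le
  have hpos := re_comb_nonneg (2 * j - 1) hx χ₁ χ (χ₁ * χ) 0 γ γ 1 1 1 1 fun n hn => by
    have e : chTerm (χ₁ * χ) γ n = chTerm χ₁ 0 n * chTerm χ γ n := by
      rw [chTerm_mul χ₁ χ 0 γ hn, zero_add]
    rw [e, mul_re, chTerm_im_eq_zero h₁2, zero_mul, sub_zero]
    have ha := abs_le.1 (abs_re_chTerm_le χ₁ 0 n)
    have hb := abs_le.1 (abs_re_chTerm_le χ γ n)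
    nlinarith
  have h0 := mom_re_mul_le (1 : DirichletCharacter ℂ 1) hj hx hx8 0
  have h1 := mom_re_mul_le χ₁ hj hx hx8 0
  have h2 := mom_re_mul_le χ hj hx hx8 γ
  have h3 := mom_re_mul_le (χ₁ * χ) hj hx hx8 γ
  rw [mom_one_level, ofReal_re, pol_one, one_mul] at h0
  rw [pol_of_ne_one h₁, zero_mul, zero_re] at h1
  have h4 := hside j hj x hx
  have h5 := pole_sub_seenSum_le hβm hβ1 j hx 0
  have herr : ∀ q', ht q' 0 ≤ ht q γ →
      errAt q' (2 * j - 1) 0 * x ^ (2 * j) ≤ errAt q (2 * j - 1) γ * x ^ (2 * j) := fun q' h => by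
    refine mul_le_mul_of_nonneg_right ?_ (by positivity)
    rw [errAt, errAt]
    have := one_le_rimG
    gcongr
  have e1 := herr 1 (le_trans (by
    rw [ht, ht, lg, lg, Nat.cast_one, Real.log_one]
    linarith [Real.log_natCast_nonneg q]) (ht_zero_le q γ))
  have e2 := herr q (ht_zero_le q γ)
  have h6 := mul_nonneg hpos (show 0 ≤ x ^ (2 * j) by positivity)
  linarith

/-- The constant of the number of powers. -/
def repN : ℝ := 1100 + 512 * landG + 229376 * 2 * rimG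

/-- The power sum of size `4 ^ (- j) / 8` against the upper bound. -/
theorem repulsion_aux {χ₁ χ : DirichletCharacter ℂ q} (h₁ : χ₁ ≠ 1) (h₁2 : χ₁ ^ 2 = 1) {β : ℝ}
    (hβ : clear χ₁ β = 0) (hβ' : 15 / 16 ≤ β) {ρ : ℂ} (hρ0 : clear χ ρ = 0)
    (hne : χ ≠ χ₁ ∨ ρ ≠ (β : ℂ)) {x : ℝ} (hxρ : x = 1 - ρ.re) (hx128 : x ≤ 1 / 128) :
    ∃ j : ℕ, 1 ≤ j ∧ (j : ℝ) ≤ repN * (1 + x * ht q ρ.im) ∧
      (1 / 4) ^ j / 8 ≤ 4 * j * ((1 - β) / x) := by
  have hx : 0 < x := by linarith [re_lt_one_of_clear hρ0]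
  have hL := ht_pos q ρ.im
  have hrim := one_le_rimG
  have hland := one_le_landG
  have hρ : ρ ∈ nearAt χ ρ.im := mem_nearAt hρ0 (by linarith) (by rw [sub_self, abs_zero]; norm_num)
  have hβm : (β : ℂ) ∈ nearAt χ₁ 0 :=
    mem_nearAt hβ (by simpa using hβ') (by rw [ofReal_im, sub_self, abs_zero]; norm_num)
  obtain ⟨T₂, T₃, hT₂, hT₃, hρT, hside⟩ := exists_side h₁ h₁2 hβ hβ' hρ hne
  obtain ⟨Z, hZ⟩ : ∃ Z : Multiset ℂ, Z = (nearAt (1 : DirichletCharacter ℂ 1) 0).map (seen x 0) +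
      ((nearAt χ₁ 0).erase (β : ℂ)).map (seen x 0) + T₂.map (seen x ρ.im) + T₃.map (seen x ρ.im) :=
    ⟨_, rfl⟩
  have hquarter : ((1 / 4 : ℝ) : ℂ) ∈ Z := by
    rw [hZ, ← mem_seen_self hx hxρ]
    exact Multiset.mem_add.2 (Or.inl (Multiset.mem_add.2 (Or.inr (Multiset.mem_map_of_mem _ hρT))))
  obtain ⟨a, ha, hmax⟩ := Z.toFinset.exists_max_image (fun z => ‖z‖) ⟨_, Multiset.mem_toFinset.2 hquarter⟩
  rw [Multiset.mem_toFinset] at ha
  have ha4 : 1 / 4 ≤ ‖a‖ := by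
    have := hmax _ (Multiset.mem_toFinset.2 hquarter)
    rw [norm_real, Real.norm_of_nonneg (by norm_num : (0 : ℝ) ≤ 1 / 4)] at this
    exact this
  have hr : 0 < ‖a‖ := by linarith
  have hsum : (Z.map fun z => ‖z‖).sum ≤ 4 * (2 + landG * ht q ρ.im * x) := by
    rw [hZ, Multiset.map_add, Multiset.sum_add, Multiset.map_add, Multiset.sum_add, Multiset.map_add,
      Multiset.sum_add]
    have k0 := sum_norm_seen_le (1 : DirichletCharacter ℂ 1) (t := 0) le_rfl hx (by linarith)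
    have k1 := sum_norm_seen_le χ₁ (T := (nearAt χ₁ 0).erase (β : ℂ)) (Multiset.erase_le _ _) hx
      (by linarith)
    have k2 := sum_norm_seen_le χ hT₂ hx (by linarith)
    have k3 := sum_norm_seen_le (χ₁ * χ) hT₃ hx (by linarith)
    have k5 := ht_zero_le q ρ.im
    have k4 : landG * ht 1 0 * x ≤ landG * ht q ρ.im * x := by
      gcongr
      refine le_trans ?_ k5
      rw [ht, ht, lg, lg, Nat.cast_one, Real.log_one]
      linarith [Real.log_natCast_nonneg q]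
    have k6 : landG * ht q 0 * x ≤ landG * ht q ρ.im * x := by gcongr
    linarith
  obtain ⟨e, he⟩ : ∃ e : ℕ → ℝ,
      e = fun j : ℕ => 140 * (rimG * ht q ρ.im) * ((j : ℝ) * (4096 * x ^ 2) ^ j) := ⟨_, rfl⟩
  have hu4 : 4096 * x ^ 2 ≤ 1 / 4 := by nlinarith
  have hE : ∀ J, ∑ j ∈ Finset.Icc 1 J, e j ≤ 28672 * rimG * (x * ht q ρ.im) := fun J => by
    rw [he, ← Finset.mul_sum]
    refine (mul_le_mul_of_nonneg_left (sum_Icc_mul_pow_le (by positivity) hu4 J) (by positivity)).trans ?_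
    have h1 : 0 ≤ (1 / 2 : ℝ) ^ J := by positivity
    have h2 : x ^ 2 ≤ x * (1 / 128) := by rw [sq]; exact mul_le_mul_of_nonneg_left hx128 hx.le
    have h3 : 0 ≤ rimG * ht q ρ.im := by positivity
    nlinarith [mul_nonneg (mul_nonneg h3 (sq_nonneg x)) h1, mul_le_mul_of_nonneg_left h2 h3,
      mul_nonneg h3 hx.le]
  have hn : ∀ z : ℂ, ‖z / (‖a‖ : ℂ)‖ = ‖z‖ / ‖a‖ := fun z => by rw [norm_div, norm_real, norm_norm]
  obtain ⟨j, hj1, hj2, hj⟩ := FA.DeuringHeilbronn.exists_re_powSum_ge_one_add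
    (Z.map fun z => z / (‖a‖ : ℂ)) (a := a / (‖a‖ : ℂ)) (Multiset.mem_map_of_mem _ ha)
    (by rw [hn, div_self hr.ne']) (fun z hz => by
      obtain ⟨y, hy, rfl⟩ := Multiset.mem_map.1 hz
      rw [hn, div_le_one hr]
      exact hmax y (Multiset.mem_toFinset.2 hy)) (Lb := 16 * (2 + landG * ht q ρ.im * x)) (by
      rw [Multiset.map_map]
      simp only [Function.comp_def, hn]
      simp only [div_eq_mul_inv, Multiset.sum_map_mul_right]
      rw [mul_inv_le_iff₀ hr]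
      have := mul_le_mul_of_nonneg_left ha4 (show 0 ≤ 16 * (2 + landG * ht q ρ.im * x) by positivity)
      linarith) (e := e) (fun j => by rw [he]; positivity) (E := 28672 * rimG * (x * ht q ρ.im)) hE
  refine ⟨j, hj1, hj2.trans ?_, ?_⟩
  · have h1 : 0 ≤ x * ht q ρ.im := by positivity
    rw [repN]
    nlinarith
  have hpow : 0 < ‖a‖ ^ j := by positivity
  have hscale : ((Z.map fun z => z / (‖a‖ : ℂ)).map fun z => z ^ j).sum.re =
      (Z.map fun z => z ^ j).sum.re / ‖a‖ ^ j := by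
    rw [Multiset.map_map]
    simp only [Function.comp_def, div_pow, ← ofReal_pow]
    simp only [div_eq_mul_inv, Multiset.sum_map_mul_right, ← ofReal_inv, re_mul_ofReal]
  rw [hscale, le_div_iff₀ hpow] at hj
  have hZsum : (Z.map fun z => z ^ j).sum.re = seenSum j x 0 (nearAt (1 : DirichletCharacter ℂ 1) 0) +
      seenSum j x 0 ((nearAt χ₁ 0).erase (β : ℂ)) + seenSum j x ρ.im T₂ + seenSum j x ρ.im T₃ := by
    simp only [hZ, seenSum, Multiset.map_add, Multiset.sum_add, add_re, Multiset.map_map, Function.comp_def]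
  have hup := seen_upper h₁ h₁2 hβm hside hj1 hx (by linarith)
  have hA : (1 / 4 : ℝ) ^ j ≤ ‖a‖ ^ j := pow_le_pow_left₀ (by norm_num) ha4 j
  have herr : 5 * (errAt q (2 * j - 1) ρ.im * x ^ (2 * j)) ≤ e j * ‖a‖ ^ j := by
    refine le_trans (le_of_eq ?_) (mul_le_mul_of_nonneg_left hA (by rw [he]; positivity))
    rw [he, errAt, show 2 * j - 1 + 1 = 2 * j by omega, Nat.cast_sub (by omega)]
    push_cast
    rw [pow_mul, pow_mul, mul_pow (4096 : ℝ), show (32 : ℝ) ^ 2 = 1024 by norm_num]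
    rw [show (4096 : ℝ) ^ j = (1024 : ℝ) ^ j * 4 ^ j by rw [← mul_pow]; norm_num]
    have h4 : (4 : ℝ) ^ j * (1 / 4) ^ j = 1 := by rw [← mul_pow]; norm_num
    linear_combination -(140 * (rimG * ht q ρ.im) * j * 1024 ^ j * (x ^ 2) ^ j) * h4
  rw [hZsum] at hj
  linarith

/-- **Repulsion at one modulus, any height.** -/
theorem exists_repulsion_at : ∃ A : ℝ, 1 ≤ A ∧ ∀ (q : ℕ) [NeZero q] (χ₁ χ : DirichletCharacter ℂ q),
    χ₁ ≠ 1 → χ₁ ^ 2 = 1 → ∀ β : ℝ, clear χ₁ β = 0 → 15 / 16 ≤ β → ∀ ρ : ℂ, clear χ ρ = 0 →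
    (χ ≠ χ₁ ∨ ρ ≠ (β : ℂ)) → 1 - ρ.re ≤ 1 / 128 →
      (1 - ρ.re) * Real.exp (-(A * (1 + (1 - ρ.re) * ht q ρ.im))) ≤ 1 - β := by
  have hB1 : 1 ≤ repN := by rw [repN]; linarith [one_le_landG, one_le_rimG]
  refine ⟨3 * repN + 4, by linarith, fun q _ χ₁ χ h₁ h₁2 β hβ hβ' ρ hρ hne hx => ?_⟩
  obtain ⟨j, hj1, hj2, hj⟩ := repulsion_aux h₁ h₁2 hβ hβ' hρ hne rfl hx
  obtain ⟨x, hxdef⟩ : ∃ x, x = 1 - ρ.re := ⟨_, rfl⟩
  rw [← hxdef] at hj2 hj ⊢
  have hx0 : 0 < x := by linarith [re_lt_one_of_clear hρ]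
  have hxl : 0 ≤ x * ht q ρ.im := mul_nonneg hx0.le (ht_pos q _).le
  have hδ : 0 ≤ 1 - β := by simpa using (re_lt_one_of_clear hβ).le
  have h1 : x ≤ (32 * j * 4 ^ j) * (1 - β) := by
    have h0 := mul_le_mul_of_nonneg_left hj (show 0 ≤ x * 8 * 4 ^ j by positivity)
    have e1 : x * 8 * (4 : ℝ) ^ j * ((1 / 4) ^ j / 8) = x := by
      rw [div_pow, one_pow]; field_simp
    have e2 : x * 8 * (4 : ℝ) ^ j * (4 * j * ((1 - β) / x)) = 32 * j * 4 ^ j * (1 - β) := by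
      field_simp; ring
    linarith
  have h2 : 32 * (j : ℝ) * 4 ^ j ≤ Real.exp ((3 * repN + 4) * (1 + x * ht q ρ.im)) := by
    have e1 : (j : ℝ) ≤ Real.exp j := by linarith [Real.add_one_le_exp (j : ℝ)]
    have e2 : (4 : ℝ) ^ j ≤ Real.exp (2 * j) := by
      rw [show (2 : ℝ) * j = (j : ℝ) * 2 by ring, Real.exp_nat_mul]
      refine pow_le_pow_left₀ (by norm_num) ?_ j
      rw [show (2 : ℝ) = 1 + 1 by norm_num, Real.exp_add]
      nlinarith [Real.exp_one_gt_d9]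
    have e3 : (32 : ℝ) ≤ Real.exp 4 := by
      rw [show (4 : ℝ) = ((4 : ℕ) : ℝ) * 1 by norm_num, Real.exp_nat_mul]
      exact le_trans (by norm_num) (pow_le_pow_left₀ (by norm_num : (0 : ℝ) ≤ 2.7)
        (by linarith [Real.exp_one_gt_d9]) 4)
    refine (mul_le_mul (mul_le_mul e3 e1 (Nat.cast_nonneg j) (Real.exp_pos _).le) e2 (by positivity)
      (by positivity)).trans ?_
    rw [← Real.exp_add, ← Real.exp_add]
    exact Real.exp_le_exp.2 (by nlinarith)
  rw [Real.exp_neg, ← div_eq_mul_inv, div_le_iff₀ (Real.exp_pos _)]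
  exact h1.trans ((mul_le_mul_of_nonneg_right h2 hδ).trans_eq (mul_comm _ _))

/-- **The phenomenon of Deuring and Heilbronn for a family.** -/
theorem exists_repulsion : ∃ C c : ℝ, 1 ≤ C ∧ 0 < c ∧ ∀ (Q : ℕ) (T : ℝ),
    ∀ u₁ ∈ family Q, u₁.2 ≠ 1 → u₁.2 ^ 2 = 1 → ∀ β : ℝ, lfun u₁ β = 0 →
    ∀ u ∈ family Q, ∀ ρ : ℂ, lfun u ρ = 0 → |ρ.im| ≤ T → (u ≠ u₁ ∨ ρ ≠ (β : ℂ)) →
      c ≤ (1 - β) * famL Q T * Real.exp (C * ((1 - ρ.re) * famL Q T)) := by
  obtain ⟨A, hA, hrep⟩ := exists_repulsion_at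
  obtain ⟨G, hG, hsieg⟩ := exists_one_sub_zero_ge
  refine ⟨2 * A + 128 * G, zoneG * Real.exp (-A), by linarith, mul_pos zoneG_pos (Real.exp_pos _),
    fun Q T u₁ hu₁ h₁ h₁2 β hβ u hu ρ hρ hi hne => ?_⟩
  obtain ⟨hu1, huQ, hup⟩ := mem_family.1 hu
  obtain ⟨hv1, hvQ, hvp⟩ := mem_family.1 hu₁
  have : NeZero u.1 := ⟨by omega⟩
  have : NeZero u₁.1 := ⟨by omega⟩
  obtain ⟨L, hLdef⟩ : ∃ L, L = famL Q T := ⟨_, rfl⟩
  rw [← hLdef]
  have hL5 : 5 ≤ L := hLdef ▸ five_le_famL Q T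
  obtain ⟨C, hC⟩ : ∃ C, C = 2 * A + 128 * G := ⟨_, rfl⟩
  rw [← hC]
  obtain ⟨x, hx⟩ : ∃ x, x = 1 - ρ.re := ⟨_, rfl⟩
  rw [← hx]
  have hx0 : 0 < x := by
    rw [lfun_eq] at hρ
    linarith [re_lt_one_of_clear hρ]
  have hT0 : 0 ≤ T := (abs_nonneg _).trans hi
  have hβ0 := hβ
  rw [lfun_eq] at hβ hρ
  have hδ : 0 < 1 - β := by simpa using re_lt_one_of_clear hβ
  have hexp1 : 1 ≤ Real.exp (C * (x * L)) :=
    Real.one_le_exp (mul_nonneg (by linarith) (mul_nonneg hx0.le (by linarith)))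
  have hcz : zoneG * Real.exp (-A) ≤ zoneG :=
    mul_le_of_le_one_right zoneG_pos.le (Real.exp_le_one_iff.2 (by linarith))
  rcases le_or_gt zoneG ((1 - β) * L) with hbig | hsmall
  · exact hcz.trans (hbig.trans (le_mul_of_one_le_right (by positivity) hexp1))
  have hβz : 1 - β < zoneG / L := by rwa [lt_div_iff₀ (by linarith)]
  have hy : zoneG ≤ x * L := by
    by_contra hlt
    have hxz : x < zoneG / L := by rw [lt_div_iff₀ (by linarith)]; exact not_le.1 hlt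
    have h := zone_unique hu hu₁ (T := T) (by rwa [lfun_eq]) hi (by rwa [← hx, ← hLdef]) hβ0
      (by rw [ofReal_im, abs_zero]; exact hT0) (by rw [ofReal_re, ← hLdef]; exact hβz)
    exact hne.elim (fun h' => h' h.1) (fun h' => h' h.2.1)
  rcases le_or_gt x (1 / 128) with hx128 | hx128
  · have : NeZero (u₁.1 * u.1) := ⟨mul_ne_zero (NeZero.ne _) (NeZero.ne _)⟩
    have hβ15 : 15 / 16 ≤ β := by
      have := (zoneG_div_le (show 1 ≤ L by linarith)).2
      linarith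
    have hne' : changeLevel (Nat.dvd_mul_left u.1 u₁.1) u.2 ≠
        changeLevel (Nat.dvd_mul_right u₁.1 u.1) u₁.2 ∨ ρ ≠ (β : ℂ) := by
      by_cases he : u₁ = u
      · exact Or.inr (hne.resolve_left fun h => h he.symm)
      · exact Or.inl (changeLevel_ne_of_ne hvp hup he).symm
    have h := hrep (u₁.1 * u.1) (changeLevel (Nat.dvd_mul_right u₁.1 u.1) u₁.2)
      (changeLevel (Nat.dvd_mul_left u.1 u₁.1) u.2)
      (fun h => h₁ ((DirichletCharacter.changeLevel_eq_one_iff _).1 h)) (by rw [← map_pow, h₁2, map_one])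
      β (clear_changeLevel_eq_zero _ hβ) hβ15 ρ (clear_changeLevel_eq_zero _ hρ) hne' (hx ▸ hx128)
    rw [← hx] at h
    have hht : ht (u₁.1 * u.1) ρ.im ≤ 2 * L :=
      hLdef ▸ ht_mul_le hvQ (NeZero.pos u.1) huQ (by linarith [le_abs_self T])
    have h1 : x * L * Real.exp (-(A * (1 + x * ht (u₁.1 * u.1) ρ.im))) ≤ (1 - β) * L := by
      have := mul_le_mul_of_nonneg_right h (show 0 ≤ L by linarith)
      linarith
    have h2 : Real.exp (-A) ≤
        Real.exp (-(A * (1 + x * ht (u₁.1 * u.1) ρ.im))) * Real.exp (C * (x * L)) := by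
      rw [← Real.exp_add, Real.exp_le_exp, hC]
      have := mul_le_mul_of_nonneg_left (mul_le_mul_of_nonneg_left hht hx0.le) (show 0 ≤ A by linarith)
      have := mul_nonneg (show 0 ≤ 128 * G by linarith) (mul_nonneg hx0.le (show 0 ≤ L by linarith))
      linarith
    calc zoneG * Real.exp (-A)
        ≤ x * L * (Real.exp (-(A * (1 + x * ht (u₁.1 * u.1) ρ.im))) * Real.exp (C * (x * L))) :=
          mul_le_mul hy h2 (Real.exp_pos _).le (mul_nonneg hx0.le (by linarith))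
      _ ≤ _ := by
          rw [← mul_assoc]
          exact mul_le_mul_of_nonneg_right h1 (Real.exp_pos _).le
  · have hs := hsieg u₁.1 u₁.2 h₁ h₁2 β (by rw [← clear_of_ne_one h₁]; exact hβ)
    have hlg : lg u₁.1 ≤ L := by
      rw [hLdef, famL, lg, lg]
      linarith [Real.log_le_log (Nat.cast_pos.2 (NeZero.pos u₁.1)) (Nat.cast_le.2 hvQ : (u₁.1 : ℝ) ≤ Q),
        Real.log_nonneg (show (1 : ℝ) ≤ |T| + 5 by linarith [abs_nonneg T])]
    have h1 : 1 ≤ (1 - β) * Real.exp (C * (x * L)) := by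
      refine le_trans ?_ (mul_le_mul_of_nonneg_right hs (Real.exp_pos _).le)
      rw [← Real.exp_add]
      refine Real.one_le_exp ?_
      have h2 : L / 128 ≤ x * L := by
        have := mul_le_mul_of_nonneg_right hx128.le (show 0 ≤ L by linarith)
        linarith
      have h3 := mul_le_mul_of_nonneg_left hlg (show 0 ≤ G by linarith)
      have h4 := mul_le_mul_of_nonneg_left h2 (show 0 ≤ 128 * G by linarith)
      rw [hC]
      have := mul_nonneg (show 0 ≤ 2 * A by linarith) (mul_nonneg hx0.le (show 0 ≤ L by linarith))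
      linarith
    have hz1 : zoneG ≤ 1 := ((min_le_left _ _).trans (min_le_right _ _)).trans (by norm_num)
    calc zoneG * Real.exp (-A) ≤ 1 := hcz.trans hz1
      _ ≤ (1 - β) * Real.exp (C * (x * L)) * L := by nlinarith
      _ = _ := by ring

end FA.Gallagher

end
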