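import Fermat.Agent.PrimesMinusOne.BrunTitchmarsh
import Fermat.Agent.BombieriVinogradov.Characters

/-!
# The large sieve for characters on numbers without small prime factors

By duality and Selberg's weights: if `(M, M + N]` is an interval and the `a n` live on its numbers
without prime factor `≤ z`, then
`∑_{q ≤ Q} ∑* |∑ a n χ n| ^ 2 ≤ (2 N / log (z + 1) + 2 z ^ 4 + 2 Q ^ 4 z ^ 4) ∑ |a n| ^ 2`.
This is the saving of a logarithm over the large sieve (Bombieri–Davenport, Gallagher).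
-/

set_option autoImplicit false
set_option linter.unusedSectionVars false

noncomputable section

open Finset Complex
open FA.PrimesMinusOne (classPrimes sievePrimes invFun invFun_apply invFun_isMultiplicative
  prime_of_sievePrimes squarefree_classPrimes classSieve le_selbergDenom)
open FA.GoldbachSchnirelmann (selbergWeight selbergWeight_one selbergWeight_eq_zero selbergDenom
  selbergDenom_pos abs_selbergWeight_le mainSum_selbergWeight)
open FA.BombieriVinogradov (primChars mem_primChars)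
open scoped ComplexConjugate

namespace FA.Gallagher

/-- The sieve of the numbers `≤ N` by the primes `≤ z`, its weights those of Selberg. -/
def wgtSieve (z : ℕ) : BoundingSieve := classSieve 1 1 0 z

/-- Selberg's weights. -/
def lam (z d : ℕ) : ℝ := selbergWeight (wgtSieve z) z d

/-- The squarefree `d` without prime factors above `z`. -/
def lamSupp (z : ℕ) : Finset ℕ := Nat.divisors (classPrimes 1 z)

/-- The weight `(∑_{d ∣ n} λ d) ^ 2`. -/
def selW (z n : ℕ) : ℝ := (∑ d ∈ lamSupp z, if d ∣ n then lam z d else 0) ^ 2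

theorem selW_nonneg (z n : ℕ) : 0 ≤ selW z n := sq_nonneg _

/-- No prime factor `≤ z`. -/
def Rough (z n : ℕ) : Prop := ∀ p : ℕ, p.Prime → p ≤ z → ¬ p ∣ n

theorem mem_lamSupp_one (z : ℕ) : 1 ∈ lamSupp z :=
  Nat.one_mem_divisors.2 (squarefree_classPrimes 1 z).ne_zero

theorem selW_rough {z n : ℕ} (hz : 1 ≤ z) (hn : Rough z n) : selW z n = 1 := by
  rw [selW, Finset.sum_eq_single 1, if_pos (one_dvd n), lam, selbergWeight_one _ z hz, one_pow]
  · intro d hd hd1
    refine if_neg fun hdn => ?_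
    obtain ⟨p, hp, hpd⟩ := Nat.exists_prime_and_dvd hd1
    have h1 : p ∣ ∏ l ∈ sievePrimes 1 z, l := hpd.trans (Nat.dvd_of_mem_divisors hd)
    obtain ⟨l, hl, hpl⟩ := (hp.prime.dvd_finsetProd_iff _).1 h1
    have hll := prime_of_sievePrimes hl
    rw [(Nat.prime_dvd_prime_iff_eq hp hll).1 hpl] at hpd hp
    exact hn l hp (mem_Icc.1 (mem_filter.1 hl).1).2 (hpd.trans hdn)
  · exact fun h => absurd (mem_lamSupp_one z) h

theorem abs_lam_le {z d : ℕ} (hz : 1 ≤ z) (hd : d ∈ lamSupp z) :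
    |lam z d| ≤ if d ≤ z then (z : ℝ) else 0 := by
  split_ifs with h
  · refine (abs_selbergWeight_le (wgtSieve z) z hz hd).trans ?_
    show (invFun d)⁻¹ ≤ _
    rw [invFun_apply, inv_inv]
    exact Nat.cast_le.2 h
  · rw [lam, selbergWeight_eq_zero _ _ (not_le.1 h), abs_zero]

theorem sum_abs_lam_le {z : ℕ} (hz : 1 ≤ z) : ∑ d ∈ lamSupp z, |lam z d| ≤ (z : ℝ) ^ 2 := by
  refine (Finset.sum_le_sum fun d hd => abs_lam_le hz hd).trans ?_
  rw [← Finset.sum_filter, Finset.sum_const, nsmul_eq_mul, sq]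
  refine mul_le_mul_of_nonneg_right (Nat.cast_le.2 ?_) (Nat.cast_nonneg z)
  refine (card_le_card (t := Icc 1 z) fun d hd => ?_).trans (by rw [Nat.card_Icc]; omega)
  rw [mem_filter] at hd
  exact mem_Icc.2 ⟨Nat.pos_of_mem_divisors hd.1, hd.2⟩

theorem sum_lam_sq_eq {z : ℕ} (hz : 1 ≤ z) :
    ∑ d ∈ lamSupp z, ∑ e ∈ lamSupp z, lam z d * lam z e / (Nat.lcm d e : ℝ) =
      1 / selbergDenom (wgtSieve z) z := by
  rw [← mainSum_selbergWeight (wgtSieve z) z hz, BoundingSieve.mainSum_lambdaSquared_eq_sum_sum_mul]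
  refine Finset.sum_congr rfl fun d hd => Finset.sum_congr rfl fun e he => ?_
  show lam z d * lam z e / (Nat.lcm d e : ℝ) =
    invFun d * lam z d * invFun e * lam z e * (invFun (d.gcd e))⁻¹
  rw [invFun_apply, invFun_apply, invFun_apply, inv_inv]
  have hd0 : (d : ℝ) ≠ 0 := Nat.cast_ne_zero.2 (Nat.pos_of_mem_divisors hd).ne'
  have he0 : (e : ℝ) ≠ 0 := Nat.cast_ne_zero.2 (Nat.pos_of_mem_divisors he).ne'
  have hl0 : (Nat.lcm d e : ℝ) ≠ 0 :=
    Nat.cast_ne_zero.2 (Nat.lcm_ne_zero (Nat.pos_of_mem_divisors hd).ne' (Nat.pos_of_mem_divisors he).ne')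
  have h : (Nat.gcd d e : ℝ) * Nat.lcm d e = d * e := by exact_mod_cast Nat.gcd_mul_lcm d e
  field_simp
  linear_combination (-(lam z d * lam z e)) * h

theorem log_le_denom (z : ℕ) : Real.log (z + 1) / 2 ≤ selbergDenom (wgtSieve z) z := by
  have h := le_selbergDenom (N := 1) (q := 1) (a := 0) (z := z) one_pos
  rwa [Nat.totient_one, Nat.cast_one, div_one, one_mul] at h

theorem abs_card_multiples_sub_le (M N : ℕ) {l : ℕ} (hl : 0 < l) :
    |(((Ioc M (M + N)).filter (l ∣ ·)).card : ℝ) - (N : ℝ) / l| ≤ 2 := by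
  have key : ∀ n : ℕ, |(((Ioc 0 n).filter (l ∣ ·)).card : ℝ) - (n : ℝ) / l| ≤ 1 := fun n => by
    have h := FA.PrimesMinusOne.abs_card_class_sub_div_le hl n 0
    simpa only [Nat.modEq_zero_iff_dvd] using h
  have hsplit : (((Ioc M (M + N)).filter (l ∣ ·)).card : ℝ) =
      (((Ioc 0 (M + N)).filter (l ∣ ·)).card : ℝ) - (((Ioc 0 M).filter (l ∣ ·)).card : ℝ) := by
    rw [eq_sub_iff_add_eq, ← Nat.cast_add, ← card_union_of_disjoint, ← filter_union, union_comm,
      Ioc_union_Ioc_eq_Ioc (Nat.zero_le M) (Nat.le_add_right M N)]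
    refine disjoint_filter_filter (disjoint_left.2 fun n h1 h2 => ?_)
    rw [mem_Ioc] at h1 h2
    omega
  rw [hsplit]
  have h1 := abs_le.1 (key (M + N))
  have h2 := abs_le.1 (key M)
  have e : ((M + N : ℕ) : ℝ) / l = (M : ℝ) / l + (N : ℝ) / l := by push_cast; ring
  rw [abs_le]
  constructor <;> linarith

theorem selW_expand {β : Type*} [CommSemiring β] (f : ℕ → β) (g : ℝ →+* β) (S : Finset ℕ) (z : ℕ) :
    ∑ n ∈ S, g (selW z n) * f n = ∑ d ∈ lamSupp z, ∑ e ∈ lamSupp z,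
      g (lam z d * lam z e) * ∑ n ∈ S.filter (Nat.lcm d e ∣ ·), f n := by
  simp only [selW, sq, Finset.sum_mul_sum, map_sum, Finset.sum_mul, Finset.mul_sum, Finset.sum_filter]
  rw [Finset.sum_comm]
  refine Finset.sum_congr rfl fun d _ => ?_
  rw [Finset.sum_comm]
  refine Finset.sum_congr rfl fun e _ => Finset.sum_congr rfl fun n _ => ?_
  by_cases h : Nat.lcm d e ∣ n
  · rw [if_pos h, if_pos ((Nat.dvd_lcm_left d e).trans h), if_pos ((Nat.dvd_lcm_right d e).trans h),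
      mul_comm (lam z d)]
  · rw [if_neg h, mul_zero]
    rcases not_and_or.1 (fun h' : d ∣ n ∧ e ∣ n => h (Nat.lcm_dvd h'.1 h'.2)) with h' | h'
    · simp [h']
    · simp [h']

/-- The weights sum to the main term. -/
theorem sum_selW_le {z : ℕ} (hz : 1 ≤ z) (M N : ℕ) :
    ∑ n ∈ Ioc M (M + N), selW z n ≤ 2 * N / Real.log (z + 1) + 2 * (z : ℝ) ^ 4 := by
  have h := selW_expand (fun _ => (1 : ℝ)) (RingHom.id ℝ) (Ioc M (M + N)) z
  simp only [RingHom.id_apply, mul_one, Finset.sum_const, nsmul_eq_mul] at h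
  rw [h]
  have hlog : 0 < Real.log (z + 1) := Real.log_pos (by
    have : (1 : ℝ) ≤ z := Nat.one_le_cast.2 hz
    linarith)
  have hG := log_le_denom z
  have hmain : (N : ℝ) * (1 / selbergDenom (wgtSieve z) z) ≤ 2 * N / Real.log (z + 1) := by
    rw [mul_one_div, div_le_div_iff₀ (selbergDenom_pos _ z hz) hlog]
    have := mul_le_mul_of_nonneg_left hG (show (0 : ℝ) ≤ 2 * N by positivity)
    linarith
  have herr : ∑ d ∈ lamSupp z, ∑ e ∈ lamSupp z, |lam z d| * |lam z e| * 2 ≤ 2 * (z : ℝ) ^ 4 := by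
    simp only [← Finset.sum_mul, ← Finset.mul_sum]
    have h0 := sum_abs_lam_le hz
    have h1 : 0 ≤ ∑ d ∈ lamSupp z, |lam z d| := Finset.sum_nonneg fun d _ => abs_nonneg _
    nlinarith
  refine le_trans ?_ (add_le_add hmain herr)
  rw [← sum_lam_sq_eq hz, Finset.mul_sum, ← Finset.sum_add_distrib]
  refine Finset.sum_le_sum fun d hd => ?_
  rw [Finset.mul_sum, ← Finset.sum_add_distrib]
  refine Finset.sum_le_sum fun e he => ?_
  have hl : 0 < Nat.lcm d e :=
    Nat.lcm_pos (Nat.pos_of_mem_divisors hd) (Nat.pos_of_mem_divisors he)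
  have hc := abs_card_multiples_sub_le M N hl
  rw [← abs_mul]
  have h2 : lam z d * lam z e * ((((Ioc M (M + N)).filter (Nat.lcm d e ∣ ·)).card : ℝ) - (N : ℝ) / Nat.lcm d e) ≤
      |lam z d * lam z e| * 2 :=
    (le_abs_self _).trans (by rw [abs_mul]; exact mul_le_mul_of_nonneg_left hc (abs_nonneg _))
  linear_combination h2

/-- Characters of two moduli as functions on `ℕ`, with no correlation. -/
theorem norm_sum_pair_le {q r : ℕ} [NeZero q] [NeZero r] {χ : DirichletCharacter ℂ q}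
    {ψ : DirichletCharacter ℂ r} (hχ : χ.IsPrimitive) (hψ : ψ.IsPrimitive)
    (hne : (⟨q, χ⟩ : Σ n : ℕ, DirichletCharacter ℂ n) ≠ ⟨r, ψ⟩) (m : ℕ) :
    ‖∑ k ∈ range m, χ (k : ZMod q) * conj (ψ (k : ZMod r))‖ ≤ (q : ℝ) * r := by
  have : NeZero (q * r) := ⟨mul_ne_zero (NeZero.ne q) (NeZero.ne r)⟩
  obtain ⟨Φ, hΦ⟩ : ∃ Φ : DirichletCharacter ℂ (q * r), Φ =
      DirichletCharacter.changeLevel (Nat.dvd_mul_right q r) χ *
        (DirichletCharacter.changeLevel (Nat.dvd_mul_left r q) ψ)⁻¹ := ⟨_, rfl⟩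
  have hΦ1 : Φ ≠ 1 := fun h => by
    rw [hΦ, mul_inv_eq_one] at h
    have hc := congrArg DirichletCharacter.conductor h
    rw [DirichletCharacter.conductor_changeLevel, DirichletCharacter.conductor_changeLevel,
      hχ, hψ] at hc
    subst hc
    exact hne (Sigma.ext rfl (heq_of_eq (DirichletCharacter.changeLevel_injective _ h)))
  have hval : ∀ k : ℕ, χ (k : ZMod q) * conj (ψ (k : ZMod r)) = Φ (k : ZMod (q * r)) := fun k => by
    by_cases hk : k.Coprime (q * r)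
    · rw [hΦ, MulChar.mul_apply, MulChar.inv_apply_eq_inv', starRingEnd_apply, MulChar.star_apply',
        MulChar.inv_apply_eq_inv']
      have h1 := DirichletCharacter.changeLevel_eq_cast_of_dvd' χ (Nat.dvd_mul_right q r)
        (a := (k : ℤ)) (Nat.isCoprime_iff_coprime.2 hk)
      have h2 := DirichletCharacter.changeLevel_eq_cast_of_dvd' ψ (Nat.dvd_mul_left r q)
        (a := (k : ℤ)) (Nat.isCoprime_iff_coprime.2 hk)
      simp only [Int.cast_natCast] at h1 h2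
      rw [h1, h2]
    · rw [MulChar.map_nonunit Φ fun hu => hk ((ZMod.isUnit_iff_coprime k (q * r)).1 hu)]
      rcases not_and_or.1 (fun h => hk (Nat.Coprime.mul_right h.1 h.2) : ¬(k.Coprime q ∧ k.Coprime r))
        with h | h
      · rw [MulChar.map_nonunit χ fun hu => h ((ZMod.isUnit_iff_coprime k q).1 hu), zero_mul]
      · rw [MulChar.map_nonunit ψ fun hu => h ((ZMod.isUnit_iff_coprime k r).1 hu), map_zero, mul_zero]
  rw [Finset.sum_congr rfl fun k _ => hval k]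
  refine (FA.Siegel.norm_sum_range_le_of_periodic (g := fun k : ℕ => Φ (k : ZMod (q * r)))
    (fun k => by simp) ?_ (fun k => Φ.norm_le_one _) (NeZero.pos _) m).trans (le_of_eq (Nat.cast_mul q r))
  rw [← MulChar.sum_eq_zero_of_ne_one hΦ1]
  exact Finset.sum_nbij' (fun k => (k : ZMod (q * r))) (fun x => x.val) (by simp)
    (fun x _ => Finset.mem_coe.2 (Finset.mem_range.2 (ZMod.val_lt _)))
    (fun k hk => ZMod.val_cast_of_lt (Finset.mem_range.1 hk)) (fun x _ => ZMod.natCast_zmod_val x)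
    fun _ _ => rfl

/-- The characters of the family. -/
def family (Q : ℕ) : Finset (Σ q : ℕ, DirichletCharacter ℂ q) := (Icc 1 Q).sigma primChars

theorem mem_family {Q : ℕ} {z : Σ q : ℕ, DirichletCharacter ℂ q} :
    z ∈ family Q ↔ 1 ≤ z.1 ∧ z.1 ≤ Q ∧ z.2.IsPrimitive := by
  obtain ⟨q, χ⟩ := z
  rw [family, mem_sigma, mem_Icc, and_assoc]
  refine and_congr_right fun h => and_congr_right fun _ => ?_
  have : NeZero q := ⟨Nat.one_le_iff_ne_zero.1 h⟩
  exact mem_primChars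

theorem card_family_le (Q : ℕ) : ((family Q).card : ℝ) ≤ (Q : ℝ) ^ 2 := by
  rw [family, card_sigma]
  have h : ∀ q ∈ Icc 1 Q, (primChars q).card ≤ Q := fun q hq => by
    rw [mem_Icc] at hq
    have : NeZero q := ⟨by omega⟩
    refine (card_le_univ _).trans ?_
    rw [← Nat.card_eq_fintype_card, DirichletCharacter.card_eq_totient_of_hasEnoughRootsOfUnity]
    exact (Nat.totient_le q).trans hq.2
  have := Finset.sum_le_card_nsmul _ _ _ h
  rw [Nat.card_Icc, Nat.add_sub_cancel, smul_eq_mul] at this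
  rw [sq]
  exact_mod_cast this

/-- Two characters against the weights. -/
theorem norm_corr_le {z Q : ℕ} (hz : 1 ≤ z) {u v : Σ q : ℕ, DirichletCharacter ℂ q}
    (hu : u ∈ family Q) (hv : v ∈ family Q) (hne : u ≠ v) (M N : ℕ) :
    ‖∑ n ∈ Ioc M (M + N), (selW z n : ℂ) * (u.2 (n : ZMod u.1) * conj (v.2 (n : ZMod v.1)))‖ ≤
      2 * (Q : ℝ) ^ 2 * (z : ℝ) ^ 4 := by
  obtain ⟨hu1, huQ, hup⟩ := mem_family.1 hu
  obtain ⟨hv1, hvQ, hvp⟩ := mem_family.1 hv
  have : NeZero u.1 := ⟨by omega⟩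
  have : NeZero v.1 := ⟨by omega⟩
  obtain ⟨F, hF⟩ : ∃ F : ℕ → ℂ, F = fun n : ℕ => u.2 (n : ZMod u.1) * conj (v.2 (n : ZMod v.1)) := ⟨_, rfl⟩
  have hb : ∀ l : ℕ, 0 < l → ‖∑ n ∈ (Ioc M (M + N)).filter (l ∣ ·), F n‖ ≤ 2 * (Q : ℝ) ^ 2 := by
    intro l hl
    have e : ∑ n ∈ (Ioc M (M + N)).filter (l ∣ ·), F n =
        F l * ∑ k ∈ Ico (M / l + 1) ((M + N) / l + 1), F k := by
      rw [Finset.mul_sum]
      refine Finset.sum_nbij' (fun n => n / l) (fun k => l * k) ?_ ?_ ?_ ?_ ?_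
      · intro n hn
        simp only [mem_filter, mem_Ioc, mem_Ico] at hn ⊢
        obtain ⟨⟨h1, h2⟩, c, rfl⟩ := hn
        rw [Nat.mul_div_cancel_left c hl]
        refine ⟨Nat.succ_le_of_lt ((Nat.div_lt_iff_lt_mul hl).2 (by rwa [mul_comm])),
          Nat.lt_succ_of_le ((Nat.le_div_iff_mul_le hl).2 (by rwa [mul_comm]))⟩
      · intro k hk
        simp only [mem_filter, mem_Ioc, mem_Ico] at hk ⊢
        have h1 := (Nat.div_lt_iff_lt_mul hl).1 (Nat.lt_of_succ_le hk.1)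
        have h2 := (Nat.le_div_iff_mul_le hl).1 (Nat.le_of_lt_succ hk.2)
        exact ⟨⟨by rwa [mul_comm], by rwa [mul_comm]⟩, dvd_mul_right l k⟩
      · intro n hn
        exact Nat.mul_div_cancel' (mem_filter.1 hn).2
      · intro k _
        exact Nat.mul_div_cancel_left k hl
      · intro n hn
        rw [hF]
        obtain ⟨c, rfl⟩ := (mem_filter.1 hn).2
        simp only [Nat.mul_div_cancel_left c hl, Nat.cast_mul, map_mul]
        ring
    have h1 : ‖F l‖ ≤ 1 := by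
      simp only [hF, norm_mul, Complex.norm_conj]
      exact mul_le_one₀ (u.2.norm_le_one _) (norm_nonneg _) (v.2.norm_le_one _)
    rw [e, norm_mul]
    refine (mul_le_of_le_one_left (norm_nonneg _) h1).trans ?_
    have hp : ∀ m, ‖∑ k ∈ range m, F k‖ ≤ (Q : ℝ) ^ 2 := fun m => by
      rw [hF]
      refine (norm_sum_pair_le hup hvp hne m).trans ?_
      rw [sq]
      exact mul_le_mul (Nat.cast_le.2 huQ) (Nat.cast_le.2 hvQ) (Nat.cast_nonneg _) (Nat.cast_nonneg _)
    rw [Finset.sum_Ico_eq_sub _ (by gcongr; omega)]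
    exact (norm_sub_le _ _).trans (by linarith [hp ((M + N) / l + 1), hp (M / l + 1)])
  have h := selW_expand F Complex.ofRealHom (Ioc M (M + N)) z
  simp only [Complex.ofRealHom_eq_coe, hF] at h
  rw [h]
  refine (norm_sum_le _ _).trans ((Finset.sum_le_sum (g := fun d => |lam z d| *
    ((∑ e ∈ lamSupp z, |lam z e|) * (2 * (Q : ℝ) ^ 2))) fun d hd => (norm_sum_le _ _).trans ?_).trans ?_)
  · rw [Finset.sum_mul, Finset.mul_sum]
    refine Finset.sum_le_sum fun e he => ?_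
    rw [norm_mul, norm_real, Real.norm_eq_abs, abs_mul, ← mul_assoc]
    refine mul_le_mul_of_nonneg_left ?_ (by positivity)
    have := hb (Nat.lcm d e) (Nat.lcm_pos (Nat.pos_of_mem_divisors hd) (Nat.pos_of_mem_divisors he))
    rwa [hF] at this
  · rw [← Finset.sum_mul]
    have h0 := sum_abs_lam_le hz
    have h1 : 0 ≤ ∑ d ∈ lamSupp z, |lam z d| := Finset.sum_nonneg fun d _ => abs_nonneg _
    calc _ ≤ (z : ℝ) ^ 2 * ((z : ℝ) ^ 2 * (2 * (Q : ℝ) ^ 2)) := by gcongr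
      _ = _ := by ring

/-- **The large sieve on rough numbers.** -/
theorem rough_large_sieve {z : ℕ} (hz : 1 ≤ z) (Q M N : ℕ) {S : Finset ℕ}
    (hS : S ⊆ Ioc M (M + N)) (hrough : ∀ n ∈ S, Rough z n) (a : ℕ → ℂ) :
    ∑ u ∈ family Q, ‖∑ n ∈ S, a n * u.2 (n : ZMod u.1)‖ ^ 2 ≤
      (2 * N / Real.log (z + 1) + 2 * (z : ℝ) ^ 4 + 2 * (Q : ℝ) ^ 4 * (z : ℝ) ^ 4) *
        ∑ n ∈ S, ‖a n‖ ^ 2 := by
  classical
  obtain ⟨K, hK⟩ : ∃ K : ℝ,
      K = 2 * N / Real.log (z + 1) + 2 * (z : ℝ) ^ 4 + 2 * (Q : ℝ) ^ 4 * (z : ℝ) ^ 4 := ⟨_, rfl⟩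
  rw [← hK]
  have hK0 : 0 ≤ K := by
    have : 0 ≤ Real.log ((z : ℝ) + 1) := Real.log_nonneg (by linarith [(Nat.cast_nonneg z : (0 : ℝ) ≤ z)])
    rw [hK]; positivity
  obtain ⟨P, hP⟩ : ∃ P : (Σ q : ℕ, DirichletCharacter ℂ q) → ℂ,
      P = fun u => ∑ n ∈ S, a n * u.2 (n : ZMod u.1) := ⟨_, rfl⟩
  obtain ⟨T, hT⟩ : ∃ T : ℕ → ℂ, T = fun n : ℕ => ∑ u ∈ family Q, conj (P u) * u.2 (n : ZMod u.1) :=
    ⟨_, rfl⟩
  obtain ⟨L, hL⟩ : ∃ L : ℝ, L = ∑ u ∈ family Q, ‖P u‖ ^ 2 := ⟨_, rfl⟩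
  have hL0 : 0 ≤ L := hL ▸ sum_nonneg fun u _ => sq_nonneg _
  have hA0 : 0 ≤ ∑ n ∈ S, ‖a n‖ ^ 2 := sum_nonneg fun n _ => sq_nonneg _
  -- the dual form
  have hdual : ∑ n ∈ S, ‖T n‖ ^ 2 ≤ K * L := by
    refine le_trans (b := ∑ n ∈ Ioc M (M + N), selW z n * ‖T n‖ ^ 2) ?_ ?_
    · refine le_trans (le_of_eq (Finset.sum_congr rfl fun n hn => ?_))
        (Finset.sum_le_sum_of_subset_of_nonneg hS fun n _ _ => mul_nonneg (selW_nonneg z n) (sq_nonneg _))
      rw [selW_rough hz (hrough n hn), one_mul]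
    have hexp : ((∑ n ∈ Ioc M (M + N), selW z n * ‖T n‖ ^ 2 : ℝ) : ℂ) =
        ∑ u ∈ family Q, ∑ v ∈ family Q, conj (P u) * P v * ∑ n ∈ Ioc M (M + N),
          (selW z n : ℂ) * (u.2 (n : ZMod u.1) * conj (v.2 (n : ZMod v.1))) := by
      simp only [Complex.ofReal_sum, Complex.ofReal_mul, Complex.ofReal_pow, ← Complex.mul_conj', hT,
        map_sum, map_mul, Complex.conj_conj]
      simp only [Finset.sum_mul_sum]
      simp only [Finset.mul_sum]
      rw [Finset.sum_comm]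
      refine Finset.sum_congr rfl fun u _ => ?_
      rw [Finset.sum_comm]
      exact Finset.sum_congr rfl fun v _ => Finset.sum_congr rfl fun n _ => by ring
    have hnn : 0 ≤ ∑ n ∈ Ioc M (M + N), selW z n * ‖T n‖ ^ 2 :=
      sum_nonneg fun n _ => mul_nonneg (selW_nonneg z n) (sq_nonneg _)
    rw [← Real.norm_of_nonneg hnn, ← Complex.norm_real, hexp]
    refine (norm_sum_le _ _).trans ((Finset.sum_le_sum (g := fun u => ‖P u‖ *
      ((2 * N / Real.log (z + 1) + 2 * (z : ℝ) ^ 4) * ‖P u‖ +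
        2 * (Q : ℝ) ^ 2 * (z : ℝ) ^ 4 * ∑ v ∈ family Q, ‖P v‖)) fun u hu => ?_).trans ?_)
    · refine (norm_sum_le _ _).trans ?_
      rw [← Finset.add_sum_erase _ _ hu, mul_add]
      refine add_le_add ?_ ?_
      · rw [norm_mul, norm_mul, Complex.norm_conj, mul_assoc, mul_comm (2 * (N : ℝ) / _ + _)]
        refine mul_le_mul_of_nonneg_left (mul_le_mul_of_nonneg_left ((norm_sum_le _ _).trans
          (le_trans (Finset.sum_le_sum fun n _ => ?_) (sum_selW_le hz M N))) (norm_nonneg _)) (norm_nonneg _)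
        rw [norm_mul, norm_real, Real.norm_of_nonneg (selW_nonneg z n), norm_mul, Complex.norm_conj]
        exact mul_le_of_le_one_right (selW_nonneg z n)
          (mul_le_one₀ (u.2.norm_le_one _) (norm_nonneg _) (u.2.norm_le_one _))
      · rw [mul_comm (2 * (Q : ℝ) ^ 2 * (z : ℝ) ^ 4), Finset.sum_mul, Finset.mul_sum]
        refine le_trans (Finset.sum_le_sum fun v hv => ?_) (Finset.sum_le_sum_of_subset_of_nonneg
          (erase_subset u (family Q)) fun v _ _ => by positivity)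
        rw [norm_mul, norm_mul, Complex.norm_conj, mul_assoc]
        exact mul_le_mul_of_nonneg_left (mul_le_mul_of_nonneg_left
          (norm_corr_le hz hu (mem_of_mem_erase hv) (ne_of_mem_erase hv).symm M N) (norm_nonneg _))
          (norm_nonneg _)
    · simp only [mul_add, Finset.sum_add_distrib]
      rw [hK, add_mul (_ + _) (2 * (Q : ℝ) ^ 4 * (z : ℝ) ^ 4)]
      refine add_le_add (le_of_eq ?_) ?_
      · rw [hL, Finset.mul_sum]
        exact Finset.sum_congr rfl fun u _ => by ring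
      · rw [← Finset.sum_mul]
        have hcs := sq_sum_le_card_mul_sum_sq (s := family Q) (f := fun u => ‖P u‖)
        rw [← hL] at hcs
        have hcard := mul_le_mul_of_nonneg_right (card_family_le Q) hL0
        calc (∑ u ∈ family Q, ‖P u‖) * (2 * (Q : ℝ) ^ 2 * (z : ℝ) ^ 4 * ∑ v ∈ family Q, ‖P v‖)
            = 2 * (Q : ℝ) ^ 2 * (z : ℝ) ^ 4 * (∑ u ∈ family Q, ‖P u‖) ^ 2 := by ring
          _ ≤ 2 * (Q : ℝ) ^ 2 * (z : ℝ) ^ 4 * ((Q : ℝ) ^ 2 * L) :=
              mul_le_mul_of_nonneg_left (hcs.trans hcard) (by positivity)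
          _ = _ := by ring
  -- Cauchy
  have h1 : (L : ℂ) = ∑ n ∈ S, a n * T n := by
    rw [hL, Complex.ofReal_sum]
    simp only [Complex.ofReal_pow, ← Complex.conj_mul', hT, Finset.mul_sum]
    rw [Finset.sum_comm]
    refine Finset.sum_congr rfl fun u _ => ?_
    nth_rw 2 [hP]
    rw [Finset.mul_sum]
    exact Finset.sum_congr rfl fun n _ => by ring
  have h2 : L ≤ √(∑ n ∈ S, ‖a n‖ ^ 2) * √(K * L) := by
    have h := congrArg norm h1
    rw [Complex.norm_real, Real.norm_of_nonneg hL0] at h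
    refine le_of_eq_of_le h ((norm_sum_le _ _).trans ?_)
    simp only [norm_mul]
    exact (Real.sum_mul_le_sqrt_mul_sqrt _ _ _).trans
      (mul_le_mul_of_nonneg_left (Real.sqrt_le_sqrt hdual) (Real.sqrt_nonneg _))
  have h3 : L ^ 2 ≤ (∑ n ∈ S, ‖a n‖ ^ 2) * (K * L) := by
    refine (pow_le_pow_left₀ hL0 h2 2).trans (le_of_eq ?_)
    rw [mul_pow, Real.sq_sqrt hA0, Real.sq_sqrt (mul_nonneg hK0 hL0)]
  have : L ≤ K * ∑ n ∈ S, ‖a n‖ ^ 2 := by
    rcases hL0.eq_or_lt with h0 | h0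
    · rw [← h0]; exact mul_nonneg hK0 hA0
    · nlinarith
  rw [hL, hP] at this
  exact this

end FA.Gallagher

end
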