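import Fermat.Agent.Gallagher.Moments
import Fermat.Agent.LinnikPrime.Density
import Fermat.Agent.LinnikPrime.Zone

/-!
# A zero near `re s = 1` makes a long sum over primes large

For a zero `ρ` with `1 - re ρ ≤ r`, `l = r L ≥ 1` and `|t - im ρ| ≤ r` there is `k` of order `l` with
`r ^ (k + 1) |∑ χ(p) (log p) ^ (k + 1) / k! p ^ (- 1 - r - it)| ≥ exp (- O (l))`, the sum over primes
`exp (12 L) ≤ p ≤ exp (O (L))`: Turán's second theorem against the explicit formula at height `t`.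
-/

set_option autoImplicit false
set_option linter.unusedSectionVars false

noncomputable section

open Complex Finset
open FA.LinnikPrime (clear pol pol_of_ne_one mom zmom coef coef_nonneg chTerm line line_re line_im momC
  one_le_momC exists_norm_powSum_ge_shift pow_ineq small_exp zmom_le zmom_nonneg hasSum_zmom hasSum_mom
  norm_coef_chTerm_le re_lt_one_of_clear exists_zeta_zone sq_le_of_abs_le)
open FA.LMO (powC powC_nonneg sum_nonprime_le)
open scoped Nat Real Classical ArithmeticFunction.vonMangoldt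

namespace FA.Gallagher

/-- **Turán at a point.** Points at distance at least `r` from `s`, one within `3 r`, few near. -/
theorem exists_invPow_sum_ge {M : Multiset ℂ} {s : ℂ} {r : ℝ} (hr : 0 < r)
    (hdist : ∀ w ∈ M, r ≤ ‖s - w‖) {ρ : ℂ} (hρ : ρ ∈ M) (hρd : ‖s - ρ‖ ≤ 3 * r) {G l B : ℝ}
    (hG : 0 ≤ G) (hl : 1 ≤ l) (hsq : (M.map fun w => (r / ‖s - w‖) ^ 2).sum ≤ (2 + G) * l)
    (hB : 8 * (2500 * (2 + G)) + G + 18 ≤ B) :
    ∃ k : ℕ, B * l ≤ k ∧ (k : ℝ) ≤ 2 * B * l ∧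
      Real.exp (-(4 * (k : ℝ))) ≤ r ^ (k + 1) * ‖(M.map fun w => ((s - w) ^ (k + 1))⁻¹).sum‖ := by
  obtain ⟨W, hW⟩ : ∃ W, W = M.filter fun w => ‖s - w‖ ≤ 50 * r := ⟨_, rfl⟩
  obtain ⟨O, hO⟩ : ∃ O, O = M.filter fun w => ¬ ‖s - w‖ ≤ 50 * r := ⟨_, rfl⟩
  have hWO : W + O = M := by rw [hW, hO]; exact Multiset.filter_add_not _ _
  have hpos : ∀ w ∈ M, 0 < ‖s - w‖ := fun w hw => hr.trans_le (hdist w hw)
  obtain ⟨Z, hZ⟩ : ∃ Z : Multiset ℂ, Z = W.map fun w => (r : ℂ) / (s - w) := ⟨_, rfl⟩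
  have hnorm : ∀ w : ℂ, ‖(r : ℂ) / (s - w)‖ = r / ‖s - w‖ := fun w => by
    rw [norm_div, norm_real, Real.norm_of_nonneg hr.le]
  have hρW : ρ ∈ W := hW ▸ Multiset.mem_filter.2 ⟨hρ, by linarith⟩
  have hz₀ : (r : ℂ) / (s - ρ) ∈ Z := hZ ▸ Multiset.mem_map_of_mem _ hρW
  obtain ⟨a, ha, hmax⟩ := Z.toFinset.exists_max_image (fun z => ‖z‖) ⟨_, Multiset.mem_toFinset.2 hz₀⟩
  rw [Multiset.mem_toFinset] at ha
  have ha3 : 1 / 3 ≤ ‖a‖ := by
    refine le_trans ?_ (hmax _ (Multiset.mem_toFinset.2 hz₀))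
    rw [hnorm, le_div_iff₀ (hpos ρ hρ)]
    linarith
  obtain ⟨m, hm⟩ : ∃ m : ℕ, m = ⌈B * l⌉₊ := ⟨_, rfl⟩
  obtain ⟨j, hj1, hj2, hj⟩ := exists_norm_powSum_ge_shift Z ha (norm_pos_iff.1 (by linarith))
    (fun z hz => hmax z (Multiset.mem_toFinset.2 hz)) m
  obtain ⟨y, hy⟩ : ∃ y, y = (2 + G) * l := ⟨_, rfl⟩
  have hy0 : 0 < y := hy ▸ mul_pos (by linarith) (by linarith)
  rw [← hy, ← hWO, Multiset.map_add, Multiset.sum_add] at hsq
  have hnn : ∀ T : Multiset ℂ, 0 ≤ (T.map fun w => (r / ‖s - w‖) ^ 2).sum := fun T =>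
    Multiset.sum_nonneg fun x hx => by
      obtain ⟨w, -, rfl⟩ := Multiset.mem_map.1 hx
      positivity
  have hcard : (Multiset.card Z : ℝ) ≤ 2500 * y := by
    have h1 : (Multiset.card W : ℝ) * (1 / 2500) ≤ (W.map fun w => (r / ‖s - w‖) ^ 2).sum := by
      have := Multiset.card_nsmul_le_sum (s := W.map fun w => (r / ‖s - w‖) ^ 2)
        (a := (1 / 2500 : ℝ)) fun x hx => by
          obtain ⟨w, hw, rfl⟩ := Multiset.mem_map.1 hx
          rw [hW] at hw
          obtain ⟨hwn, hwd⟩ := Multiset.mem_filter.1 hw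
          have h4 := hpos w hwn
          rw [div_pow, le_div_iff₀ (by positivity)]
          nlinarith
      rwa [Multiset.card_map, nsmul_eq_mul] at this
    rw [hZ, Multiset.card_map]
    linarith [hnn O]
  have hm1 : B * l ≤ m := hm ▸ Nat.le_ceil _
  have hB0 : 0 ≤ B := by linarith
  have hm2 : (m : ℝ) ≤ B * l + 1 := hm ▸ (Nat.ceil_lt_add_one (mul_nonneg hB0 (by linarith))).le
  have hBl : 8 * (2500 * y) + G * l + 18 * l ≤ B * l := by
    have := mul_le_mul_of_nonneg_right hB (show 0 ≤ l by linarith)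
    rw [hy]
    linarith
  have hGl : 0 ≤ G * l := mul_nonneg hG (by linarith)
  have hy2 : y = 2 * l + G * l := by rw [hy]; ring
  have hj1' : (m : ℝ) + 1 ≤ j := by exact_mod_cast hj1
  have hj2' : (j : ℝ) ≤ m + 2500 * y := by
    have : (j : ℝ) ≤ m + Multiset.card Z := by exact_mod_cast hj2
    linarith
  have hineq := pow_ineq (n := Multiset.card Z) hy0 (m := m) (j := j) (by linarith) hj1
  have hj2n : 2 ≤ j := by
    have : (1 : ℝ) ≤ m := by nlinarith
    have : 1 ≤ m := by exact_mod_cast this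
    omega
  -- the points far away
  have hfar : ‖(O.map fun w => ((r : ℂ) / (s - w)) ^ j).sum‖ ≤ (1 / 50) ^ (j - 2) * y := by
    refine (norm_multiset_sum_le _).trans ?_
    rw [Multiset.map_map]
    refine (Multiset.sum_map_le_sum_map _
      (fun w => (1 / 50 : ℝ) ^ (j - 2) * (r / ‖s - w‖) ^ 2) fun w hw => ?_).trans ?_
    · rw [hO] at hw
      obtain ⟨hwn, hwd⟩ := Multiset.mem_filter.1 hw
      rw [Function.comp_apply, norm_pow, hnorm, ← Nat.sub_add_cancel hj2n, pow_add, Nat.add_sub_cancel]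
      refine mul_le_mul_of_nonneg_right (pow_le_pow_left₀ (by positivity) ?_ _) (sq_nonneg _)
      rw [div_le_iff₀ (hpos w hwn)]
      linarith [not_le.1 hwd]
    · rw [Multiset.sum_map_mul_left]
      exact mul_le_mul_of_nonneg_left (by linarith [hnn W]) (by positivity)
  have hlow : (1 / 3) ^ j / (2 ^ (m + 1) * 88 ^ Multiset.card Z) ≤ ‖(Z.map fun z => z ^ j).sum‖ :=
    (div_le_div_of_nonneg_right (pow_le_pow_left₀ (by norm_num) ha3 j) (by positivity)).trans hj
  have hhalf : (1 / 50 : ℝ) ^ (j - 2) * y ≤ (1 / 3) ^ j / (2 ^ (m + 1) * 88 ^ Multiset.card Z) / 2 := by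
    rw [div_div, le_div_iff₀ (by positivity)]
    refine le_of_mul_le_mul_left ?_ (show (0 : ℝ) < 50 ^ j by positivity)
    have e1 : (50 : ℝ) ^ j * (1 / 3) ^ j = (50 / 3) ^ j := by rw [← mul_pow]; norm_num
    have e2 : (50 : ℝ) ^ j * (1 / 50) ^ (j - 2) = 2500 := by
      conv_lhs => rw [← Nat.add_sub_cancel' hj2n, Nat.add_sub_cancel_left, pow_add, mul_assoc, ← mul_pow]
      norm_num
    rw [mul_assoc ((1 / 50 : ℝ) ^ (j - 2)), ← mul_assoc ((50 : ℝ) ^ j), e2, e1]
    linarith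
  obtain ⟨k, hk⟩ : ∃ k, j = k + 1 := ⟨j - 1, by omega⟩
  have hkj : (j : ℝ) = k + 1 := by rw [hk]; push_cast; rfl
  refine ⟨k, by linarith, by linarith, ?_⟩
  have hsplit : (r ^ (k + 1) : ℝ) * ‖(M.map fun w => ((s - w) ^ (k + 1))⁻¹).sum‖ =
      ‖(Z.map fun z => z ^ j).sum + (O.map fun w => ((r : ℂ) / (s - w)) ^ j).sum‖ := by
    rw [hZ, Multiset.map_map, ← Multiset.sum_add]
    simp only [Function.comp_def]
    rw [← Multiset.map_add, hWO, ← Real.norm_of_nonneg (pow_nonneg hr.le (k + 1)), ← norm_real,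
      ← norm_mul, ← Multiset.sum_map_mul_left, ofReal_pow, hk]
    refine congrArg norm (congrArg Multiset.sum (Multiset.map_congr rfl fun w _ => ?_))
    rw [div_pow, div_eq_mul_inv]
  have htri := norm_sub_le ((Z.map fun z => z ^ j).sum +
    (O.map fun w => ((r : ℂ) / (s - w)) ^ j).sum) (O.map fun w => ((r : ℂ) / (s - w)) ^ j).sum
  rw [add_sub_cancel_right] at htri
  have hexp : Real.exp (-(4 * (k : ℝ))) ≤ (1 / 3) ^ j / (2 ^ (m + 1) * 88 ^ Multiset.card Z) / 2 := by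
    rw [div_div, one_div, inv_pow, div_eq_mul_inv, ← mul_inv, Real.exp_neg]
    refine inv_anti₀ (by positivity) ?_
    have h2e : (2 : ℝ) ≤ Real.exp 1 := by linarith [Real.add_one_le_exp (1 : ℝ)]
    have h3e : (3 : ℝ) ≤ Real.exp 2 := by linarith [Real.add_one_le_exp (2 : ℝ)]
    have h88 : (88 : ℝ) ≤ Real.exp 5 := by
      rw [show (5 : ℝ) = ((5 : ℕ) : ℝ) * 1 by norm_num, Real.exp_nat_mul]
      exact le_trans (by norm_num) (pow_le_pow_left₀ (by norm_num : (0 : ℝ) ≤ 2.7)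
        (by linarith [Real.exp_one_gt_d9]) 5)
    calc (3 : ℝ) ^ j * (2 ^ (m + 1) * 88 ^ Multiset.card Z * 2) ≤
          Real.exp 2 ^ j * (Real.exp 1 ^ (m + 1) * Real.exp 5 ^ Multiset.card Z * Real.exp 1) := by
          gcongr
      _ = Real.exp (2 * j + ((m : ℝ) + 1 + 5 * Multiset.card Z + 1)) := by
          simp only [← Real.exp_nat_mul, ← Real.exp_add]
          push_cast
          ring_nf
      _ ≤ _ := Real.exp_le_exp.2 (by linarith)
  rw [hsplit]
  linarith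

variable {q : ℕ} [NeZero q] (χ : DirichletCharacter ℂ q)

/-- The exponents used are between `densG l` and `2 densG l`. -/
def densG : ℝ :=
  8 * (2500 * (2 + landG)) + landG + 18 + 12 * Real.exp 9 + 4 * (1 + 448 * rimG + 3 * momC + powC)

/-- `r` is at most this. -/
def densR : ℝ := min (Real.exp (-8) / 128) (exists_zeta_zone.choose / 2)

theorem densR_pos : 0 < densR :=
  lt_min (by positivity) (by linarith [exists_zeta_zone.choose_spec.1])

theorem densR_le : densR ≤ Real.exp (-8) / 128 := min_le_left _ _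

theorem densR_le' : densR ≤ 1 / 256 :=
  densR_le.trans (by
    rw [div_le_iff₀ (by norm_num : (0 : ℝ) < 128), Real.exp_neg, inv_le_iff_one_le_mul₀ (Real.exp_pos _)]
    linarith [Real.add_one_le_exp (8 : ℝ)])

theorem densG_facts : 1 ≤ densG ∧ 8 * (2500 * (2 + landG)) + landG + 18 ≤ densG ∧
    12 * Real.exp 9 ≤ densG ∧ 4 * (1 + 448 * rimG + 3 * momC + powC) ≤ densG := by
  have := one_le_landG
  have := one_le_momC
  have := one_le_rimG
  have := powC_nonneg
  have := Real.exp_pos 9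
  rw [densG]
  refine ⟨?_, ?_, ?_, ?_⟩ <;> linarith

/-- The primes used. -/
def primeWin (L : ℝ) : Finset ℕ :=
  (range (⌊Real.exp (40 * densG * L)⌋₊ + 1)).filter fun n => n.Prime ∧ 12 * L ≤ Real.log n

/-- The sum used. -/
def winPoly (L : ℝ) (k : ℕ) (r t : ℝ) : ℂ :=
  ∑ n ∈ primeWin L, (coef k r n : ℂ) * chTerm χ t n

theorem prime_of_primeWin {L : ℝ} {n : ℕ} (h : n ∈ primeWin L) : n.Prime := (Finset.mem_filter.1 h).2.1

/-- **Only the primes of the window count.** -/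
theorem norm_mom_sub_winPoly_le {L r : ℝ} (hr : 0 < r) (hr' : r ≤ densR) (hl : 1 ≤ r * L) {k : ℕ}
    (hk : densG * (r * L) ≤ k) (hk2 : (k : ℝ) ≤ 2 * densG * (r * L)) (t : ℝ) :
    r ^ (k + 1) * ‖mom χ k r t - winPoly χ L k r t‖ ≤
      (3 * momC + powC) * Real.exp (-(6 * (k : ℝ))) := by
  obtain ⟨hB1, -, hB3, -⟩ := densG_facts
  have hr128 : r ≤ 1 / 128 := by linarith [densR_le']
  have hL : 0 < L := pos_of_mul_pos_right (by linarith) hr.le
  obtain ⟨c₁, hc₁⟩ : ∃ c₁ : ℝ, c₁ = (12 * L) ^ k / k ! := ⟨_, rfl⟩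
  obtain ⟨c₂, hc₂⟩ : ∃ c₂ : ℝ, c₂ = Real.exp (-(40 * densG * L * (r / 2))) := ⟨_, rfl⟩
  obtain ⟨G, hG⟩ : ∃ G : ℕ → ℝ,
      G = fun n => if n.Prime then 0 else Λ n * (n : ℝ) ^ (-(3 / 4) : ℝ) := ⟨_, rfl⟩
  have hG0 : ∀ n, 0 ≤ G n := fun n => by
    simp only [hG]
    split_ifs
    · exact le_rfl
    · exact mul_nonneg ArithmeticFunction.vonMangoldt_nonneg (Real.rpow_nonneg (Nat.cast_nonneg n) _)
  have hGsum : ∀ N, ∑ n ∈ range N, G n ≤ powC := fun N => by
    rcases N with _ | N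
    · simpa using powC_nonneg
    · simpa only [hG] using sum_nonprime_le N
  have hGs : Summable G := summable_of_sum_range_le hG0 hGsum
  have hGt : ∑' n, G n ≤ powC := Real.tsum_le_of_sum_range_le hG0 hGsum
  have hc₁0 : 0 ≤ c₁ := by rw [hc₁]; positivity
  have hc₂0 : 0 ≤ c₂ := hc₂ ▸ (Real.exp_pos _).le
  obtain ⟨f, hf⟩ : ∃ f : ℕ → ℂ, f = fun n => (coef k r n : ℂ) * chTerm χ t n := ⟨_, rfl⟩
  have hfin : HasSum (fun n => if n ∈ primeWin L then f n else 0) (winPoly χ L k r t) := by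
    have := hasSum_sum_of_ne_finset_zero (L := SummationFilter.unconditional ℕ)
      (f := fun n => if n ∈ primeWin L then f n else 0) (s := primeWin L) fun n hn => if_neg hn
    rw [Finset.sum_congr rfl fun n hn => if_pos hn] at this
    simpa only [winPoly, hf] using this
  have hsub := (hf ▸ hasSum_mom χ k hr t : HasSum f (mom χ k r t)).sub hfin
  have hg := (((hasSum_zmom 0 hr).mul_left c₁).add ((hasSum_zmom k (half_pos hr)).mul_left c₂)).add
    (hGs.hasSum.mul_left ((4 : ℝ) ^ k))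
  have hbound : ∀ n, ‖f n - if n ∈ primeWin L then f n else 0‖ ≤
      c₁ * coef 0 r n + c₂ * coef k (r / 2) n + 4 ^ k * G n := fun n => by
    have h1 := mul_nonneg hc₁0 (coef_nonneg 0 r n)
    have h2 := mul_nonneg hc₂0 (coef_nonneg k (r / 2) n)
    have h3 : (0 : ℝ) ≤ 4 ^ k * G n := mul_nonneg (by positivity) (hG0 n)
    split_ifs with hn
    · rw [sub_self, norm_zero]; linarith
    rw [sub_zero, hf]
    refine (norm_coef_chTerm_le χ k r t n).trans ?_
    by_cases hp : n.Prime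
    · refine le_add_of_le_of_nonneg ?_ h3
      rcases lt_or_ge (Real.log n) (12 * L) with hs | hb
      · refine le_add_of_le_of_nonneg ?_ h2
        rw [coef, coef, ← mul_assoc]
        refine mul_le_mul_of_nonneg_right ?_ ArithmeticFunction.vonMangoldt_nonneg
        rw [FA.LMO.wgt, FA.LMO.wgt, pow_zero, Nat.factorial_zero, Nat.cast_one, div_one, one_mul, hc₁]
        exact mul_le_mul_of_nonneg_right (div_le_div_of_nonneg_right
          (pow_le_pow_left₀ (Real.log_natCast_nonneg n) hs.le k) (Nat.cast_nonneg _))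
          (Real.rpow_nonneg (Nat.cast_nonneg n) _)
      · refine le_add_of_nonneg_of_le h1 ?_
        rw [coef, coef, ← mul_assoc, hc₂]
        refine mul_le_mul_of_nonneg_right (FA.LMO.wgt_le_tail k hr.le ?_)
          ArithmeticFunction.vonMangoldt_nonneg
        have hn' : ¬ n < ⌊Real.exp (40 * densG * L)⌋₊ + 1 := fun h =>
          hn (Finset.mem_filter.2 ⟨Finset.mem_range.2 h, hp, hb⟩)
        exact (Nat.lt_floor_add_one _).le.trans (by exact_mod_cast not_lt.1 hn')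
    · refine le_add_of_nonneg_of_le (by linarith) ?_
      simp only [hG, if_neg hp, coef]
      rw [mul_left_comm, mul_comm (FA.LMO.wgt k r n)]
      exact mul_le_mul_of_nonneg_left (FA.LMO.wgt_le k hr.le n) ArithmeticFunction.vonMangoldt_nonneg
  have hsum : ‖mom χ k r t - winPoly χ L k r t‖ ≤
      c₁ * zmom 0 r + c₂ * zmom k (r / 2) + 4 ^ k * ∑' n, G n := by
    rw [← hsub.tsum_eq]
    exact tsum_of_norm_bounded hg hbound
  refine (mul_le_mul_of_nonneg_left hsum (by positivity)).trans ?_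
  have hm0 := zmom_le 0 hr hr128
  rw [zero_add, pow_one] at hm0
  have hmk := zmom_le k (half_pos hr) (by linarith)
  have hmom0 : 0 ≤ momC := by linarith [one_le_momC]
  have hs1 : r ^ (k + 1) * (c₁ * zmom 0 r) ≤ momC * Real.exp (-(6 * (k : ℝ))) := by
    have e : r ^ (k + 1) * (c₁ * zmom 0 r) = (12 * (r * L)) ^ k / k ! * (zmom 0 r * r) := by
      rw [hc₁, pow_succ, mul_pow, mul_pow, mul_pow]; ring
    rw [e, mul_comm momC]
    refine mul_le_mul ?_ hm0 (mul_nonneg (zmom_nonneg 0 r) hr.le) (Real.exp_pos _).le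
    have h4 : 12 * (r * L) ≤ Real.exp (-9) * k := by
      rw [Real.exp_neg, inv_mul_eq_div, le_div_iff₀ (Real.exp_pos _)]
      have := mul_le_mul_of_nonneg_right hB3 (show 0 ≤ r * L by linarith)
      linarith
    refine (div_le_div_of_nonneg_right (pow_le_pow_left₀ (by positivity) h4 k) (Nat.cast_nonneg _)).trans ?_
    rw [mul_pow, mul_div_assoc, ← Real.exp_nat_mul]
    refine (mul_le_mul_of_nonneg_left (Real.pow_div_factorial_le_exp (x := (k : ℝ)) (Nat.cast_nonneg k) k)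
      (Real.exp_pos _).le).trans ?_
    rw [← Real.exp_add, Real.exp_le_exp]
    linarith
  have hs2 : r ^ (k + 1) * (c₂ * zmom k (r / 2)) ≤ 2 * momC * Real.exp (-(6 * (k : ℝ))) := by
    have e : r ^ (k + 1) * (c₂ * zmom k (r / 2)) = c₂ * 2 ^ (k + 1) * (zmom k (r / 2) * (r / 2) ^ (k + 1)) := by
      rw [show r ^ (k + 1) = 2 ^ (k + 1) * (r / 2) ^ (k + 1) by rw [← mul_pow]; ring_nf]; ring
    rw [e]
    refine (mul_le_mul_of_nonneg_left hmk (by positivity)).trans ?_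
    rw [pow_succ, show c₂ * (2 ^ k * 2) * momC = 2 * momC * (c₂ * 2 ^ k) by ring]
    refine mul_le_mul_of_nonneg_left ?_ (by positivity)
    have h2e : (2 : ℝ) ^ k ≤ Real.exp k := by
      rw [show Real.exp k = Real.exp 1 ^ k by rw [← Real.exp_nat_mul, mul_one]]
      exact pow_le_pow_left₀ zero_le_two (by linarith [Real.add_one_le_exp (1 : ℝ)]) k
    refine (mul_le_mul_of_nonneg_left h2e hc₂0).trans ?_
    rw [hc₂, ← Real.exp_add, Real.exp_le_exp]
    linarith
  have hs3 : r ^ (k + 1) * (4 ^ k * ∑' n, G n) ≤ powC * Real.exp (-(6 * (k : ℝ))) := by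
    rw [mul_comm powC, ← mul_assoc]
    refine mul_le_mul ?_ hGt (tsum_nonneg hG0) (Real.exp_pos _).le
    rw [pow_succ', mul_assoc, ← mul_pow, show -(6 * (k : ℝ)) = (k : ℝ) * (-6) by ring, Real.exp_nat_mul]
    refine (mul_le_of_le_one_left (by positivity) (by linarith)).trans
      (pow_le_pow_left₀ (by positivity) ?_ k)
    have h1 := hr'.trans densR_le
    have h2 : Real.exp (-8) ≤ Real.exp (-6) := Real.exp_le_exp.2 (by norm_num)
    linarith [Real.exp_pos (-6 : ℝ)]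
  linarith

/-- A zero close in height is near and counts `1 / 5` in Landau's sum. -/
theorem norm_line_sub_le_of_close {r : ℝ} (hr : 0 < r) (hr' : r ≤ densR) {ρ : ℂ} (h : clear χ ρ = 0)
    (hre : 1 - r ≤ ρ.re) {t : ℝ} (ht : |t - ρ.im| ≤ r) :
    ρ ∈ nearAt χ t ∧ ‖ρ - pt t‖ ≤ 1 / 4 ∧ ‖line r t - ρ‖ ^ 2 ≤ 5 * r ^ 2 := by
  have h1 := re_lt_one_of_clear h
  have h256 := hr'.trans densR_le'
  have him : |ρ.im - t| ≤ 1 / 8 := by rw [abs_sub_comm]; linarith
  refine ⟨mem_nearAt h (by linarith) him, norm_sub_pt_le h1.le (by linarith) him, ?_⟩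
  have h2 := sq_le_of_abs_le ht
  rw [← normSq_eq_norm_sq, normSq_apply, sub_re, sub_im, line_re, line_im]
  nlinarith

/-- The pole is negligible at such a point. -/
theorem norm_pol_mul_le (k : ℕ) {r : ℝ} (hr : 0 < r) (hr' : r ≤ densR) {ρ : ℂ} (h : clear χ ρ = 0)
    (hre : 1 - r ≤ ρ.re) {t : ℝ} (ht : |t - ρ.im| ≤ r) :
    ‖pol χ * (((r : ℂ) + (t : ℂ) * I) ^ (k + 1))⁻¹‖ * r ^ (k + 1) ≤ Real.exp (-(6 * (k : ℝ))) := by
  by_cases hχ : χ = 1
  · subst hχ
    have h4 : 1 / 4 < |ρ.im| := by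
      by_contra hle
      have := exists_zeta_zone.choose_spec.2.2 q ρ h (not_lt.1 hle)
      have h5 : r ≤ exists_zeta_zone.choose / 2 := hr'.trans (min_le_right _ _)
      linarith [exists_zeta_zone.choose_spec.1]
    have h8 : 1 / 8 ≤ |t| := by
      have h6 := abs_sub_abs_le_abs_sub ρ.im t
      rw [abs_sub_comm] at h6
      linarith [hr'.trans densR_le']
    have hn : |t| ≤ ‖(r : ℂ) + (t : ℂ) * I‖ := by
      refine le_trans ?_ (abs_im_le_norm _)
      simp
    rw [FA.LinnikPrime.pol_one, one_mul, norm_inv, norm_pow, ← inv_pow, ← mul_pow,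
      show -(6 * (k : ℝ)) = (k : ℝ) * (-6) by ring, Real.exp_nat_mul, pow_succ]
    have h9 : ‖(r : ℂ) + (t : ℂ) * I‖⁻¹ * r ≤ 8 * r := by
      refine mul_le_mul_of_nonneg_right ?_ hr.le
      rw [inv_le_iff_one_le_mul₀ (by linarith)]
      linarith
    have h10 : 8 * r ≤ Real.exp (-6) := by
      have h1 := hr'.trans densR_le
      have h2 : Real.exp (-8) ≤ Real.exp (-6) := Real.exp_le_exp.2 (by norm_num)
      linarith [Real.exp_pos (-6 : ℝ)]
    have h11 : 8 * r ≤ 1 := by linarith [hr'.trans densR_le']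
    refine (mul_le_of_le_one_right (by positivity) (h9.trans h11)).trans ?_
    exact pow_le_pow_left₀ (by positivity) (h9.trans h10) k
  · rw [pol_of_ne_one hχ, zero_mul, norm_zero, zero_mul]
    exact (Real.exp_pos _).le

/-- **A zero makes a window sum large.** -/
theorem exists_winPoly_ge {L r : ℝ} (hr : 0 < r) (hr' : r ≤ densR) (hl : 1 ≤ r * L) {ρ : ℂ}
    (h : clear χ ρ = 0) (hre : 1 - r ≤ ρ.re) {t : ℝ} (hc : |t - ρ.im| ≤ r) (htL : ht q t ≤ L) :
    ∃ k : ℕ, (k : ℝ) ≤ 2 * densG * (r * L) ∧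
      Real.exp (-(4 * (k : ℝ))) / 2 ≤ r ^ (k + 1) * ‖winPoly χ L k r t‖ := by
  obtain ⟨hB1, hB2, -, hB4⟩ := densG_facts
  have hrim := one_le_rimG
  have h256 := hr'.trans densR_le'
  obtain ⟨hmem, -, hclose⟩ := norm_line_sub_le_of_close χ hr hr' h hre hc
  have hρd : ‖line r t - ρ‖ ≤ 3 * r := by nlinarith [norm_nonneg (line r t - ρ)]
  have hsq : ((nearAt χ t).map fun w => (r / ‖line r t - w‖) ^ 2).sum ≤ (2 + landG) * (r * L) := by
    refine (sum_sq_le χ hr (by linarith) t).trans ?_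
    have := mul_le_mul_of_nonneg_left htL (mul_nonneg (show 0 ≤ landG by linarith [one_le_landG]) hr.le)
    rw [add_mul]
    linarith
  obtain ⟨k, hk1, hk2, hk⟩ := exists_invPow_sum_ge hr (fun w hw => le_norm_line_sub χ hw r t) hmem hρd
    (by linarith [one_le_landG]) hl hsq hB2
  refine ⟨k, hk2, ?_⟩
  change Real.exp (-(4 * (k : ℝ))) ≤ r ^ (k + 1) * ‖zsumAt χ k r t‖ at hk
  have hpol := norm_pol_mul_le χ k hr hr' h hre hc
  have hform := mom_formula χ k hr (by linarith) t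
  have hm := norm_mom_sub_winPoly_le χ hr hr' hl hk1 hk2 t
  have herr : errAt q k t * r ^ (k + 1) ≤ 448 * rimG * Real.exp (-(6 * (k : ℝ))) := by
    have hlk : r * L ≤ k := (le_mul_of_one_le_left (by linarith) hB1).trans hk1
    have h32 : (32 * r) ^ k ≤ Real.exp (-(8 * (k : ℝ))) := by
      rw [show -(8 * (k : ℝ)) = (k : ℝ) * (-8) by ring, Real.exp_nat_mul]
      exact pow_le_pow_left₀ (by positivity)
        (by linarith [hr'.trans densR_le, Real.exp_pos (-8 : ℝ)]) k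
    have hkk : ((k : ℝ) + 1) * (r * ht q t) ≤ Real.exp (2 * (k : ℝ)) := by
      rw [two_mul, Real.exp_add]
      refine mul_le_mul (Real.add_one_le_exp _) ?_ (mul_nonneg hr.le (ht_pos q t).le) (Real.exp_pos _).le
      have := mul_le_mul_of_nonneg_left htL hr.le
      linarith [Real.add_one_le_exp (k : ℝ)]
    calc errAt q k t * r ^ (k + 1)
        = 448 * rimG * (((k : ℝ) + 1) * (r * ht q t)) * (32 * r) ^ k := by
          rw [errAt, mul_pow, pow_succ, pow_succ]; ring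
      _ ≤ 448 * rimG * Real.exp (2 * (k : ℝ)) * Real.exp (-(8 * (k : ℝ))) :=
          mul_le_mul (mul_le_mul_of_nonneg_left hkk (by positivity)) h32 (by positivity) (by positivity)
      _ = _ := by rw [mul_assoc, ← Real.exp_add]; ring_nf
  have hk0 : densG ≤ k := (le_mul_of_one_le_right (by linarith) hl).trans hk1
  have hsmall := small_exp (X := 1 + 448 * rimG + 3 * momC + powC) (k := k) (by linarith)
  obtain ⟨M, hM⟩ : ∃ M, M = mom χ k r t := ⟨_, rfl⟩
  obtain ⟨P, hP⟩ : ∃ P, P = winPoly χ L k r t := ⟨_, rfl⟩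
  obtain ⟨A, hA⟩ : ∃ A, A = pol χ * (((r : ℂ) + (t : ℂ) * I) ^ (k + 1))⁻¹ := ⟨_, rfl⟩
  obtain ⟨Z, hZ⟩ : ∃ Z, Z = zsumAt χ k r t := ⟨_, rfl⟩
  rw [← hM, ← hA, ← hZ] at hform
  rw [← hM, ← hP] at hm
  rw [← hA] at hpol
  rw [← hZ] at hk
  rw [← hP]
  have hz : ‖Z‖ ≤ ‖M - (A - Z)‖ + ‖A‖ + ‖M - P‖ + ‖P‖ := by
    have h1 : ‖Z‖ ≤ ‖M - (A - Z)‖ + ‖A - M‖ := by
      refine le_trans (le_of_eq ?_) (norm_add_le _ _)
      congr 1
      ring
    have h2 := norm_sub_le A M
    have h3 := norm_sub_norm_le M P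
    linarith
  have h3 := mul_le_mul_of_nonneg_left hz (show 0 ≤ r ^ (k + 1) by positivity)
  have h4 := mul_le_mul_of_nonneg_left hform (show 0 ≤ r ^ (k + 1) by positivity)
  linarith [Real.exp_pos (-(4 * (k : ℝ)))]

end FA.Gallagher

end
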