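import Fermat.Agent.Gallagher.Count
import Fermat.Agent.Gallagher.Disc

/-!
# The zeros of one function in the right half of the strip up to a height, and the logarithmic derivative

The finitely many zeros with `re ≥ 1 / 2`, `|im| ≤ U`, their sum `∑ 1 / (1 + γ ^ 2)`, and
`|f' / f (s)| ≤ O (L) + ∑ 1 / |s - ρ|` over those within `1 / 4` in height.
-/

set_option autoImplicit false
set_option linter.unusedSectionVars false

noncomputable section

open Complex Metric Set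
open FA.LinnikPrime (clear differentiable_clear clear_ne_zero re_lt_one_of_clear lg)
open scoped Nat Real Classical

namespace FA.Gallagher

variable {q : ℕ} [NeZero q]

theorem one_le_ordC {χ : DirichletCharacter ℂ q} {s : ℂ} (h : clear χ s = 0) :
    1 ≤ analyticOrderNatAt (clear χ) s := by
  have hA := (differentiable_clear χ).analyticAt s
  have htop : analyticOrderAt (clear χ) s ≠ ⊤ := by
    refine AnalyticOnNhd.analyticOrderAt_ne_top_of_isPreconnected (U := Set.univ) (x := (2 : ℂ))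
      (fun z _ => (differentiable_clear χ).analyticAt z) isPreconnected_univ trivial trivial ?_
    rw [((differentiable_clear χ).analyticAt 2).analyticOrderAt_eq_zero.2 (clear_ne_zero χ (by norm_num))]
    simp
  have h0 : analyticOrderAt (clear χ) s ≠ 0 := fun h0 => hA.analyticOrderAt_eq_zero.1 h0 h
  rw [← Nat.cast_le (α := ℕ∞), Nat.cast_analyticOrderNatAt htop]
  exact Order.one_le_iff_pos.2 (pos_iff_ne_zero.2 h0)

theorem norm_sub_pt_le_of_mem {χ : DirichletCharacter ℂ q} {t : ℝ} {ρ : ℂ} (h : ρ ∈ nearAt χ t) :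
    ‖ρ - pt t‖ ≤ 1 / 4 :=
  ((exists_nearAt χ t).choose_spec.1 ρ h).2

/-- A factorisation about `2`, valid on a disc containing the box. -/
theorem exists_box_factor (χ : DirichletCharacter ℂ q) (U : ℝ) :
    ∃ (Z : Multiset ℂ) (h : ℂ → ℂ), Differentiable ℂ h ∧
      (∀ s, clear χ s = (Z.map fun ρ => s - ρ).prod * h s) ∧
      (∀ s : ℂ, s.re ∈ Icc (1 / 2 : ℝ) (3 / 2) → |s.im| ≤ |U| →
        h s ≠ 0 ∧ analyticOrderNatAt (clear χ) s = Z.count s) ∧
      ∀ ρ ∈ Z, clear χ ρ = 0 := by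
  obtain ⟨r₁, hr₁⟩ : ∃ r₁ : ℝ, r₁ = |U| + 3 := ⟨_, rfl⟩
  have hr₁0 : 0 < r₁ := by rw [hr₁]; linarith [abs_nonneg U]
  obtain ⟨f, hf⟩ : ∃ f : ℂ → ℂ, f = fun z => clear χ (2 + z) := ⟨_, rfl⟩
  have hdiff : Differentiable ℂ f := hf ▸ (differentiable_clear χ).comp (differentiable_id.const_add _)
  have h0 : f 0 ≠ 0 := by
    rw [hf]
    exact clear_ne_zero χ (by simp)
  obtain ⟨B, hB⟩ := (isCompact_sphere (0 : ℂ) (r₁ + 1)).exists_bound_of_continuousOn hdiff.continuous.continuousOn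
  obtain ⟨Z, h, hh, he, hZ, hne, -, hord⟩ := FA.RiemannMangoldt.exists_factor (f := f) (B := B / ‖f 0‖)
    (r := r₁ + 1) isOpen_univ (subset_univ _) hr₁0 (by linarith) hdiff.differentiableOn h0
    (fun z hz => (hB z hz).trans (le_of_eq (div_mul_cancel₀ B (norm_ne_zero_iff.2 h0)).symm))
  have hbox : ∀ s : ℂ, s.re ∈ Icc (1 / 2 : ℝ) (3 / 2) → |s.im| ≤ |U| → s - 2 ∈ closedBall (0 : ℂ) r₁ :=
    fun s h1 h2 => by
    rw [mem_closedBall_zero_iff, hr₁]
    refine (norm_le_abs_re_add_abs_im _).trans ?_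
    simp only [sub_re, sub_im, re_ofNat, im_ofNat, sub_zero]
    rw [abs_of_nonpos (by linarith [h1.2])]
    linarith [h1.1]
  refine ⟨Z.map fun w => 2 + w, fun s => h (s - 2),
    (differentiableOn_univ.1 hh).comp (differentiable_id.sub_const 2), fun s => ?_,
    fun s h1 h2 => ⟨hne _ (hbox s h1 h2), ?_⟩, fun ρ hρ => ?_⟩
  · have h1 := he (s - 2)
    rw [hf] at h1
    simp only [add_sub_cancel] at h1
    rw [h1, FA.RiemannMangoldt.rootProd, Multiset.map_map]
    congr 2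
    exact Multiset.map_congr rfl fun w _ => by simp only [Function.comp_apply]; ring
  · have h1 := hord _ (hbox s h1 h2)
    have h2 := analyticOrderAt_comp_of_deriv_ne_zero (f := clear χ) (g := fun z : ℂ => 2 + z)
      (z₀ := s - 2) (by fun_prop) (by simp)
    simp only [add_sub_cancel] at h2
    rw [hf, analyticOrderNatAt, show (fun z => clear χ (2 + z)) = clear χ ∘ fun z => 2 + z from rfl, h2] at h1
    rw [analyticOrderNatAt, h1]
    conv_rhs => rw [show s = (fun w => (2 : ℂ) + w) (s - 2) by simp]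
    rw [Multiset.count_map_eq_count' _ _ (fun a b h => add_left_cancel h)]
  · obtain ⟨w, hw, rfl⟩ := Multiset.mem_map.1 hρ
    have h1 := he w
    rw [hf, show FA.RiemannMangoldt.rootProd Z w = 0 from Multiset.prod_eq_zero
      (Multiset.mem_map.2 ⟨w, hw, sub_self w⟩), zero_mul] at h1
    exact h1

theorem finite_zerosTo (χ : DirichletCharacter ℂ q) (U : ℝ) :
    {ρ : ℂ | clear χ ρ = 0 ∧ 1 / 2 ≤ ρ.re ∧ |ρ.im| ≤ U}.Finite := by
  obtain ⟨Z, h, -, -, hbox, -⟩ := exists_box_factor χ U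
  refine Z.toFinset.finite_toSet.subset fun ρ ⟨h1, h2, h3⟩ => Finset.mem_coe.2 (Multiset.mem_toFinset.2 ?_)
  have h4 := (hbox ρ ⟨h2, by linarith [re_lt_one_of_clear h1]⟩ (h3.trans (le_abs_self U))).2
  exact Multiset.one_le_count_iff_mem.1 (h4 ▸ one_le_ordC h1)

/-- The zeros with `re ≥ 1 / 2` and `|im| ≤ U`. -/
def zerosTo (χ : DirichletCharacter ℂ q) (U : ℝ) : Finset ℂ := (finite_zerosTo χ U).toFinset

theorem mem_zerosTo {χ : DirichletCharacter ℂ q} {U : ℝ} {ρ : ℂ} :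
    ρ ∈ zerosTo χ U ↔ clear χ ρ = 0 ∧ 1 / 2 ≤ ρ.re ∧ |ρ.im| ≤ U := by
  rw [zerosTo, Set.Finite.mem_toFinset]; rfl

theorem card_zerosTo_le_sum (χ : DirichletCharacter ℂ q) (U : ℝ) :
    ((zerosTo χ U).card : ℝ) ≤ ∑ ρ ∈ zerosTo χ U, (analyticOrderNatAt (clear χ) ρ : ℝ) := by
  have := Finset.card_nsmul_le_sum (zerosTo χ U) (fun ρ => (analyticOrderNatAt (clear χ) ρ : ℝ)) 1
    fun ρ hρ => Nat.one_le_cast.2 (one_le_ordC (mem_zerosTo.1 hρ).1)
  rwa [nsmul_eq_mul, mul_one] at this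

theorem sum_inv_one_add_sq_le (m : ℕ) : ∀ M : ℕ, m ≤ M →
    ∑ i ∈ Finset.Ico m M, 1 / (1 + (i : ℝ) ^ 2) ≤ 4 / ((m : ℝ) + 1) - 4 / ((M : ℝ) + 1) := by
  intro M hM
  induction M, hM using Nat.le_induction with
  | base => simp
  | succ M hM ih =>
    rw [Finset.sum_Ico_succ_top hM]
    push_cast
    have h : 1 / (1 + (M : ℝ) ^ 2) ≤ 4 / ((M : ℝ) + 1) - 4 / ((M : ℝ) + 1 + 1) := by
      rw [div_sub_div _ _ (by positivity) (by positivity), div_le_div_iff₀ (by positivity) (by positivity)]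
      nlinarith [sq_nonneg (2 * (M : ℝ) - 1), (Nat.cast_nonneg M : (0 : ℝ) ≤ M)]
    linarith

/-- **The zeros beyond `T`, weighted by `1 / (1 + γ ^ 2)`.** -/
theorem exists_sum_weight_le : ∃ C : ℝ, 1 ≤ C ∧ ∀ (q : ℕ) [NeZero q] (χ : DirichletCharacter ℂ q)
    (S : Finset ℂ) (U T : ℝ), 0 ≤ T → (∀ ρ ∈ S, clear χ ρ = 0 ∧ 1 / 2 ≤ ρ.re ∧ T ≤ |ρ.im| ∧ |ρ.im| ≤ U) →
      ∑ ρ ∈ S, (analyticOrderNatAt (clear χ) ρ : ℝ) / (1 + ρ.im ^ 2) ≤ C * famL q U / (T + 1) := by
  obtain ⟨C, hC, hunit⟩ := exists_card_unit_le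
  refine ⟨32 * C, by linarith, fun q _ χ S U T hT hS => ?_⟩
  obtain ⟨M, hM⟩ : ∃ M : ℕ, M = ⌊|U| + 1⌋₊ + 1 := ⟨_, rfl⟩
  obtain ⟨m, hm⟩ : ∃ m : ℕ, m = ⌈T - 1 / 2⌉₊ := ⟨_, rfl⟩
  have hH := famL_pos q U
  have hnat : ∀ k : ℤ, ((k.natAbs : ℕ) : ℝ) = |(k : ℝ)| := fun k => by rw [Nat.cast_natAbs, Int.cast_abs]
  have hmap : ∀ ρ ∈ S, (round ρ.im).natAbs ∈ Finset.Ico m M := fun ρ hρ => by
    obtain ⟨-, -, h3, h4⟩ := hS ρ hρ
    have h5 := (abs_sub_abs_le_abs_sub ρ.im (round ρ.im)).trans (abs_sub_round ρ.im)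
    have h6 := (abs_sub_abs_le_abs_sub (round ρ.im : ℝ) ρ.im).trans
      ((abs_sub_comm _ _).trans_le (abs_sub_round ρ.im))
    have h7 := h4.trans (le_abs_self U)
    rw [Finset.mem_Ico]
    refine ⟨?_, ?_⟩
    · rw [hm, Nat.ceil_le, hnat]
      linarith
    · rw [hM, Nat.lt_succ_iff, Nat.le_floor_iff (by linarith [abs_nonneg U]), hnat]
      linarith
  rw [← Finset.sum_fiberwise_of_maps_to hmap]
  refine (Finset.sum_le_sum (g := fun k : ℕ => 4 * C * famL q U * (1 / (1 + (k : ℝ) ^ 2)))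
    fun k hk => ?_).trans ?_
  · obtain ⟨F, hF⟩ : ∃ F, F = S.filter fun ρ => (round ρ.im).natAbs = k := ⟨_, rfl⟩
    rw [← hF]
    have hk2 : ∀ ρ ∈ F, 1 + (k : ℝ) ^ 2 ≤ 2 * (1 + ρ.im ^ 2) := fun ρ hρ => by
      rw [hF, Finset.mem_filter] at hρ
      rw [← hρ.2, hnat, sq_abs]
      have h1 := abs_sub_round ρ.im
      have h2 : ((round ρ.im : ℝ) - ρ.im) ^ 2 ≤ (1 / 2) ^ 2 := by
        rw [← sq_abs]
        exact pow_le_pow_left₀ (abs_nonneg _) (by rwa [abs_sub_comm]) 2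
      nlinarith [sq_nonneg ((round ρ.im : ℝ) - 2 * ρ.im)]
    have hwin : ∀ e : ℤ, e.natAbs = k → ∀ G ⊆ F, (∀ ρ ∈ G, round ρ.im = e) →
        ∑ ρ ∈ G, (analyticOrderNatAt (clear χ) ρ : ℝ) ≤ C * famL q U := fun e he G hG hGe => by
      rcases G.eq_empty_or_nonempty with rfl | ⟨ρ, hρ⟩
      · rw [Finset.sum_empty]
        positivity
      refine (hunit q χ e G fun σ hσ => ?_).trans (mul_le_mul_of_nonneg_left ?_ (by linarith))
      · obtain ⟨h1, h2, -, -⟩ := hS σ (by have := hG hσ; rw [hF, Finset.mem_filter] at this; exact this.1)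
        exact ⟨h1, h2, hGe σ hσ ▸ abs_sub_round σ.im⟩
      · have h1 := hG hρ
        rw [hF, Finset.mem_filter] at h1
        obtain ⟨-, -, -, h4⟩ := hS ρ h1.1
        have h6 := (abs_sub_abs_le_abs_sub (round ρ.im : ℝ) ρ.im).trans
          ((abs_sub_comm _ _).trans_le (abs_sub_round ρ.im))
        rw [hGe ρ hρ] at h6
        refine ht_le_famL (NeZero.pos q) le_rfl ?_
        linarith [le_abs_self U]
    have hsum : ∑ ρ ∈ F, (analyticOrderNatAt (clear χ) ρ : ℝ) ≤ 2 * C * famL q U := by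
      rw [← Finset.sum_filter_add_sum_filter_not F fun ρ => round ρ.im = (k : ℤ)]
      have h1 := hwin k (Int.natAbs_natCast k) (F.filter fun ρ => round ρ.im = (k : ℤ))
        (Finset.filter_subset _ _) fun ρ hρ => (Finset.mem_filter.1 hρ).2
      have h2 := hwin (-k) (by rw [Int.natAbs_neg, Int.natAbs_natCast])
        (F.filter fun ρ => ¬ round ρ.im = (k : ℤ)) (Finset.filter_subset _ _) fun ρ hρ => by
          obtain ⟨h3, h4⟩ := Finset.mem_filter.1 hρ
          rw [hF, Finset.mem_filter] at h3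
          omega
      linarith
    calc ∑ ρ ∈ F, (analyticOrderNatAt (clear χ) ρ : ℝ) / (1 + ρ.im ^ 2)
        ≤ ∑ ρ ∈ F, (analyticOrderNatAt (clear χ) ρ : ℝ) * (2 / (1 + (k : ℝ) ^ 2)) := by
          refine Finset.sum_le_sum fun ρ hρ => ?_
          rw [div_eq_mul_inv]
          refine mul_le_mul_of_nonneg_left ?_ (Nat.cast_nonneg _)
          rw [inv_eq_one_div, div_le_div_iff₀ (by positivity) (by positivity)]
          linarith [hk2 ρ hρ]
      _ ≤ 2 * C * famL q U * (2 / (1 + (k : ℝ) ^ 2)) := by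
          rw [← Finset.sum_mul]
          exact mul_le_mul_of_nonneg_right hsum (by positivity)
      _ = _ := by ring
  · rw [← Finset.mul_sum]
    rcases le_or_gt m M with hmM | hmM
    · refine (mul_le_mul_of_nonneg_left ((sum_inv_one_add_sq_le m M hmM).trans
        (sub_le_self _ (by positivity))) (by positivity)).trans ?_
      have h1 : (T + 1) / 2 ≤ (m : ℝ) + 1 := by linarith [hm ▸ Nat.le_ceil (T - 1 / 2)]
      refine (mul_le_mul_of_nonneg_left (div_le_div_of_nonneg_left (by norm_num) (by linarith) h1)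
        (by positivity)).trans (le_of_eq ?_)
      field_simp
      ring
    · rw [Finset.Ico_eq_empty_of_le hmM.le, Finset.sum_empty, mul_zero]
      positivity

/-- **The logarithmic derivative in the strip `61 / 64 ≤ re ≤ 5 / 4`.** -/
theorem norm_logDeriv_clear_le (χ : DirichletCharacter ℂ q) {U : ℝ} {s : ℂ} (hre : 61 / 64 ≤ s.re)
    (hre' : s.re ≤ 5 / 4) (him : |s.im| ≤ U) (hne : clear χ s ≠ 0) :
    ‖logDeriv (clear χ) s‖ ≤ 448 * rimG * famL q U +
      ∑ ρ ∈ zerosTo χ (U + 1), (analyticOrderNatAt (clear χ) ρ : ℝ) *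
        (if |s.im - ρ.im| ≤ 1 / 4 then ‖s - ρ‖⁻¹ else 0) := by
  have hd : ‖s - pt s.im‖ ≤ 3 / 16 := by
    rw [Complex.norm_def, Real.sqrt_le_left (by norm_num), normSq_apply, sub_re, sub_im, pt_re, pt_im,
      sub_self, mul_zero, add_zero]
    nlinarith
  have h := norm_iteratedDeriv_sub_le χ s.im 0 hd hne
  simp only [iteratedDeriv_zero, pow_zero, Nat.factorial_zero, Nat.cast_one, mul_one, zero_add, pow_one,
    one_mul, Nat.factorial_one] at h
  have hH : ht q s.im ≤ famL q U :=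
    ht_le_famL (NeZero.pos q) le_rfl (by linarith [le_abs_self U])
  have h1 : ‖((nearAt χ s.im).map fun ρ => (s - ρ)⁻¹).sum‖ ≤
      ∑ ρ ∈ zerosTo χ (U + 1), (analyticOrderNatAt (clear χ) ρ : ℝ) *
        (if |s.im - ρ.im| ≤ 1 / 4 then ‖s - ρ‖⁻¹ else 0) := by
    refine (norm_multiset_sum_le _).trans ?_
    rw [Multiset.map_map, Finset.sum_multiset_map_count]
    have hkey : ∀ ρ ∈ (nearAt χ s.im).toFinset, ρ ∈ zerosTo χ (U + 1) ∧ |s.im - ρ.im| ≤ 1 / 4 := fun ρ hρ => by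
      rw [Multiset.mem_toFinset] at hρ
      have h2 := norm_sub_pt_le_of_mem hρ
      have h3 := abs_le.1 ((abs_re_le_norm _).trans h2)
      have h4 := (abs_im_le_norm _).trans h2
      rw [sub_re, pt_re] at h3
      rw [sub_im, pt_im, abs_sub_comm] at h4
      have h5 := abs_sub_abs_le_abs_sub ρ.im s.im
      rw [abs_sub_comm ρ.im] at h5
      exact ⟨mem_zerosTo.2 ⟨clear_eq_zero_of_mem hρ, by linarith, by linarith⟩, h4⟩
    refine (Finset.sum_le_sum fun ρ hρ => le_of_eq ?_).trans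
      (Finset.sum_le_sum_of_subset_of_nonneg (fun ρ hρ => (hkey ρ hρ).1) fun ρ _ _ => by
        split_ifs <;> positivity)
    rw [if_pos (hkey ρ hρ).2, count_nearAt (norm_sub_pt_le_of_mem (Multiset.mem_toFinset.1 hρ)),
      nsmul_eq_mul, Function.comp_apply, norm_inv]
  have h2 := norm_le_norm_add_norm_sub' (logDeriv (clear χ) s) ((nearAt χ s.im).map fun ρ => (s - ρ)⁻¹).sum
  have h3 := mul_le_mul_of_nonneg_left hH (show 0 ≤ 448 * rimG by linarith [one_le_rimG])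
  linarith

end FA.Gallagher

end
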