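import Fermat.Agent.Gallagher.Density

/-!
# The zero-free region and the theorem of Page

With `L = log Q + 4 + log (|T| + 5)`, among all primitive characters of modulus `≤ Q` and all zeros with
`|im ρ| ≤ T` there is at most one, with multiplicity, with `1 - re ρ < zoneG / L`; its character is real
and not principal, and it is real.
-/

set_option autoImplicit false
set_option linter.unusedSectionVars false

noncomputable section

open Complex
open DirichletCharacter (LFunction changeLevel)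
open FA.LinnikPrime (clear pol pol_one pol_of_ne_one clear_of_ne_one clear_one_eq re_lt_one_of_clear chTerm
  chTerm_mul chTerm_im_eq_zero norm_chTerm_le abs_re_chTerm_le re_comb_nonneg line line_re line_im
  line_sub_self zetaErr zmom_zero_le sq_le_of_abs_le exists_zeta_zone LFunction_conj lg)
open scoped Real ComplexConjugate

namespace FA.Gallagher

variable {q : ℕ} [NeZero q] {χ : DirichletCharacter ℂ q}

theorem clear_eq_zero_iff {s : ℂ} (hs : s ≠ 1) : clear χ s = 0 ↔ LFunction χ s = 0 := by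
  by_cases h : χ = 1
  · subst h
    rw [clear_one_eq hs]
    exact ⟨fun h0 => (mul_eq_zero.1 h0).resolve_left (sub_ne_zero.2 hs), fun h0 => by
      rw [show DirichletCharacter.LFunctionTrivChar q s = 0 from h0, mul_zero]⟩
  · rw [clear_of_ne_one h]

/-- A zero stays under a change of level. -/
theorem clear_changeLevel_eq_zero {N : ℕ} [NeZero N] (hN : q ∣ N) {s : ℂ} (h : clear χ s = 0) :
    clear (changeLevel hN χ) s = 0 := by
  have hs : s ≠ 1 := fun e => by simpa [e] using re_lt_one_of_clear h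
  rw [clear_eq_zero_iff hs] at h ⊢
  rw [DirichletCharacter.LFunction_changeLevel hN χ (Or.inr hs), h, zero_mul]

/-- Two primitive characters stay apart at the common level. -/
theorem changeLevel_ne_of_ne {u v : Σ q : ℕ, DirichletCharacter ℂ q} [NeZero u.1] [NeZero v.1]
    (hu : u.2.IsPrimitive) (hv : v.2.IsPrimitive) (hne : u ≠ v) :
    changeLevel (Nat.dvd_mul_right u.1 v.1) u.2 ≠ changeLevel (Nat.dvd_mul_left v.1 u.1) v.2 := fun h => by
  obtain ⟨a, χ⟩ := u
  obtain ⟨b, ψ⟩ := v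
  have : NeZero (a * b) := ⟨mul_ne_zero (NeZero.ne a) (NeZero.ne b)⟩
  have hc := congrArg DirichletCharacter.conductor h
  rw [DirichletCharacter.conductor_changeLevel, DirichletCharacter.conductor_changeLevel, hu, hv] at hc
  dsimp only at hc
  subst hc
  exact hne (Sigma.ext rfl (heq_of_eq (DirichletCharacter.changeLevel_injective _ h)))

theorem ht_mul_le {q' Q : ℕ} (hq : q ≤ Q) (hq'0 : 0 < q') (hq' : q' ≤ Q) {t T : ℝ}
    (ht' : |t| ≤ |T| + 2) : ht (q * q') t ≤ 2 * famL Q T := by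
  have hq0 := NeZero.pos q
  have h1 := Real.log_le_log (Nat.cast_pos.2 hq0) (Nat.cast_le.2 hq)
  have h2 := Real.log_le_log (Nat.cast_pos.2 hq'0) (Nat.cast_le.2 hq')
  have h3 := Real.log_le_log (show 0 < |t| + 3 by linarith [abs_nonneg t])
    (show |t| + 3 ≤ |T| + 5 by linarith)
  have h4 := Real.log_nonneg (show (1 : ℝ) ≤ |T| + 5 by linarith [abs_nonneg T])
  rw [ht, famL, lg, lg, Nat.cast_mul, Real.log_mul (Nat.cast_ne_zero.2 hq0.ne') (Nat.cast_ne_zero.2 hq'0.ne')]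
  linarith

theorem ht_two_mul_le {Q : ℕ} (hq : q ≤ Q) {t T : ℝ} (ht' : |t| ≤ |T| + 2) :
    ht q (2 * t) ≤ 2 * famL Q T := by
  have h1 := Real.log_le_log (Nat.cast_pos.2 (NeZero.pos q)) (Nat.cast_le.2 hq)
  have h2 := Real.log_le_log (show 0 < |2 * t| + 3 by linarith [abs_nonneg (2 * t)])
    (show |2 * t| + 3 ≤ 2 * (|T| + 5) by rw [abs_mul, abs_two]; linarith [abs_nonneg T])
  rw [Real.log_mul two_ne_zero (by linarith [abs_nonneg T])] at h2
  have h3 := Real.log_nonneg (show (1 : ℝ) ≤ |T| + 5 by linarith [abs_nonneg T])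
  have h4 := Real.log_natCast_nonneg Q
  rw [ht, famL, lg, lg]
  linarith [Real.log_two_lt_d9]

theorem re_inv_le_of_abs {b t a : ℝ} (hb : 0 ≤ b) (ha : 0 < a) (ht' : a ≤ |t|) :
    ((b : ℂ) + (t : ℂ) * I)⁻¹.re ≤ b / a ^ 2 := by
  have h1 : a ^ 2 ≤ t ^ 2 := by rw [← sq_abs t]; exact pow_le_pow_left₀ ha.le ht' 2
  rw [inv_re, normSq_apply]
  simp only [add_re, ofReal_re, mul_re, I_re, mul_zero, ofReal_im, I_im, mul_one, sub_self, add_zero,
    add_im, mul_im, zero_add]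
  exact div_le_div_of_nonneg_left hb (by positivity) (by nlinarith)

/-- Three, four and one at any height. -/
theorem three_four_one {ρ : ℂ} (hρ : clear χ ρ = 0) {d : ℝ} (hd' : d = 1 - ρ.re) (hd : d ≤ 1 / 160)
    (hdz : d < exists_zeta_zone.choose) {W : ℝ} (hW : ht q ρ.im ≤ W) (hW2 : ht q (2 * ρ.im) ≤ 2 * W) :
    1 / (17 * d) ≤ 9 * (landG * W) ∨ χ ≠ 1 ∧ χ ^ 2 = 1 ∧ |ρ.im| < 12 * d := by
  obtain ⟨γ, hγ⟩ : ∃ γ, γ = ρ.im := ⟨_, rfl⟩
  rw [← hγ] at hW hW2 ⊢
  have hd0 : 0 < d := by linarith [re_lt_one_of_clear hρ]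
  have hx : 0 < 6 * d := by linarith
  have hx8 : 6 * d ≤ 1 / 8 := by linarith
  have hmem : ρ ∈ nearAt χ γ := mem_nearAt hρ (by linarith) (by rw [hγ, sub_self, abs_zero]; norm_num)
  have hpos := re_comb_nonneg 0 hx χ (χ ^ 2) χ γ (2 * γ) γ 3 4 1 0 fun n hn => by
    have hsq : chTerm (χ ^ 2) (2 * γ) n = chTerm χ γ n * chTerm χ γ n := by
      rw [chTerm_mul χ χ γ γ hn, sq, two_mul]
    obtain ⟨z, hz⟩ : ∃ z, z = chTerm χ γ n := ⟨_, rfl⟩
    have h1 : z.re * z.re + z.im * z.im ≤ 1 := by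
      rw [← normSq_apply, normSq_eq_norm_sq, hz]
      exact pow_le_one₀ (norm_nonneg _) (norm_chTerm_le χ γ n)
    rw [hsq, ← hz, mul_re]
    nlinarith [sq_nonneg (z.re + 1)]
  have h1 := re_mom_zero_le χ hx hx8 γ (T := {ρ}) (Multiset.singleton_le.2 hmem)
  rw [Multiset.map_singleton, Multiset.sum_singleton, hγ, line_sub_self, ← ofReal_inv, ofReal_re, ← hd',
    ← hγ] at h1
  have h2 := re_mom_zero_le (χ ^ 2) hx hx8 (2 * γ) (Multiset.zero_le _)
  rw [Multiset.map_zero, Multiset.sum_zero, sub_zero] at h2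
  have h0 := zmom_zero_le hx hx8
  have hland := one_le_landG
  have hW5 : 5 ≤ W := (five_le_ht q γ).trans hW
  have hze := (zetaErr_le q γ).trans
    (mul_le_mul_of_nonneg_left hW (by linarith : (0 : ℝ) ≤ landG / 2))
  have he1 := (errAt_zero_le q γ).trans
    (mul_le_mul_of_nonneg_left hW (by linarith : (0 : ℝ) ≤ landG / 2))
  have he2 := (errAt_zero_le q (2 * γ)).trans
    (mul_le_mul_of_nonneg_left hW2 (by linarith : (0 : ℝ) ≤ landG / 2))
  have hLW : 5 ≤ landG * W := hW5.trans (le_mul_of_one_le_left (by linarith) hland)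
  rw [show 1 / (6 * d) = 1 / 6 * d⁻¹ by rw [one_div, mul_inv, one_div]] at h0
  rw [show (6 * d + d)⁻¹ = 1 / 7 * d⁻¹ by rw [show 6 * d + d = 7 * d by ring, mul_inv, one_div]] at h1
  rw [show 1 / (17 * d) = 1 / 17 * d⁻¹ by rw [one_div, mul_inv, one_div]]
  have hdi : 0 < d⁻¹ := inv_pos.2 hd0
  by_cases hχ : χ = 1
  · subst hχ
    have h4 : 1 / 4 ≤ |γ| := by
      by_contra hlt
      have := exists_zeta_zone.choose_spec.2.2 q ρ hρ (hγ ▸ (not_le.1 hlt).le)
      linarith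
    have p1 := re_inv_le_of_abs hx.le (by norm_num : (0 : ℝ) < 1 / 4) h4
    have p2 := re_inv_le_of_abs hx.le (by norm_num : (0 : ℝ) < 1 / 4) (show 1 / 4 ≤ |2 * γ| by
      rw [abs_mul, abs_two]; linarith [abs_nonneg γ])
    rw [pol_one, one_mul] at h1
    rw [one_pow, pol_one, one_mul] at h2
    rw [one_pow] at hpos
    have p3 : 6 * d / (1 / 4 : ℝ) ^ 2 ≤ 1 := by
      rw [div_le_one (by norm_num)]
      norm_num
      linarith
    refine Or.inl ?_
    linarith
  rw [pol_of_ne_one hχ, zero_mul, zero_re] at h1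
  by_cases h2' : χ ^ 2 = 1
  · rcases lt_or_ge |γ| (12 * d) with hlt | hge
    · exact Or.inr ⟨hχ, h2', hlt⟩
    refine Or.inl ?_
    have hp : (pol (χ ^ 2) * (((6 * d : ℝ) : ℂ) + ((2 * γ : ℝ) : ℂ) * I)⁻¹).re ≤ 1 / 96 * d⁻¹ := by
      rw [h2', pol_one, one_mul]
      refine (re_inv_le_of_abs hx.le (show (0 : ℝ) < 24 * d by linarith)
        (by rw [abs_mul, abs_two]; linarith)).trans (le_of_eq ?_)
      field_simp
      ring
    linarith
  · refine Or.inl ?_
    rw [pol_of_ne_one h2', zero_mul, zero_re] at h2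
    linarith

/-- Two zeros of one real character against the pole. -/
theorem pair_le (hχ : χ ≠ 1) {ρ₁ ρ₂ : ℂ} (hρ : ρ₁ ::ₘ {ρ₂} ≤ nearAt χ 0) {d : ℝ} (hd : d ≤ 1 / 160)
    (h₁ : 1 - ρ₁.re ≤ d) (h₂ : 1 - ρ₂.re ≤ d) (hi₁ : |ρ₁.im| ≤ 12 * d) (hi₂ : |ρ₂.im| ≤ 12 * d) :
    1 / (50 * d) ≤ landG * ht q 0 := by
  have hm₁ : ρ₁ ∈ nearAt χ 0 := Multiset.mem_of_le hρ (Multiset.mem_cons_self _ _)
  have hm₂ : ρ₂ ∈ nearAt χ 0 :=
    Multiset.mem_of_le hρ (Multiset.mem_cons_of_mem (Multiset.mem_singleton_self _))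
  have hd0 : 0 < d := by linarith [re_lt_one_of_mem hm₁]
  have hx : 0 < 20 * d := by linarith
  have hpos := re_comb_nonneg 0 hx χ χ χ 0 0 0 1 1 0 0 fun n _ => by
    linarith [abs_le.1 (abs_re_chTerm_le χ 0 n)]
  have h1 := re_mom_zero_le χ hx (by linarith) 0 hρ
  rw [Multiset.map_cons, Multiset.sum_cons, Multiset.map_singleton, Multiset.sum_singleton,
    pol_of_ne_one hχ, zero_mul, zero_re] at h1
  have key : ∀ ρ : ℂ, ρ ∈ nearAt χ 0 → 1 - ρ.re ≤ d → |ρ.im| ≤ 12 * d →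
      7 / 200 * d⁻¹ ≤ (line (20 * d) 0 - ρ)⁻¹.re := fun ρ hm h hi => by
    have h' := re_lt_one_of_mem hm
    have hs := sq_le_of_abs_le hi
    rw [inv_re, normSq_apply, sub_re, sub_im, line_re, line_im, le_div_iff₀ (by nlinarith)]
    field_simp
    nlinarith
  have k1 := key ρ₁ hm₁ h₁ hi₁
  have k2 := key ρ₂ hm₂ h₂ hi₂
  have h0 := zmom_zero_le hx (by linarith)
  have hze := zetaErr_le q 0
  have he := errAt_zero_le q 0
  rw [show 1 / (20 * d) = 1 / 20 * d⁻¹ by rw [one_div, mul_inv, one_div]] at h0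
  rw [show 1 / (50 * d) = 1 / 50 * d⁻¹ by rw [one_div, mul_inv, one_div]]
  linarith

/-- Real zeros of two different real characters against the pole. -/
theorem two_characters_le {ψ : DirichletCharacter ℂ q} (hχ : χ ≠ 1) (hχ2 : χ ^ 2 = 1) (hψ : ψ ≠ 1)
    (hψ2 : ψ ^ 2 = 1) (hne : χ ≠ ψ) {ρ σ : ℂ} (hρ : clear χ ρ = 0) (hσ : clear ψ σ = 0)
    (hρi : ρ.im = 0) (hσi : σ.im = 0) {d : ℝ} (hd : d ≤ 1 / 160) (h₁ : 1 - ρ.re ≤ d)
    (h₂ : 1 - σ.re ≤ d) : 1 / (50 * d) ≤ 2 * (landG * ht q 0) := by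
  have hd0 : 0 < d := by linarith [re_lt_one_of_clear hρ]
  have hx : 0 < 20 * d := by linarith
  have hρm : ρ ∈ nearAt χ 0 := mem_nearAt hρ (by linarith) (by rw [hρi, sub_self, abs_zero]; norm_num)
  have hσm : σ ∈ nearAt ψ 0 := mem_nearAt hσ (by linarith) (by rw [hσi, sub_self, abs_zero]; norm_num)
  have hprod : χ * ψ ≠ 1 := fun h => hne (by
    calc χ = χ * (ψ * ψ) := by rw [← sq, hψ2, mul_one]
      _ = ψ := by rw [← mul_assoc, h, one_mul])
  have hpos := re_comb_nonneg 0 hx χ ψ (χ * ψ) 0 0 0 1 1 1 1 fun n hn => by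
    have e : chTerm (χ * ψ) 0 n = chTerm χ 0 n * chTerm ψ 0 n := by
      rw [chTerm_mul χ ψ 0 0 hn, add_zero]
    rw [e, mul_re, chTerm_im_eq_zero hχ2, zero_mul, sub_zero]
    have ha := abs_le.1 (abs_re_chTerm_le χ 0 n)
    have hb := abs_le.1 (abs_re_chTerm_le ψ 0 n)
    nlinarith
  have h1 := re_mom_zero_le χ hx (by linarith) 0 (T := {ρ}) (Multiset.singleton_le.2 hρm)
  have h1' := re_mom_zero_le ψ hx (by linarith) 0 (T := {σ}) (Multiset.singleton_le.2 hσm)
  have h3 := re_mom_zero_le (χ * ψ) hx (by linarith) 0 (Multiset.zero_le _)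
  rw [Multiset.map_singleton, Multiset.sum_singleton, pol_of_ne_one hχ, zero_mul, zero_re,
    ← hρi, line_sub_self, ← ofReal_inv, ofReal_re, hρi] at h1
  rw [Multiset.map_singleton, Multiset.sum_singleton, pol_of_ne_one hψ, zero_mul, zero_re,
    ← hσi, line_sub_self, ← ofReal_inv, ofReal_re, hσi] at h1'
  rw [Multiset.map_zero, Multiset.sum_zero, pol_of_ne_one hprod, zero_mul, zero_re] at h3
  have k1 : (21 * d)⁻¹ ≤ (20 * d + (1 - ρ.re))⁻¹ :=
    inv_anti₀ (by linarith [re_lt_one_of_clear hρ]) (by linarith)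
  have k2 : (21 * d)⁻¹ ≤ (20 * d + (1 - σ.re))⁻¹ :=
    inv_anti₀ (by linarith [re_lt_one_of_clear hσ]) (by linarith)
  rw [mul_inv] at k1 k2
  have h0 := zmom_zero_le hx (by linarith)
  have hze := zetaErr_le q 0
  have he := errAt_zero_le q 0
  rw [show 1 / (20 * d) = 1 / 20 * d⁻¹ by rw [one_div, mul_inv, one_div]] at h0
  rw [show 1 / (50 * d) = 1 / 50 * d⁻¹ by rw [one_div, mul_inv, one_div]]
  have hdi : 0 < d⁻¹ := inv_pos.2 hd0
  linarith

/-- The width of the region at height `L`: `zoneG / L`. -/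
def zoneG : ℝ := min (min exists_zeta_zone.choose (1 / 160)) (1 / (1000 * landG))

theorem zoneG_pos : 0 < zoneG :=
  lt_min (lt_min exists_zeta_zone.choose_spec.1 (by norm_num))
    (one_div_pos.2 (by linarith [one_le_landG]))

theorem zoneG_div_le {W : ℝ} (hW : 1 ≤ W) :
    zoneG / W ≤ exists_zeta_zone.choose ∧ zoneG / W ≤ 1 / 160 :=
  have h : zoneG / W ≤ zoneG := div_le_self zoneG_pos.le hW
  ⟨h.trans ((min_le_left _ _).trans (min_le_left _ _)), h.trans ((min_le_left _ _).trans (min_le_right _ _))⟩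

theorem not_le_of_lt_zoneG {d W N : ℝ} (hd0 : 0 < d) (hW : 0 < W) (hd : d < zoneG / W) (hN : 0 < N)
    (hN' : N ≤ 1000) : ¬ 1 / d ≤ N * (landG * W) := fun h => by
  have hland := one_le_landG
  rw [div_le_iff₀ hd0] at h
  rw [lt_div_iff₀ hW] at hd
  have h1 : zoneG * (1000 * landG) ≤ 1 := (le_div_iff₀ (by linarith)).1 (min_le_right _ _)
  have h2 := mul_lt_mul_of_pos_left hd (mul_pos hN (show 0 < landG by linarith))
  have h3 := mul_le_mul_of_nonneg_right hN' (mul_nonneg (show 0 ≤ landG by linarith) zoneG_pos.le)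
  linarith

/-- **The zero-free region.** -/
theorem zone {Q : ℕ} {T : ℝ} (hq : q ≤ Q) {ρ : ℂ} (hρ : clear χ ρ = 0) (hi : |ρ.im| ≤ T)
    (hd : 1 - ρ.re < zoneG / famL Q T) : χ ≠ 1 ∧ χ ^ 2 = 1 ∧ ρ.im = 0 := by
  have hW := five_le_famL Q T
  obtain ⟨hz1, hz2⟩ := zoneG_div_le (show 1 ≤ famL Q T by linarith)
  have hd0 : 0 < 1 - ρ.re := by linarith [re_lt_one_of_clear hρ]
  have hiT : |ρ.im| ≤ |T| + 2 := by linarith [le_abs_self T]
  rcases three_four_one hρ rfl (by linarith) (by linarith) (ht_le_famL (NeZero.pos q) hq hiT)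
    (ht_two_mul_le hq hiT) with h | ⟨hχ, h2, hlt⟩
  · refine absurd ?_ (not_le_of_lt_zoneG hd0 (by linarith) hd (N := 153) (by norm_num) (by norm_num))
    rw [show 1 / (17 * (1 - ρ.re)) = 1 / 17 * (1 / (1 - ρ.re)) by rw [one_div_mul_one_div]] at h
    linarith
  refine ⟨hχ, h2, ?_⟩
  by_contra hne
  have hz : LFunction χ (conj ρ) = 0 := by
    rw [LFunction_conj hχ h2 (by linarith), ← clear_of_ne_one hχ, hρ, map_zero]
  have hmem : ρ ∈ nearAt χ 0 := mem_nearAt hρ (by linarith) (by rw [sub_zero]; linarith)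
  have hmem' : conj ρ ∈ nearAt χ 0 := mem_nearAt (by rw [clear_of_ne_one hχ]; exact hz)
    (by rw [conj_re]; linarith) (by rw [conj_im, sub_zero, abs_neg]; linarith)
  have hle : ρ ::ₘ {conj ρ} ≤ nearAt χ 0 := by
    rw [← Multiset.cons_erase hmem]
    refine Multiset.cons_le_cons _ (Multiset.singleton_le.2 ((Multiset.mem_erase_of_ne ?_).2 hmem'))
    exact fun h => hne (conj_eq_iff_im.1 h)
  have h := pair_le hχ hle (d := 1 - ρ.re) (by linarith) le_rfl (by rw [conj_re]) hlt.le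
    (by rw [conj_im, abs_neg]; exact hlt.le)
  refine not_le_of_lt_zoneG hd0 (by linarith) hd (N := 50) (by norm_num) (by norm_num) ?_
  rw [show 1 / (50 * (1 - ρ.re)) = 1 / 50 * (1 / (1 - ρ.re)) by rw [one_div_mul_one_div]] at h
  have := mul_le_mul_of_nonneg_left (ht_le_famL (NeZero.pos q) hq
    (show |(0 : ℝ)| ≤ |T| + 2 by rw [abs_zero]; linarith [abs_nonneg T]))
    (show 0 ≤ landG by linarith [one_le_landG])
  linarith

/-- **Page's theorem.** At most one zero, with multiplicity, over all the characters of the family. -/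
theorem zone_unique {Q : ℕ} {T : ℝ} {u v : Σ q : ℕ, DirichletCharacter ℂ q} (hu : u ∈ family Q)
    (hv : v ∈ family Q) {ρ σ : ℂ} (hρ : lfun u ρ = 0) (hρi : |ρ.im| ≤ T)
    (hρd : 1 - ρ.re < zoneG / famL Q T) (hσ : lfun v σ = 0) (hσi : |σ.im| ≤ T)
    (hσd : 1 - σ.re < zoneG / famL Q T) : u = v ∧ ρ = σ ∧ lord u ρ = 1 := by
  obtain ⟨hu1, huQ, hup⟩ := mem_family.1 hu
  obtain ⟨hv1, hvQ, hvp⟩ := mem_family.1 hv
  have : NeZero u.1 := ⟨by omega⟩
  have : NeZero v.1 := ⟨by omega⟩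
  rw [lfun_eq] at hρ hσ
  obtain ⟨hχ, hχ2, hρ0⟩ := zone huQ hρ hρi hρd
  obtain ⟨hψ, hψ2, hσ0⟩ := zone hvQ hσ hσi hσd
  have hW := five_le_famL Q T
  obtain ⟨-, hz2⟩ := zoneG_div_le (show 1 ≤ famL Q T by linarith)
  obtain ⟨d, hd⟩ : ∃ d, d = max (1 - ρ.re) (1 - σ.re) := ⟨_, rfl⟩
  have h₁ : 1 - ρ.re ≤ d := hd ▸ le_max_left _ _
  have h₂ : 1 - σ.re ≤ d := hd ▸ le_max_right _ _
  have hdz : d < zoneG / famL Q T := hd ▸ max_lt hρd hσd
  have hd0 : 0 < d := by linarith [re_lt_one_of_clear hρ]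
  have hland : 0 ≤ landG := by linarith [one_le_landG]
  have key : ∀ {N : ℝ}, 0 < N → N ≤ 1000 → ¬ 1 / (50 * d) ≤ N / 50 * (landG * famL Q T) :=
    fun hN hN' h => not_le_of_lt_zoneG hd0 (by linarith) hdz hN hN' (by
      rw [show 1 / (50 * d) = 1 / 50 * (1 / d) by rw [one_div_mul_one_div]] at h
      linarith)
  have h00 : |(0 : ℝ)| ≤ |T| + 2 := by rw [abs_zero]; linarith [abs_nonneg T]
  have hEq : u = v := by
    by_contra hne
    have : NeZero (u.1 * v.1) := ⟨mul_ne_zero (NeZero.ne _) (NeZero.ne _)⟩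
    have h := two_characters_le
      (χ := changeLevel (Nat.dvd_mul_right u.1 v.1) u.2) (ψ := changeLevel (Nat.dvd_mul_left v.1 u.1) v.2)
      (fun h => hχ ((DirichletCharacter.changeLevel_eq_one_iff _).1 h)) (by rw [← map_pow, hχ2, map_one])
      (fun h => hψ ((DirichletCharacter.changeLevel_eq_one_iff _).1 h)) (by rw [← map_pow, hψ2, map_one])
      (changeLevel_ne_of_ne hup hvp hne) (clear_changeLevel_eq_zero _ hρ) (clear_changeLevel_eq_zero _ hσ)
      hρ0 hσ0 (by linarith) h₁ h₂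
    have := mul_le_mul_of_nonneg_left (ht_mul_le huQ (NeZero.pos v.1) hvQ h00) hland
    exact key (N := 200) (by norm_num) (by norm_num) (by linarith)
  subst hEq
  have hρm : ρ ∈ nearAt u.2 0 := mem_nearAt hρ (by linarith) (by rw [hρ0, sub_self, abs_zero]; norm_num)
  have hσm : σ ∈ nearAt u.2 0 := mem_nearAt hσ (by linarith) (by rw [hσ0, sub_self, abs_zero]; norm_num)
  have hpair : ∀ τ ∈ (nearAt u.2 0).erase ρ, 1 - τ.re ≤ d → τ.im = 0 → False := fun τ hτ h hi => by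
    have hle : ρ ::ₘ {τ} ≤ nearAt u.2 0 := by
      rw [← Multiset.cons_erase hρm]
      exact Multiset.cons_le_cons _ (Multiset.singleton_le.2 hτ)
    have h' := pair_le hχ hle (by linarith) h₁ h (by rw [hρ0, abs_zero]; linarith)
      (by rw [hi, abs_zero]; linarith)
    have := mul_le_mul_of_nonneg_left (ht_le_famL (NeZero.pos u.1) huQ h00) hland
    exact key (N := 50) (by norm_num) (by norm_num) (by linarith)
  refine ⟨rfl, ?_, ?_⟩
  · by_contra hne
    exact hpair σ ((Multiset.mem_erase_of_ne fun h => hne h.symm).2 hσm) h₂ hσ0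
  · have hnot : ρ ∉ (nearAt u.2 0).erase ρ := fun h => hpair ρ h h₁ hρ0
    have hc : (nearAt u.2 0).count ρ = 1 := by
      rw [← Multiset.cons_erase hρm, Multiset.count_cons_self, Multiset.count_eq_zero.2 hnot]
    rw [lord, lfun_eq, count_nearAt (norm_sub_pt_le (re_lt_one_of_clear hρ).le (by linarith)
      (by rw [hρ0, sub_self, abs_zero]; norm_num)), hc, Nat.cast_one]

end FA.Gallagher

end
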